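import Fermat.Agent.Corollaries.KumE.Density
import Fermat.Agent.Corollaries.InvGal.Curve37

/-!
# The point `(0, 0)` on `y² + y = x³ - x` (helper62)

`W37 : y² + y = x³ - x` is the curve `37a`, `P = (0, 0) ∈ W37(ℚ)`.

* `not_exists_nsmul_of_redMod` : if `m (P mod ℓ) ≠ 0` and `#W(𝔽_ℓ) = p m`, then `P` is not divisible
  by `p` in `W(ℚ)`;
* `natDensity37_three`, `natDensity37_five`, `natDensity37_seven` : the primes `ℓ` for which
  `(0, 0)` is divisible by `3`, `5`, `7` in `W37(𝔽_ℓ)` have the natural densities `19/27`, `101/125`,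
  `295/343`.
-/

set_option autoImplicit false

noncomputable section

open WeierstrassCurve WeierstrassCurve.Affine WeierstrassCurve.Affine.Point Module
open scoped WeierstrassCurve.Affine

namespace Fermat.Agent.Cor.KumE

variable {W : WeierstrassCurve ℤ} {ℓ : ℕ} [hℓ : Fact ℓ.Prime]

theorem redMod_zero : RedMod ℓ (0 : PQ W) 0 := Or.inl ⟨Or.inl rfl, rfl⟩

theorem RedMod.nsmul (hgood : W.IsGoodPrimeFor ℓ) {P : PQ W}
    {b : (W.reductionMod ℓ).toAffine.Point} (h : RedMod ℓ P b) (n : ℕ) :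
    RedMod ℓ (n • P) (n • b) := by
  induction n with
  | zero => rw [zero_nsmul, zero_nsmul]; exact redMod_zero
  | succ n ih => rw [succ_nsmul, succ_nsmul]; exact ih.add hgood h

/-- a criterion: a point which is not divisible by `p` in `W(𝔽_ℓ)` -/
theorem not_exists_nsmul_of_redMod (hgood : W.IsGoodPrimeFor ℓ) {P : PQ W}
    {b : (W.reductionMod ℓ).toAffine.Point} (hb : RedMod ℓ P b) {p m : ℕ}
    (hcard : (W.reductionMod ℓ).card = p * m) (h : m • b ≠ 0) : ¬ ∃ R : PQ W, p • R = P := by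
  rintro ⟨R, rfl⟩
  obtain ⟨c, hc⟩ := exists_redMod hgood R
  have h2 : b = p • c := (existsUnique_redMod hgood _).unique hb (hc.nsmul hgood p)
  apply h
  rw [h2, ← mul_smul, mul_comm, ← hcard]
  exact card_nsmul_eq_zero'

/-- the reduction of a point with an `ℓ`-integral `x`-coordinate -/
theorem exists_redMod_some (hgood : W.IsGoodPrimeFor ℓ) {x y : ℚ}
    (h : (W.map (Int.castRingHom ℚ)).toAffine.Nonsingular x y) (hx : ¬ ℓ ∣ x.den) :
    ∃ h' : (W.reductionMod ℓ).toAffine.Nonsingular (x : ZMod ℓ) (y : ZMod ℓ),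
      RedMod ℓ (Point.some x y h : PQ W) (Point.some _ _ h') := by
  obtain ⟨b, hb⟩ := exists_redMod hgood (Point.some x y h : PQ W)
  rcases hb with ⟨h0, -⟩ | ⟨x', y', h1, h', heq, hx', hy', rfl⟩
  · rcases h0 with h0 | ⟨x', y', h1, heq, h2⟩
    · exact (Point.some_ne_zero _ h0).elim
    · rw [Point.some.injEq] at heq
      obtain ⟨rfl, rfl⟩ := heq
      exact (hx h2).elim
  · rw [Point.some.injEq] at heq
    obtain ⟨rfl, rfl⟩ := heq
    exact ⟨h', Or.inr ⟨x, y, h, h', rfl, hx, hy', rfl⟩⟩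

open InvGal

theorem nonsingular37 : (W37.map (Int.castRingHom ℚ)).toAffine.Nonsingular 0 0 := by
  rw [Affine.nonsingular_iff, Affine.equation_iff]
  simp [W37]

/-- the point `(0, 0)` -/
def P37 : PQ W37 := Point.some 0 0 nonsingular37

theorem card37_two : (W37.reductionMod 2).card = 5 := by
  rw [card_reductionMod W37 Nat.prime_two (isGood37 Nat.prime_two (by decide))]
  decide +kernel

theorem card37_three : (W37.reductionMod 3).card = 7 := by
  rw [card_reductionMod W37 Nat.prime_three (isGood37 Nat.prime_three (by decide))]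
  decide +kernel

theorem card37_seven : (W37.reductionMod 7).card = 9 := by
  rw [card_reductionMod W37 (by norm_num) (isGood37 (by norm_num) (by decide))]
  decide +kernel

theorem fact7 : Fact (Nat.Prime 7) := ⟨by norm_num⟩

attribute [local instance] fact7

theorem negY37 : (0 : ZMod 7) ≠ (W37.reductionMod 7).toAffine.negY 0 0 := by
  decide +kernel

theorem addX37 : (W37.reductionMod 7).toAffine.addX 0 0
    ((3 * 0 ^ 2 + 2 * (W37.reductionMod 7).toAffine.a₂ * 0 + (W37.reductionMod 7).toAffine.a₄ -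
      (W37.reductionMod 7).toAffine.a₁ * 0) / (0 - (W37.reductionMod 7).toAffine.negY 0 0)) ≠
    (0 : ZMod 7) := by
  decide +kernel

theorem three_nsmul37_ne (u v : ZMod 7) (huv : (W37.reductionMod 7).toAffine.Nonsingular u v)
    (hu : u = 0) (hv : v = 0) : 3 • (Point.some u v huv) ≠ 0 := by
  subst hu hv
  intro h5
  rw [succ_nsmul, two_nsmul, ← eq_neg_iff_add_eq_zero, Point.add_self_of_Y_ne negY37,
    Point.neg_some, Point.some.injEq] at h5
  have h6 := h5.1
  rw [slope_of_Y_ne rfl negY37] at h6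
  exact addX37 h6

theorem not_exists_nsmul37_five : ¬ ∃ R : PQ W37, 5 • R = P37 := by
  have hg := isGood37 Nat.prime_two (by decide)
  obtain ⟨h', hb⟩ := exists_redMod_some (ℓ := 2) hg nonsingular37 (by norm_num)
  refine not_exists_nsmul_of_redMod hg hb (m := 1) card37_two ?_
  rw [one_smul]
  exact Point.some_ne_zero _

theorem not_exists_nsmul37_seven : ¬ ∃ R : PQ W37, 7 • R = P37 := by
  have hg := isGood37 Nat.prime_three (by decide)
  obtain ⟨h', hb⟩ := exists_redMod_some (ℓ := 3) hg nonsingular37 (by norm_num)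
  refine not_exists_nsmul_of_redMod hg hb (m := 1) card37_three ?_
  rw [one_smul]
  exact Point.some_ne_zero _

theorem not_exists_nsmul37_three : ¬ ∃ R : PQ W37, 3 • R = P37 := by
  have hg := isGood37 (ℓ := 7) (by norm_num) (by decide)
  obtain ⟨h', hb⟩ := exists_redMod_some (ℓ := 7) hg nonsingular37 (by norm_num)
  have hx : ((0 : ℚ) : ZMod 7) = 0 := Rat.cast_zero
  exact not_exists_nsmul_of_redMod hg hb (m := 3) card37_seven (three_nsmul37_ne _ _ h' hx hx)

/-- **The primes `ℓ` for which `(0, 0)` is divisible by `3` in the group of the points of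
`y² + y = x³ - x` over `𝔽_ℓ` have the density `19/27`.** -/
theorem natDensity37_three : HasNaturalDensity {ℓ | ∃ _ : Fact ℓ.Prime, W37.IsGoodPrimeFor ℓ ∧
    ∃ b : (W37.reductionMod ℓ).toAffine.Point, RedMod ℓ P37 (3 • b)} (19 / 27) := by
  have h := natDensity_div_of_semistable W37_Δ_ne semistable37 (by decide) (irr37 Nat.prime_three)
    not_exists_nsmul37_three
  have h1 : (1 - (((3 : ℕ) : ℝ) ^ 2 - 1) / ((3 : ℕ) : ℝ) ^ 3) = 19 / 27 := by norm_num
  rwa [h1] at h

/-- For the divisibility by `5` the density is `101/125`. -/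
theorem natDensity37_five : HasNaturalDensity {ℓ | ∃ _ : Fact ℓ.Prime, W37.IsGoodPrimeFor ℓ ∧
    ∃ b : (W37.reductionMod ℓ).toAffine.Point, RedMod ℓ P37 (5 • b)} (101 / 125) := by
  have : Fact (Nat.Prime 5) := ⟨Nat.prime_five⟩
  have h := natDensity_div_of_semistable W37_Δ_ne semistable37 (by decide) (irr37 Nat.prime_five)
    not_exists_nsmul37_five
  have h1 : (1 - (((5 : ℕ) : ℝ) ^ 2 - 1) / ((5 : ℕ) : ℝ) ^ 3) = 101 / 125 := by norm_num
  rwa [h1] at h

/-- For the divisibility by `7` the density is `295/343`. -/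
theorem natDensity37_seven : HasNaturalDensity {ℓ | ∃ _ : Fact ℓ.Prime, W37.IsGoodPrimeFor ℓ ∧
    ∃ b : (W37.reductionMod ℓ).toAffine.Point, RedMod ℓ P37 (7 • b)} (295 / 343) := by
  have h := natDensity_div_of_semistable W37_Δ_ne semistable37 (by decide) (irr37 fact7.out)
    not_exists_nsmul37_seven
  have h1 : (1 - (((7 : ℕ) : ℝ) ^ 2 - 1) / ((7 : ℕ) : ℝ) ^ 3) = 295 / 343 := by norm_num
  rwa [h1] at h

end Fermat.Agent.Cor.KumE

end
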