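import Fermat.Agent.Corollaries.LN.Red
import Fermat.Agent.Corollaries.KumE.Curve37

/-!
# The point `(0, 0)` on `y² + y = x³ - x` is not divisible (helper62)

`W37 : y² + y = x³ - x`.

* `norm_xc_le_of_nsmul` : for every Weierstrass equation over `ℤ` and every prime `q`, good or bad:
  if `n R ≠ 0` has a `q`-integral `x`-coordinate, so has `R`;
* `egg_add` : the real points of `W37` with `x < 1/2` are the non trivial coset of the connected
  component of `0`; here for the rational points;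
* `isOfFinAddOrder37_iff` : `W37(ℚ)` has no torsion;
* `not_exists_nsmul37` : **for `n ≥ 2` there is no `R ∈ W37(ℚ)` with `n R = (0, 0)`**;
* `natDensity37`, `exists_smul_eq_add37` : the theorems of `KumE.Density` and `KumE.Curve` for the
  point `(0, 0)` and all odd primes `p`.
-/

set_option autoImplicit false

noncomputable section

open WeierstrassCurve WeierstrassCurve.Affine WeierstrassCurve.Affine.Point
open Fermat.Agent.ECRed Fermat.Agent.Cor.LN

namespace Fermat.Agent.Cor.KumE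

section Integral

variable {W : WeierstrassCurve ℤ} {q : ℕ} [hq : Fact q.Prime]

/-- **Integrality.**  If `n R ≠ 0` has a `q`-integral `x`-coordinate, so has `R`. -/
theorem norm_xc_le_of_nsmul {R : (EQQ W).Point} {n : ℕ} (h0 : n • R ≠ 0)
    (h : ‖((xc (n • R) : ℚ) : ℚ_[q])‖ ≤ 1) : ‖((xc R : ℚ) : ℚ_[q])‖ ≤ 1 := by
  classical
  by_contra hcon
  rw [not_le] at hcon
  have h1 : ptMap (EQQ W) (Rat.castHom ℚ_[q]) R ∈ E1 (redCurveQ (q := q) W) (isPlace q) := by
    rw [mem_E1_iff]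
    right
    rw [xc_ptMap]
    exact hcon
  have h2 := (E1 (redCurveQ (q := q) W) (isPlace q)).nsmul_mem h1 n
  rw [← map_nsmul, mem_E1_iff] at h2
  rcases h2 with h2 | h2
  · exact h0 (ptMap_injective (h2.trans (_root_.map_zero _).symm))
  · rw [xc_ptMap] at h2
    exact absurd h (not_le.2 h2)

/-- the same at all primes -/
theorem exists_int_xc_of_nsmul {R : (EQQ W).Point} {n : ℕ} (h0 : n • R ≠ 0) {a : ℤ}
    (h : xc (n • R) = a) : ∃ b c : ℤ, xc R = b ∧ yc R = c := by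
  have h1 : ∀ (q : ℕ) [Fact q.Prime], ‖((xc R : ℚ) : ℚ_[q])‖ ≤ 1 := by
    intro q hq
    refine norm_xc_le_of_nsmul h0 ?_
    rw [h]
    exact_mod_cast norm_intCast_le_one q a
  obtain ⟨b, hb⟩ := exists_int_of_norm_le_one h1
  obtain ⟨c, hc⟩ := exists_int_of_norm_le_one (fun q hq => norm_yc_le (h1 q))
  exact ⟨b, c, hb, hc⟩

end Integral

open InvGal

/-- the point lies on the component `x < 1/2` -/
def Egg (P : (EQQ W37).Point) : Prop := P ≠ 0 ∧ xc P < 1 / 2

theorem egg_some {x y : ℚ} (h : (EQQ W37).Nonsingular x y) :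
    Egg (Point.some x y h) ↔ x < 1 / 2 :=
  ⟨fun h => h.2, fun h' => ⟨Point.some_ne_zero _, h'⟩⟩

theorem not_egg_zero : ¬ Egg 0 := fun h => h.1 rfl

theorem eq37 {x y : ℚ} (h : (EQQ W37).Equation x y) : y ^ 2 + y = x ^ 3 - x := by
  rw [Affine.equation_iff] at h
  simp [W37] at h
  linear_combination h

/-- there are no points with `x` near `1/2` -/
theorem ne_half {x y : ℚ} (h : (EQQ W37).Equation x y) : x ≠ 1 / 2 := by
  rintro rfl
  have h1 := eq37 h
  nlinarith [sq_nonneg (y + 1 / 2)]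

/-- the `x`-coordinates of three points on a line -/
theorem prod_neg {x₁ y₁ x₂ y₂ : ℚ} (h₁ : (EQQ W37).Equation x₁ y₁)
    (h₂ : (EQQ W37).Equation x₂ y₂) (hxy : ¬ (x₁ = x₂ ∧ y₁ = (EQQ W37).negY x₂ y₂)) :
    (1 / 2 - x₁) * (1 / 2 - x₂) *
      (1 / 2 - (EQQ W37).addX x₁ x₂ ((EQQ W37).slope x₁ x₂ y₁ y₂)) < 0 := by
  have h := addPolynomial_slope h₁ h₂ hxy
  set L := (EQQ W37).slope x₁ x₂ y₁ y₂ with hL
  set x₃ := (EQQ W37).addX x₁ x₂ L with hx₃
  rw [addPolynomial_eq, neg_inj] at h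
  have h1 := congrArg (Polynomial.eval (1 / 2 : ℚ)) h
  simp only [Cubic.toPoly, Polynomial.eval_add, Polynomial.eval_mul, Polynomial.eval_sub,
    Polynomial.eval_C, Polynomial.eval_X, Polynomial.eval_pow] at h1
  have e1 : (EQQ W37).a₁ = 0 := by simp [W37]
  have e2 : (EQQ W37).a₂ = 0 := by simp [W37]
  have e3 : (EQQ W37).a₃ = 1 := by simp [W37]
  have e4 : (EQQ W37).a₄ = -1 := by simp [W37]
  have e6 : (EQQ W37).a₆ = 0 := by simp [W37]
  rw [e1, e2, e3, e4, e6] at h1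
  have h2 : (1 / 2 - x₁) * (1 / 2 - x₂) * (1 / 2 - x₃) =
      -(1 / 8) - (L * (1 / 2 - x₁) + y₁ + 1 / 2) ^ 2 := by
    rw [← h1]
    ring
  rw [h2]
  nlinarith [sq_nonneg (L * (1 / 2 - x₁) + y₁ + 1 / 2)]

/-- **The two components.** -/
theorem egg_add (P Q : (EQQ W37).Point) : Egg (P + Q) ↔ ¬ (Egg P ↔ Egg Q) := by
  rcases P with _ | ⟨x₁, y₁, h₁⟩
  · change Egg (0 + Q) ↔ ¬ (Egg 0 ↔ Egg Q)
    rw [zero_add]
    have := not_egg_zero
    tauto
  rcases Q with _ | ⟨x₂, y₂, h₂⟩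
  · change Egg (Point.some x₁ y₁ h₁ + 0) ↔ ¬ (Egg (Point.some x₁ y₁ h₁) ↔ Egg 0)
    rw [add_zero]
    have := not_egg_zero
    tauto
  by_cases hxy : x₁ = x₂ ∧ y₁ = (EQQ W37).negY x₂ y₂
  · rw [add_of_Y_eq hxy.1 hxy.2, egg_some, egg_some, hxy.1]
    have := not_egg_zero
    tauto
  · rw [add_some hxy, egg_some, egg_some, egg_some]
    have h3 := prod_neg h₁.1 h₂.1 hxy
    have h4 := ne_half h₁.1
    have h5 := ne_half h₂.1
    rcases lt_or_gt_of_ne h4 with h4 | h4 <;> rcases lt_or_gt_of_ne h5 with h5 | h5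
    · have h6 : 0 < (1 / 2 - x₁) * (1 / 2 - x₂) := mul_pos (by linarith) (by linarith)
      have h7 : ¬ ((EQQ W37).addX x₁ x₂ ((EQQ W37).slope x₁ x₂ y₁ y₂) < 1 / 2) := by
        intro h8
        have h9 := mul_pos h6 (sub_pos.2 h8)
        linarith
      exact ⟨fun h => (h7 h).elim, fun h => (h ⟨fun _ => h5, fun _ => h4⟩).elim⟩
    · have h6 : (1 / 2 - x₁) * (1 / 2 - x₂) < 0 := mul_neg_of_pos_of_neg (by linarith) (by linarith)
      have h7 : (EQQ W37).addX x₁ x₂ ((EQQ W37).slope x₁ x₂ y₁ y₂) < 1 / 2 := by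
        by_contra h8
        rw [not_lt] at h8
        have h9 := mul_nonneg_of_nonpos_of_nonpos h6.le (sub_nonpos.2 h8)
        linarith
      exact ⟨fun _ h => absurd (h.1 h4) (not_lt.2 h5.le), fun _ => h7⟩
    · have h6 : (1 / 2 - x₁) * (1 / 2 - x₂) < 0 := mul_neg_of_neg_of_pos (by linarith) (by linarith)
      have h7 : (EQQ W37).addX x₁ x₂ ((EQQ W37).slope x₁ x₂ y₁ y₂) < 1 / 2 := by
        by_contra h8
        rw [not_lt] at h8
        have h9 := mul_nonneg_of_nonpos_of_nonpos h6.le (sub_nonpos.2 h8)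
        linarith
      exact ⟨fun _ h => absurd (h.2 h5) (not_lt.2 h4.le), fun _ => h7⟩
    · have h6 : 0 < (1 / 2 - x₁) * (1 / 2 - x₂) := mul_pos_of_neg_of_neg (by linarith) (by linarith)
      have h7 : ¬ ((EQQ W37).addX x₁ x₂ ((EQQ W37).slope x₁ x₂ y₁ y₂) < 1 / 2) := by
        intro h8
        have h9 := mul_pos h6 (sub_pos.2 h8)
        linarith
      exact ⟨fun h => (h7 h).elim, fun h =>
        (h ⟨fun h => absurd h (not_lt.2 h4.le), fun h => absurd h (not_lt.2 h5.le)⟩).elim⟩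

theorem egg_of_nsmul {R : (EQQ W37).Point} {n : ℕ} (h : Egg (n • R)) : Egg R := by
  by_contra hR
  have h1 : ∀ n : ℕ, ¬ Egg (n • R) := by
    intro n
    induction n with
    | zero => rw [zero_nsmul]; exact not_egg_zero
    | succ n ih =>
      rw [succ_nsmul, egg_add]
      tauto
  exact h1 n h

theorem ap37_five : W37.apOfModel 5 = -2 := by
  rw [apOfModel_eq W37 Nat.prime_five (isGood37 Nat.prime_five (by decide))]
  decide +kernel

/-- `W37(ℚ)` has no torsion. -/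
theorem isOfFinAddOrder37_iff {P : (EQQ W37).Point} : IsOfFinAddOrder P ↔ P = 0 := by
  refine ⟨fun h => ?_, fun h => h ▸ IsOfFinAddOrder.zero⟩
  have h3 : Fact (Nat.Prime 3) := ⟨Nat.prime_three⟩
  have h5 : Fact (Nat.Prime 5) := ⟨Nat.prime_five⟩
  have hΔ3 : ¬ ((3 : ℕ) : ℤ) ∣ W37.Δ := by rw [W37_Δ]; norm_num
  have hΔ5 : ¬ ((5 : ℕ) : ℤ) ∣ W37.Δ := by rw [W37_Δ]; norm_num
  have c3 := card_torsion_dvd_apOfModel (W := W37) (q := 3) (by decide) hΔ3
  have c5 := card_torsion_dvd_apOfModel (W := W37) (q := 5) (by decide) hΔ5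
  rw [ap37_three] at c3
  rw [ap37_five] at c5
  norm_num at c3 c5
  have c : (Nat.card (AddCommGroup.torsion (EQQ W37).Point) : ℤ) ∣ 1 := by
    have := dvd_sub c5 c3
    norm_num at this
    exact this
  have c' : Nat.card (AddCommGroup.torsion (EQQ W37).Point) = 1 := by
    have h6 : ((Nat.card (AddCommGroup.torsion (EQQ W37).Point) : ℕ) : ℤ) ∣ ((1 : ℕ) : ℤ) := by
      exact_mod_cast c
    exact Nat.dvd_one.1 (Int.natCast_dvd_natCast.1 h6)
  have h7 := (Nat.card_eq_one_iff_unique.1 c').1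
  exact congrArg Subtype.val (h7.elim (⟨P, h⟩ : AddCommGroup.torsion (EQQ W37).Point) 0)

theorem nonsingular37_one : (EQQ W37).Nonsingular 1 0 := by
  rw [Affine.nonsingular_iff, Affine.equation_iff]
  simp [W37]

theorem nonsingular37_three : (EQQ W37).Nonsingular (-1) (-1) := by
  rw [Affine.nonsingular_iff, Affine.equation_iff]
  norm_num [W37]

theorem two_P37 : (P37 : (EQQ W37).Point) + P37 = Point.some 1 0 nonsingular37_one := by
  have hy : (0 : ℚ) ≠ (EQQ W37).negY 0 0 := by norm_num [negY, W37]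
  have hs : (EQQ W37).slope 0 0 0 0 = -1 := by
    rw [slope_of_Y_ne rfl hy]
    norm_num [negY, W37]
  rw [P37, Point.add_self_of_Y_ne hy, Point.some.injEq, hs]
  constructor <;> norm_num [addX, addY, negAddY, negY, W37]

theorem three_P37 : (P37 : (EQQ W37).Point) + P37 + P37 =
    Point.some (-1) (-1) nonsingular37_three := by
  have hs : (EQQ W37).slope 1 0 0 0 = 0 := by
    rw [slope_of_X_ne (by norm_num)]
    norm_num
  rw [two_P37, P37, Point.add_of_X_ne (by norm_num), Point.some.injEq, hs]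
  constructor <;> norm_num [addX, addY, negAddY, negY, W37]

theorem P37_ne_zero : (P37 : (EQQ W37).Point) ≠ 0 := Point.some_ne_zero _

/-- the integral points with `x < 1/2` -/
theorem eq_zsmul_of_int {R : (EQQ W37).Point} (hR : Egg R) {b c : ℤ} (hb : xc R = b)
    (hc : yc R = c) :
    ∃ m : ℤ, (m = 1 ∨ m = -1 ∨ m = 3 ∨ m = -3) ∧ R = m • (P37 : (EQQ W37).Point) := by
  rcases R with _ | ⟨x, y, h⟩
  · exact (hR.1 rfl).elim
  have hx : x = b := hb
  have hy : y = c := hc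
  subst hx hy
  have h1 := eq37 h.1
  have h1' : c ^ 2 + c = b ^ 3 - b := by exact_mod_cast h1
  have h2 : (b : ℚ) < 1 / 2 := (egg_some h).1 hR
  have h3 : b ≤ 0 := by
    have h4 : (b : ℚ) < (1 : ℤ) := by push_cast; linarith
    have h5 := Int.cast_lt.1 h4
    omega
  have h4 : 0 ≤ c ^ 2 + c := by
    rcases le_or_gt 0 c with h5 | h5
    · positivity
    · nlinarith
  have h5 : -1 ≤ b := by
    by_contra h6
    nlinarith [mul_nonneg_of_nonpos_of_nonpos h3 (show b + 2 ≤ 0 by omega),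
      mul_nonneg_of_nonpos_of_nonpos h3 h3, sq_nonneg (b + 1)]
  have h6 : c ^ 2 + c = 0 := by
    rw [h1']
    have h7 : b = 0 ∨ b = -1 := by omega
    rcases h7 with rfl | rfl <;> norm_num
  have h7 : c = 0 ∨ c = -1 := by
    have h8 : c * (c + 1) = 0 := by linear_combination h6
    rcases mul_eq_zero.1 h8 with h9 | h9
    · exact Or.inl h9
    · exact Or.inr (by omega)
  have e3 : (3 : ℤ) • (P37 : (EQQ W37).Point) = Point.some (-1) (-1) nonsingular37_three := by
    rw [← three_P37, show (3 : ℤ) = 1 + 1 + 1 by norm_num, add_zsmul, add_zsmul, one_zsmul]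
  have h8 : b = 0 ∨ b = -1 := by omega
  rcases h8 with rfl | rfl <;> rcases h7 with rfl | rfl
  · refine ⟨1, Or.inl rfl, ?_⟩
    rw [one_smul, P37, Point.some.injEq]
    norm_num
  · refine ⟨-1, Or.inr (Or.inl rfl), ?_⟩
    rw [neg_smul, one_smul, P37, Point.neg_some, Point.some.injEq]
    norm_num [negY, W37]
  · refine ⟨-3, Or.inr (Or.inr (Or.inr rfl)), ?_⟩
    rw [neg_smul, e3, Point.neg_some, Point.some.injEq]
    norm_num [negY, W37]
  · refine ⟨3, Or.inr (Or.inr (Or.inl rfl)), ?_⟩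
    rw [e3, Point.some.injEq]
    norm_num

/-- **The point `(0, 0)` of the curve `y² + y = x³ - x` is not divisible in the group of the rational
points**: for `n ≥ 2` there is no `R ∈ W37(ℚ)` with `n R = (0, 0)`. -/
theorem not_exists_nsmul37 {n : ℕ} (hn : 2 ≤ n) : ¬ ∃ R : PQ W37, n • R = P37 := by
  rintro ⟨R, hR⟩
  replace hR : n • (R : (EQQ W37).Point) = P37 := hR
  have h0 : n • (R : (EQQ W37).Point) ≠ 0 := by
    rw [hR]
    exact P37_ne_zero
  obtain ⟨b, c, hb, hc⟩ := exists_int_xc_of_nsmul (W := W37) h0 (a := 0) (by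
    rw [hR]
    norm_num
    rfl)
  have hegg : Egg (R : (EQQ W37).Point) := by
    refine egg_of_nsmul (n := n) ?_
    rw [hR]
    exact (egg_some nonsingular37).2 (by norm_num)
  obtain ⟨m, hm, hmR⟩ := eq_zsmul_of_int hegg hb hc
  refine P37_ne_zero (isOfFinAddOrder37_iff.1 ?_)
  rw [isOfFinAddOrder_iff_zsmul_eq_zero]
  refine ⟨n * m - 1, ?_, ?_⟩
  · rcases hm with rfl | rfl | rfl | rfl <;> omega
  · rw [sub_smul, one_smul, mul_smul, ← hmR, natCast_zsmul, hR, sub_self]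

/-- **For every odd prime `p` the primes `ℓ` for which `(0, 0)` is divisible by `p` in the group of
the points of `y² + y = x³ - x` over `𝔽_ℓ` have the density `1 - (p² - 1) / p³`.** -/
theorem natDensity37 {p : ℕ} [hp : Fact p.Prime] (hp2 : p ≠ 2) :
    HasNaturalDensity {ℓ | ∃ _ : Fact ℓ.Prime, W37.IsGoodPrimeFor ℓ ∧
      ∃ b : (W37.reductionMod ℓ).toAffine.Point, RedMod ℓ P37 (p • b)}
      (1 - ((p : ℝ) ^ 2 - 1) / p ^ 3) :=
  natDensity_div_of_semistable W37_Δ_ne semistable37 hp2 (irr37 hp.out)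
    (not_exists_nsmul37 hp.out.two_le)

/-- **The fields of the points `(1/pⁿ) (0, 0)` of `y² + y = x³ - x`.**  For every odd prime `p`, every
`n` and every `Q` with `pⁿ Q = (0, 0)`, each pair of an automorphism `g` of `W37[pⁿ]` and a point
`T ∈ W37[pⁿ]` is given by an element of `Gal(ℚ̄/ℚ)`: it acts as `g` on `W37[pⁿ]` and maps `Q` to
`Q + T`. -/
theorem exists_smul_eq_add37 {p : ℕ} [hp : Fact p.Prime] (hp2 : p ≠ 2) {n : ℕ} {Q : PQbar W37}
    (hQ : p ^ n • Q = incl W37 P37)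
    (g : Submodule.torsionBy ℤ (PQbar W37) ((p ^ n : ℕ) : ℤ) ≃ₗ[ZMod (p ^ n)]
      Submodule.torsionBy ℤ (PQbar W37) ((p ^ n : ℕ) : ℤ)) {T : PQbar W37}
    (hT : p ^ n • T = 0) :
    ∃ σ : AlgebraicClosure ℚ ≃ₐ[ℚ] AlgebraicClosure ℚ,
      (∀ x : Submodule.torsionBy ℤ (PQbar W37) ((p ^ n : ℕ) : ℤ), σ • x = g x) ∧
      σ • Q = Q + T :=
  exists_smul_eq_add_of_semistable W37_Δ_ne semistable37 hp2 (irr37 hp.out)
    (not_exists_nsmul37 hp.out.two_le) hQ g hT

end Fermat.Agent.Cor.KumE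

end
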