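import Fermat.Agent.Corollaries.Surj.Count

/-!
# Affine transformations of `𝔽_p²` with a fixed point (helper62)

`AG p` is the group of the transformations `v ↦ t + g v` of `𝔽_p²`, `g ∈ GL₂(𝔽_p)`.

* `AG.card_eq` : it has `p² #GL₂(𝔽_p)` elements;
* `AG.card_fixed` : `p² #GL₂(𝔽_p) - (p² - p) (p³ - 2 p) - (p - 1)` of them have a fixed point
  (`p` odd).
-/

set_option autoImplicit false

noncomputable section

open Matrix

namespace Fermat.Agent.Cor.KumE

/-- the transformation `v ↦ t + g v` of `𝔽_p²` -/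
@[ext] structure AG (p : ℕ) where
  /-- the translation part -/
  t : Fin 2 → ZMod p
  /-- the linear part -/
  g : GL (Fin 2) (ZMod p)

namespace AG

variable {p : ℕ}

local notation "M2" => Matrix (Fin 2) (Fin 2) (ZMod p)
local notation "GL2" => GL (Fin 2) (ZMod p)
local notation "V2" => Fin 2 → ZMod p

instance instMul : Mul (AG p) := ⟨fun a b => ⟨a.t + (a.g : M2) *ᵥ b.t, a.g * b.g⟩⟩
instance instOne : One (AG p) := ⟨⟨0, 1⟩⟩
instance instInv : Inv (AG p) := ⟨fun a => ⟨-(((a.g⁻¹ : GL2) : M2) *ᵥ a.t), a.g⁻¹⟩⟩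

theorem mul_t (a b : AG p) : (a * b).t = a.t + (a.g : M2) *ᵥ b.t := rfl
theorem mul_g (a b : AG p) : (a * b).g = a.g * b.g := rfl
theorem one_t : (1 : AG p).t = 0 := rfl
theorem one_g : (1 : AG p).g = 1 := rfl
theorem inv_t (a : AG p) : (a⁻¹).t = -(((a.g⁻¹ : GL2) : M2) *ᵥ a.t) := rfl
theorem inv_g (a : AG p) : (a⁻¹).g = a.g⁻¹ := rfl

instance instGroup : Group (AG p) :=
  Group.ofLeftAxioms
    (fun a b c => by
      refine AG.ext ?_ (mul_assoc a.g b.g c.g)
      rw [mul_t, mul_t, mul_t, mul_t, mul_g, Units.val_mul, Matrix.mulVec_add,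
        Matrix.mulVec_mulVec, add_assoc])
    (fun a => by
      refine AG.ext ?_ (one_mul a.g)
      rw [mul_t, one_t, one_g, Units.val_one, Matrix.one_mulVec, zero_add])
    (fun a => by
      refine AG.ext ?_ (inv_mul_cancel a.g)
      rw [mul_t, inv_t, inv_g, one_t, neg_add_cancel])

/-- the transformations as pairs -/
def equivProd : AG p ≃ (GL2) × (V2) where
  toFun a := (a.g, a.t)
  invFun x := ⟨x.2, x.1⟩
  left_inv _ := rfl
  right_inv _ := rfl

variable [hp : Fact p.Prime]

instance instFinite : Finite (AG p) := Finite.of_equiv _ equivProd.symm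

theorem card_V2 : Nat.card (V2) = p ^ 2 := by
  rw [Nat.card_fun, Nat.card_eq_fintype_card, Nat.card_eq_fintype_card, Fintype.card_fin,
    ZMod.card]

theorem card_eq : Nat.card (AG p) = p ^ 2 * Nat.card (GL2) := by
  rw [Nat.card_congr equivProd, Nat.card_prod, card_V2, mul_comm]

/-- the affine action -/
def act (a : AG p) (v : V2) : V2 := a.t + (a.g : M2) *ᵥ v

theorem act_mul (a b : AG p) (v : V2) : act (a * b) v = act a (act b v) := by
  rw [act, act, act, mul_t, mul_g, Units.val_mul, Matrix.mulVec_add, Matrix.mulVec_mulVec,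
    add_assoc]

theorem act_one (v : V2) : act (1 : AG p) v = v := by
  rw [act, one_t, one_g, Units.val_one, Matrix.one_mulVec, zero_add]

/-- the transformations with a fixed point -/
def fixedSet (p : ℕ) : Set (AG p) :=
  {a | ∃ v : Fin 2 → ZMod p, a.t + (a.g : Matrix (Fin 2) (Fin 2) (ZMod p)) *ᵥ v = v}

theorem mem_fixedSet {a : AG p} : a ∈ fixedSet p ↔ ∃ v : V2, act a v = v := Iff.rfl

theorem fixedSet_conj (x a : AG p) (ha : a ∈ fixedSet p) : x * a * x⁻¹ ∈ fixedSet p := by
  obtain ⟨v, hv⟩ := mem_fixedSet.1 ha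
  refine mem_fixedSet.2 ⟨act x v, ?_⟩
  rw [act_mul, act_mul, ← act_mul x⁻¹ x, inv_mul_cancel, act_one, hv]

/-- the translations `t` for which `v ↦ t + g v` has a fixed point -/
theorem card_trans (g : GL2) :
    (Nat.card {t : V2 | ∃ v : V2, t + (g : M2) *ᵥ v = v} : ℤ) =
      p ^ 2 - (if (g : M2).trace = 1 + (g : M2).det then (p ^ 2 - p : ℤ) else 0) -
        (if g = 1 then (p - 1 : ℤ) else 0) := by
  classical
  -- the range of `1 - g`
  have h1 : {t : V2 | ∃ v : V2, t + (g : M2) *ᵥ v = v} =
      (LinearMap.range (Matrix.mulVecLin (1 - (g : M2))) : Set (V2)) := by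
    ext t
    constructor
    · rintro ⟨v, hv⟩
      refine ⟨v, ?_⟩
      rw [Matrix.mulVecLin_apply, Matrix.sub_mulVec, Matrix.one_mulVec, sub_eq_iff_eq_add, hv]
    · rintro ⟨v, hv⟩
      refine ⟨v, ?_⟩
      rw [← hv, Matrix.mulVecLin_apply, Matrix.sub_mulVec, Matrix.one_mulVec, sub_add_cancel]
  have h2 : Nat.card {t : V2 | ∃ v : V2, t + (g : M2) *ᵥ v = v} =
      p ^ Module.finrank (ZMod p) (LinearMap.range (Matrix.mulVecLin (1 - (g : M2)))) := by
    rw [h1]
    change Nat.card (LinearMap.range (Matrix.mulVecLin (1 - (g : M2)))) = _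
    rw [Module.natCard_eq_pow_finrank (K := ZMod p), Nat.card_zmod]
  have hdet : (1 - (g : M2)).det = 1 - (g : M2).trace + (g : M2).det := by
    rw [Matrix.det_fin_two, Matrix.det_fin_two, Matrix.trace_fin_two]
    simp
    ring
  have hle : Module.finrank (ZMod p) (LinearMap.range (Matrix.mulVecLin (1 - (g : M2)))) ≤ 2 := by
    refine (Submodule.finrank_le _).trans ?_
    rw [Module.finrank_fin_fun]
  rw [h2]
  by_cases hg1 : g = 1
  · subst hg1
    have h3 : LinearMap.range (Matrix.mulVecLin (1 - ((1 : GL2) : M2))) = ⊥ := by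
      rw [Units.val_one, sub_self, Matrix.mulVecLin_zero, LinearMap.range_zero]
    rw [h3, finrank_bot, if_pos rfl, if_pos]
    · push_cast
      ring
    · rw [Units.val_one, Matrix.det_one, Matrix.trace_one, Fintype.card_fin]
      norm_num
  · have hne : (1 - (g : M2)) ≠ 0 := by
      intro h0
      exact hg1 (Units.ext (sub_eq_zero.1 h0).symm)
    have h0 : Module.finrank (ZMod p) (LinearMap.range (Matrix.mulVecLin (1 - (g : M2)))) ≠ 0 := by
      intro h0
      rw [Submodule.finrank_eq_zero, LinearMap.range_eq_bot] at h0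
      refine hne ?_
      have h3 : Matrix.mulVecLin (1 - (g : M2)) = Matrix.mulVecLin (0 : M2) := by
        rw [h0, Matrix.mulVecLin_zero]
      exact Matrix.mulVec_injective (congrArg DFunLike.coe h3)
    rw [if_neg hg1, sub_zero]
    by_cases htr : (g : M2).trace = 1 + (g : M2).det
    · rw [if_pos htr]
      have h3 : Module.finrank (ZMod p)
          (LinearMap.range (Matrix.mulVecLin (1 - (g : M2)))) ≠ 2 := by
        intro h3
        have h4 : LinearMap.range (Matrix.mulVecLin (1 - (g : M2))) = ⊤ :=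
          Submodule.eq_top_of_finrank_eq (by rw [h3, Module.finrank_fin_fun])
        have h5 : Function.Surjective (1 - (g : M2)).mulVec := by
          intro v
          obtain ⟨w, hw⟩ := (LinearMap.range_eq_top.1 h4) v
          exact ⟨w, hw⟩
        have h6 := (Matrix.isUnit_iff_isUnit_det _).1
          (Matrix.mulVec_surjective_iff_isUnit.1 h5)
        rw [hdet, htr] at h6
        refine h6.ne_zero ?_
        ring
      have h4 : Module.finrank (ZMod p)
          (LinearMap.range (Matrix.mulVecLin (1 - (g : M2)))) = 1 := by omega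
      rw [h4]
      push_cast
      ring
    · rw [if_neg htr, sub_zero]
      have h3 : IsUnit (1 - (g : M2)) := by
        rw [Matrix.isUnit_iff_isUnit_det, hdet, isUnit_iff_ne_zero]
        intro h4
        exact htr (by linear_combination -h4)
      have h4 : LinearMap.range (Matrix.mulVecLin (1 - (g : M2))) = ⊤ := by
        rw [LinearMap.range_eq_top]
        exact Matrix.mulVec_surjective_iff_isUnit.2 h3
      rw [h4, finrank_top, Module.finrank_fin_fun]
      push_cast
      ring

/-- **The number of the affine transformations of `𝔽_p²` with a fixed point**, `p` odd. -/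
theorem card_fixed (hp2 : p ≠ 2) :
    (Nat.card (fixedSet p) : ℤ) =
      p ^ 2 * Nat.card (GL2) - (p ^ 2 - p) * (p ^ 3 - 2 * p) - (p - 1) := by
  classical
  have : Fintype (GL2) := Fintype.ofFinite _
  have h1 : Nat.card (fixedSet p) =
      ∑ g : GL2, Nat.card {t : V2 | ∃ v : V2, t + (g : M2) *ᵥ v = v} := by
    rw [← Nat.card_sigma]
    refine Nat.card_congr
      { toFun := fun a => ⟨a.1.g, ⟨a.1.t, a.2⟩⟩
        invFun := fun x => ⟨⟨x.2.1, x.1⟩, x.2.2⟩
        left_inv := fun _ => rfl
        right_inv := fun _ => rfl }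
  have h2 := Count.card_GL_eigen_one (F := ZMod p) (by rwa [ZMod.ringChar_zmod_n])
  rw [ZMod.card] at h2
  have h3 : Nat.card {g : GL2 | (g : M2).trace = 1 + (g : M2).det} =
      (Finset.univ.filter fun g : GL2 => (g : M2).trace = 1 + (g : M2).det).card := by
    exact Nat.subtype_card _ fun x => by simp
  rw [h1, Nat.cast_sum, Finset.sum_congr rfl fun g _ => card_trans g, Finset.sum_sub_distrib,
    Finset.sum_sub_distrib, Finset.sum_const, Finset.card_univ, Finset.sum_ite_eq',
    if_pos (Finset.mem_univ _), ← Finset.sum_filter, Finset.sum_const, ← h3, nsmul_eq_mul,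
    nsmul_eq_mul, h2, Nat.card_eq_fintype_card]
  ring

end AG

end Fermat.Agent.Cor.KumE

end
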