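import Fermat.Agent.Corollaries.KumE.AffCount

/-!
# Affine transformations of `(ℤ/N)²` with a fixed point, `N` squarefree and odd (helper62)

`AG.ratio_eq_prod` : the proportion of the affine transformations `v ↦ t + g v` of `(ℤ/N)²`,
`g ∈ GL₂(ℤ/N)`, with a fixed point is `∏_{p ∣ N} (1 - (p² - 1) / p³)`.
-/

set_option autoImplicit false

noncomputable section

open Matrix

namespace Fermat.Agent.Cor.KumE

section Ring

variable (R S : Type) [CommRing R] [CommRing S]

/-- pairs `(t, g)` such that `v ↦ t + g v` has a fixed point -/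
def Fx : Set ((Fin 2 → R) × GL (Fin 2) R) :=
  {x | ∃ v : Fin 2 → R, x.1 + (x.2 : Matrix (Fin 2) (Fin 2) R) *ᵥ v = v}

variable {R S}

/-- matrices over a product -/
def matProd : Matrix (Fin 2) (Fin 2) (R × S) ≃* Matrix (Fin 2) (Fin 2) R × Matrix (Fin 2) (Fin 2) S
    where
  toFun M := (M.map (RingHom.fst R S), M.map (RingHom.snd R S))
  invFun x := Matrix.of fun i j => (x.1 i j, x.2 i j)
  left_inv M := by ext i j <;> rfl
  right_inv x := rfl
  map_mul' M N := by
    rw [Matrix.map_mul, Matrix.map_mul]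
    rfl

/-- the general linear group over a product -/
def glProd : GL (Fin 2) (R × S) ≃* GL (Fin 2) R × GL (Fin 2) S :=
  (Units.mapEquiv matProd).trans MulEquiv.prodUnits

theorem glProd_fst (g : GL (Fin 2) (R × S)) : ((glProd g).1 : Matrix (Fin 2) (Fin 2) R) =
    (g : Matrix (Fin 2) (Fin 2) (R × S)).map (RingHom.fst R S) := rfl

theorem glProd_snd (g : GL (Fin 2) (R × S)) : ((glProd g).2 : Matrix (Fin 2) (Fin 2) S) =
    (g : Matrix (Fin 2) (Fin 2) (R × S)).map (RingHom.snd R S) := rfl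

/-- pairs over a product -/
def pairProd : (Fin 2 → R × S) × GL (Fin 2) (R × S) ≃
    ((Fin 2 → R) × GL (Fin 2) R) × ((Fin 2 → S) × GL (Fin 2) S) :=
  (Equiv.prodCongr (Equiv.arrowProdEquivProdArrow (Fin 2) (fun _ => R) (fun _ => S))
    (glProd (R := R) (S := S)).toEquiv).trans (Equiv.prodProdProdComm _ _ _ _)

theorem mem_Fx_prod (x : (Fin 2 → R × S) × GL (Fin 2) (R × S)) :
    x ∈ Fx (R × S) ↔ (pairProd x).1 ∈ Fx R ∧ (pairProd x).2 ∈ Fx S := by
  constructor
  · rintro ⟨v, hv⟩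
    constructor
    · refine ⟨fun i => (v i).1, funext fun i => ?_⟩
      have h1 := congrArg (RingHom.fst R S) (congrFun hv i)
      rw [Pi.add_apply, map_add, RingHom.map_mulVec] at h1
      exact h1
    · refine ⟨fun i => (v i).2, funext fun i => ?_⟩
      have h1 := congrArg (RingHom.snd R S) (congrFun hv i)
      rw [Pi.add_apply, map_add, RingHom.map_mulVec] at h1
      exact h1
  · rintro ⟨⟨v, hv⟩, ⟨w, hw⟩⟩
    refine ⟨fun i => (v i, w i), funext fun i => Prod.ext ?_ ?_⟩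
    · change (RingHom.fst R S) ((x.1 + (x.2 : Matrix (Fin 2) (Fin 2) (R × S)) *ᵥ
        fun i => (v i, w i)) i) = v i
      rw [Pi.add_apply, map_add, RingHom.map_mulVec]
      exact congrFun hv i
    · change (RingHom.snd R S) ((x.1 + (x.2 : Matrix (Fin 2) (Fin 2) (R × S)) *ᵥ
        fun i => (v i, w i)) i) = w i
      rw [Pi.add_apply, map_add, RingHom.map_mulVec]
      exact congrFun hw i

theorem card_Fx_prod : Nat.card (Fx (R × S)) = Nat.card (Fx R) * Nat.card (Fx S) := by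
  rw [← Nat.card_prod]
  refine Nat.card_congr ((Equiv.subtypeEquiv pairProd (p := fun x => x ∈ Fx (R × S))
    (q := fun y => y.1 ∈ Fx R ∧ y.2 ∈ Fx S) fun x => mem_Fx_prod x).trans ?_)
  exact
    { toFun := fun x => (⟨x.1.1, x.2.1⟩, ⟨x.1.2, x.2.2⟩)
      invFun := fun x => ⟨(x.1.1, x.2.1), ⟨x.1.2, x.2.2⟩⟩
      left_inv := fun _ => rfl
      right_inv := fun _ => rfl }

theorem card_pair_prod : Nat.card ((Fin 2 → R × S) × GL (Fin 2) (R × S)) =
    Nat.card ((Fin 2 → R) × GL (Fin 2) R) * Nat.card ((Fin 2 → S) × GL (Fin 2) S) := by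
  rw [← Nat.card_prod]
  exact Nat.card_congr pairProd

/-- pairs over isomorphic rings -/
def pairCongr (e : R ≃+* S) : (Fin 2 → R) × GL (Fin 2) R ≃ (Fin 2 → S) × GL (Fin 2) S :=
  Equiv.prodCongr (Equiv.arrowCongr (Equiv.refl _) e.toEquiv)
    (Units.mapEquiv (e.mapMatrix : Matrix (Fin 2) (Fin 2) R ≃+* _).toMulEquiv).toEquiv

theorem mem_Fx_congr_aux (e : R ≃+* S) (x : (Fin 2 → R) × GL (Fin 2) R) (h : x ∈ Fx R) :
    pairCongr e x ∈ Fx S := by
  obtain ⟨v, hv⟩ := h
  refine ⟨fun i => e (v i), funext fun i => ?_⟩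
  have h1 := congrArg (e : R →+* S) (congrFun hv i)
  rw [Pi.add_apply, map_add, RingHom.map_mulVec] at h1
  exact h1

theorem mem_Fx_congr (e : R ≃+* S) (x : (Fin 2 → R) × GL (Fin 2) R) :
    x ∈ Fx R ↔ pairCongr e x ∈ Fx S := by
  refine ⟨mem_Fx_congr_aux e x, ?_⟩
  rintro ⟨w, hw⟩
  refine ⟨fun i => e.symm (w i), funext fun i => e.injective ?_⟩
  have h1 := congrFun hw i
  change (e : R →+* S) ((x.1 + (x.2 : Matrix (Fin 2) (Fin 2) R) *ᵥ fun i => e.symm (w i)) i) = _
  rw [Pi.add_apply, map_add, RingHom.map_mulVec, e.apply_symm_apply]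
  have h2 : ((e : R →+* S) ∘ fun i => e.symm (w i)) = w := funext fun j => e.apply_symm_apply _
  rw [h2]
  exact h1

theorem card_Fx_congr (e : R ≃+* S) : Nat.card (Fx R) = Nat.card (Fx S) :=
  Nat.card_congr (Equiv.subtypeEquiv (pairCongr e) fun x => mem_Fx_congr e x)

theorem card_pair_congr (e : R ≃+* S) : Nat.card ((Fin 2 → R) × GL (Fin 2) R) =
    Nat.card ((Fin 2 → S) × GL (Fin 2) S) := Nat.card_congr (pairCongr e)

end Ring

namespace AG

theorem card_fixedSet_eq (N : ℕ) : Nat.card (fixedSet N) = Nat.card (Fx (ZMod N)) := by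
  refine Nat.card_congr
    { toFun := fun a => ⟨(a.1.t, a.1.g), a.2⟩
      invFun := fun x => ⟨⟨x.1.1, x.1.2⟩, x.2⟩
      left_inv := fun _ => rfl
      right_inv := fun _ => rfl }

theorem card_AG_eq (N : ℕ) : Nat.card (AG N) =
    Nat.card ((Fin 2 → ZMod N) × GL (Fin 2) (ZMod N)) :=
  Nat.card_congr (equivProd.trans (Equiv.prodComm _ _))

/-- the proportion of the affine transformations of `(ℤ/N)²` with a fixed point -/
def ratio (N : ℕ) : ℝ := (Nat.card (fixedSet N) : ℝ) / Nat.card (AG N)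

theorem ratio_mul {a b : ℕ} (h : a.Coprime b) : ratio (a * b) = ratio a * ratio b := by
  rw [ratio, ratio, ratio, card_fixedSet_eq, card_AG_eq, card_fixedSet_eq, card_AG_eq,
    card_fixedSet_eq, card_AG_eq, card_Fx_congr (ZMod.chineseRemainder h),
    card_pair_congr (ZMod.chineseRemainder h), card_Fx_prod, card_pair_prod]
  push_cast
  rw [mul_div_mul_comm]

theorem ratio_one : ratio 1 = 1 := by
  have h1 : fixedSet 1 = Set.univ := by
    refine Set.eq_univ_of_forall fun a => ⟨0, Subsingleton.elim _ _⟩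
  have h2 : Nat.card (AG 1) = 1 := by
    rw [Nat.card_eq_one_iff_unique]
    exact ⟨⟨fun a b => AG.ext (Subsingleton.elim _ _) (Subsingleton.elim _ _)⟩, ⟨1⟩⟩
  rw [ratio, h1, Nat.card_congr (Equiv.Set.univ (AG 1)), h2]
  norm_num

theorem ratio_prime {p : ℕ} [hp : Fact p.Prime] (hp2 : p ≠ 2) :
    ratio p = 1 - ((p : ℝ) ^ 2 - 1) / p ^ 3 := by
  have h2 : (Nat.card (fixedSet p) : ℝ) =
      p ^ 2 * Nat.card (GL (Fin 2) (ZMod p)) - (p ^ 2 - p) * (p ^ 3 - 2 * p) - (p - 1) := by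
    exact_mod_cast card_fixed hp2
  have h3 : (Nat.card (AG p) : ℝ) = p ^ 2 * Nat.card (GL (Fin 2) (ZMod p)) := by
    exact_mod_cast card_eq
  have hc : (Nat.card (GL (Fin 2) (ZMod p)) : ℝ) = p * (p - 1) ^ 2 * (p + 1) := by
    have h := Count.card_GL2 (F := ZMod p)
    rw [ZMod.card] at h
    exact_mod_cast h
  have h4 : (2 : ℝ) < p := by
    have h1 : 2 < p := lt_of_le_of_ne hp.out.two_le (Ne.symm hp2)
    exact_mod_cast h1
  rw [ratio, h2, h3, hc]
  have h5 : (p : ℝ) - 1 ≠ 0 := by linarith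
  have h6 : (p : ℝ) + 1 ≠ 0 := by linarith
  have h7 : (p : ℝ) ≠ 0 := by linarith
  field_simp
  ring

/-- **The proportion of the affine transformations of `(ℤ/N)²` with a fixed point**, `N` squarefree and
odd, is `∏_{p ∣ N} (1 - (p² - 1) / p³)`. -/
theorem ratio_eq_prod {N : ℕ} (hN : Odd N) (hsq : Squarefree N) :
    ratio N = ∏ p ∈ N.primeFactors, (1 - ((p : ℝ) ^ 2 - 1) / p ^ 3) := by
  induction N using induction_on_primes with
  | zero => exact absurd hN (by decide)
  | one => rw [ratio_one, Nat.primeFactors_one, Finset.prod_empty]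
  | prime_mul p a hp ih =>
    have : Fact p.Prime := ⟨hp⟩
    have hcop : p.Coprime a := Nat.coprime_of_squarefree_mul hsq
    have hp2 : p ≠ 2 := by
      rintro rfl
      exact absurd (Nat.odd_mul.1 hN).1 (by decide)
    rw [ratio_mul hcop, ratio_prime hp2, ih (Nat.odd_mul.1 hN).2 hsq.of_mul_right,
      Nat.Coprime.primeFactors_mul hcop, Finset.prod_union hcop.disjoint_primeFactors,
      hp.primeFactors, Finset.prod_singleton]

end AG

end Fermat.Agent.Cor.KumE

end
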