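import Mathlib

/-!
# Kummer theory of a module, group theoretic part (helper62)

`Γ` a group acting on an abelian group `A`, `N` an integer, `Γ_N` the subgroup acting trivially on the
elements killed by `N`, `p` an odd prime dividing `N`.  Let `P'` be an element such that `p P'` is
fixed by `Γ`.

* `exists_fixed_of_level`: if an element of `Γ` acts as `-1` on `A[N]` and `P'` is fixed by `Γ_N`,
  then there is an element `R` fixed by `Γ` with `p R = p P'`.
* `exists_smul_eq_add`: otherwise, if `Γ` acts transitively on `A[p] ∖ {0}`, every translate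
  `P' + T`, `T ∈ A[p]`, is `τ P'` for some `τ ∈ Γ_N`.
* `exists_smul_ne`: two elements.
* `exists_smul_eq_add_pow`: the division by `p ^ n`.
-/

set_option autoImplicit false

namespace Fermat.Agent.Cor.KumE

variable {Γ A : Type*} [Group Γ] [AddCommGroup A] [DistribMulAction Γ A]

/-- `τ` acts trivially on the elements killed by `N` -/
def Triv (A : Type*) [AddCommGroup A] [DistribMulAction Γ A] (N : ℕ) (τ : Γ) : Prop :=
  ∀ x : A, N • x = 0 → τ • x = x

theorem smul_nsmul' (σ : Γ) (n : ℕ) (x : A) : σ • (n • x) = n • (σ • x) :=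
  map_nsmul (DistribSMul.toAddMonoidHom A σ) n x

theorem smul_zsmul' (σ : Γ) (n : ℤ) (x : A) : σ • (n • x) = n • (σ • x) :=
  map_zsmul (DistribSMul.toAddMonoidHom A σ) n x

/-- the element moves by an element killed by `p` -/
theorem nsmul_smul_sub {n : ℕ} {P' : A} (hP : ∀ σ : Γ, σ • (n • P') = n • P') (σ : Γ) :
    n • (σ • P' - P') = 0 := by
  rw [nsmul_sub, ← smul_nsmul', hP, sub_self]

theorem Triv.conj {N : ℕ} {τ : Γ} (h : Triv A N τ) (g : Γ) : Triv A N (g * τ * g⁻¹) := by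
  intro x hx
  have h1 : N • (g⁻¹ • x) = 0 := by rw [← smul_nsmul', hx, smul_zero]
  rw [mul_smul, mul_smul, h _ h1, smul_inv_smul]

theorem Triv.mul {N : ℕ} {τ τ' : Γ} (h : Triv A N τ) (h' : Triv A N τ') : Triv A N (τ * τ') := by
  intro x hx
  rw [mul_smul, h' x hx, h x hx]

theorem Triv.inv {N : ℕ} {τ : Γ} (h : Triv A N τ) : Triv A N τ⁻¹ := by
  intro x hx
  rw [inv_smul_eq_iff, h x hx]

/-- **The vanishing of the cohomology**: an element of `Γ` acts as `-1` on `A[N]`. -/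
theorem exists_fixed_of_level {p N : ℕ} (hp : Odd p) (hpN : p ∣ N) {c : Γ}
    (hc : ∀ x : A, N • x = 0 → c • x = -x) {P' : A} (hP : ∀ σ : Γ, σ • (p • P') = p • P')
    (hfix : ∀ τ : Γ, Triv A N τ → τ • P' = P') :
    ∃ R : A, (∀ σ : Γ, σ • R = R) ∧ p • R = p • P' := by
  have hN : ∀ x : A, p • x = 0 → N • x = 0 := by
    intro x hx
    obtain ⟨k, rfl⟩ := hpN
    rw [mul_comm, mul_smul, hx, smul_zero]
  have h2 : ∀ x : A, p • x = 0 → x + x = 0 → x = 0 := by
    intro x hx h2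
    obtain ⟨k, rfl⟩ := hp
    rw [add_smul, one_smul, mul_comm, mul_smul, two_smul, h2, smul_zero, zero_add] at hx
    exact hx
  obtain ⟨k, hk⟩ := hp
  -- the correction
  obtain ⟨T₀, hT₀⟩ : ∃ T₀, T₀ = c • P' - P' := ⟨_, rfl⟩
  have hT₀p : p • T₀ = 0 := by rw [hT₀]; exact nsmul_smul_sub hP c
  obtain ⟨T, hT⟩ : ∃ T, T = k • T₀ := ⟨_, rfl⟩
  have hTp : p • T = 0 := by rw [hT, smul_comm, hT₀p, smul_zero]
  have hT2 : T + T = -T₀ := by
    rw [← add_eq_zero_iff_eq_neg, hT, ← two_smul ℕ, ← mul_smul]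
    nth_rewrite 2 [← one_smul ℕ T₀]
    rw [← add_smul, ← hk, hT₀p]
  have hcP : c • P' = P' + T₀ := by rw [hT₀, add_sub_cancel]
  have hfixc : c • (P' - T) = P' - T := by
    rw [smul_sub, hcP, hc T (hN T hTp), sub_neg_eq_add, add_assoc, sub_eq_add_neg]
    congr 1
    rw [← sub_eq_zero, sub_neg_eq_add, add_assoc, hT2, add_neg_cancel]
  refine ⟨P' - T, fun σ => ?_, by rw [nsmul_sub, hTp, sub_zero]⟩
  -- `σ⁻¹ P''` is fixed by `c`
  have key : ∀ σ : Γ, σ • (P' - T) = P' - T := by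
    intro σ
    have h3 : Triv A N (σ⁻¹ * c * σ * c⁻¹) := by
      intro x hx
      have hx1 : N • (c⁻¹ • x) = 0 := by rw [← smul_nsmul', hx, smul_zero]
      have hx2 : N • (σ • (c⁻¹ • x)) = 0 := by rw [← smul_nsmul', hx1, smul_zero]
      rw [mul_smul, mul_smul, mul_smul, hc _ hx2, smul_neg, inv_smul_smul, ← hc _ hx1,
        smul_inv_smul]
    have h4 : c • (σ • (P' - T)) = σ • (P' - T) := by
      have h5 : (σ⁻¹ * c * σ * c⁻¹) • (P' - T) = P' - T := by
        rw [smul_sub, hfix _ h3, h3 T (hN T hTp)]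
      rw [mul_smul, inv_smul_eq_iff.2 hfixc.symm, mul_smul, mul_smul, inv_smul_eq_iff] at h5
      exact h5
    obtain ⟨S, hS⟩ : ∃ S, S = σ • (P' - T) - (P' - T) := ⟨_, rfl⟩
    have hSp : p • S = 0 := by
      rw [hS]
      refine nsmul_smul_sub (fun σ => ?_) σ
      rw [nsmul_sub, hTp, sub_zero, hP]
    have h6 : σ • (P' - T) = P' - T + S := by rw [hS, add_sub_cancel]
    rw [h6, smul_add, hfixc, hc S (hN S hSp), add_right_inj] at h4
    have h7 : S = 0 := h2 S hSp (by rw [← sub_neg_eq_add, h4, sub_self])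
    rw [h6, h7, add_zero]
  exact key σ

/-- the translations of `P'` by `Γ_N` -/
def trans (N : ℕ) {p : ℕ} {P' : A} (hpN : p ∣ N) (hP : ∀ σ : Γ, σ • (p • P') = p • P') :
    AddSubgroup A where
  carrier := {T | ∃ τ : Γ, Triv A N τ ∧ τ • P' = P' + T}
  zero_mem' := ⟨1, fun x _ => one_smul _ x, by rw [one_smul, add_zero]⟩
  add_mem' := by
    rintro S T ⟨σ, hσ, hS⟩ ⟨τ, hτ, hT⟩
    refine ⟨σ * τ, hσ.mul hτ, ?_⟩
    have h1 : p • T = 0 := by
      have h2 := nsmul_smul_sub hP τ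
      rwa [hT, add_sub_cancel_left] at h2
    have h2 : N • T = 0 := by
      obtain ⟨k, rfl⟩ := hpN
      rw [mul_comm, mul_smul, h1, smul_zero]
    rw [mul_smul, hT, smul_add, hS, hσ T h2, add_assoc]
  neg_mem' := by
    rintro T ⟨τ, hτ, hT⟩
    refine ⟨τ⁻¹, hτ.inv, ?_⟩
    have h1 : p • T = 0 := by
      have h2 := nsmul_smul_sub hP τ
      rwa [hT, add_sub_cancel_left] at h2
    have h2 : N • T = 0 := by
      obtain ⟨k, rfl⟩ := hpN
      rw [mul_comm, mul_smul, h1, smul_zero]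
    rw [inv_smul_eq_iff, smul_add, hT, smul_neg, hτ T h2, add_neg_cancel_right]

theorem mem_trans {N p : ℕ} {P' : A} {hpN : p ∣ N} {hP : ∀ σ : Γ, σ • (p • P') = p • P'} {T : A} :
    T ∈ trans N hpN hP ↔ ∃ τ : Γ, Triv A N τ ∧ τ • P' = P' + T := Iff.rfl

/-- the group of the translations is stable under `Γ` -/
theorem smul_mem_trans {N p : ℕ} {P' : A} {hpN : p ∣ N} {hP : ∀ σ : Γ, σ • (p • P') = p • P'}
    {T : A} (hT : T ∈ trans N hpN hP) (g : Γ) : g • T ∈ trans N hpN hP := by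
  obtain ⟨τ, hτ, hT⟩ := hT
  refine ⟨g * τ * g⁻¹, hτ.conj g, ?_⟩
  obtain ⟨S, hS⟩ : ∃ S, S = g⁻¹ • P' - P' := ⟨_, rfl⟩
  have hSp : p • S = 0 := by rw [hS]; exact nsmul_smul_sub hP g⁻¹
  have hSN : N • S = 0 := by
    obtain ⟨k, rfl⟩ := hpN
    rw [mul_comm, mul_smul, hSp, smul_zero]
  have h1 : g⁻¹ • P' = P' + S := by rw [hS, add_sub_cancel]
  rw [mul_smul, mul_smul, h1, smul_add, hT, hτ S hSN, add_right_comm, ← h1, smul_add,
    smul_inv_smul]

/-- **One element.**  `Γ` acts transitively on `A[p] ∖ {0}`, an element of `Γ` acts as `-1` on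
`A[N]`, and `p P'` is not `p R` with `R` fixed by `Γ`: then every `P' + T`, `p T = 0`, is `τ P'` with
`τ ∈ Γ_N`. -/
theorem exists_smul_eq_add {p N : ℕ} (hp : Odd p) (hpN : p ∣ N) {c : Γ}
    (hc : ∀ x : A, N • x = 0 → c • x = -x)
    (htr : ∀ x y : A, p • x = 0 → p • y = 0 → x ≠ 0 → y ≠ 0 → ∃ σ : Γ, σ • x = y) {P' : A}
    (hP : ∀ σ : Γ, σ • (p • P') = p • P')
    (hno : ¬ ∃ R : A, (∀ σ : Γ, σ • R = R) ∧ p • R = p • P') {T : A} (hT : p • T = 0) :
    ∃ τ : Γ, Triv A N τ ∧ τ • P' = P' + T := by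
  by_cases h0 : T = 0
  · exact ⟨1, fun x _ => one_smul _ x, by rw [one_smul, h0, add_zero]⟩
  obtain ⟨τ, hτ, hne⟩ : ∃ τ : Γ, Triv A N τ ∧ τ • P' ≠ P' := by
    by_contra hcon
    push Not at hcon
    exact hno (exists_fixed_of_level hp hpN hc hP hcon)
  have h1 : τ • P' - P' ∈ trans N hpN hP := ⟨τ, hτ, by rw [add_sub_cancel]⟩
  obtain ⟨σ, hσ⟩ := htr _ T (nsmul_smul_sub hP τ) hT (sub_ne_zero.2 hne) h0
  have h2 := smul_mem_trans h1 σ
  rw [hσ] at h2
  exact h2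

/-- **Two elements.**  Under the same conditions, if moreover an element of `Γ` has on `A[p]` the
fixed points `ℤ x`, and `p Q'` is not of the form `c (p P') + p R` with `R` fixed by `Γ`, there is
`τ ∈ Γ_N` which fixes `P'` and moves `Q'`. -/
theorem exists_smul_ne {p N : ℕ} (hp : Odd p) (hpN : p ∣ N) {c : Γ}
    (hc : ∀ x : A, N • x = 0 → c • x = -x)
    (htr : ∀ x y : A, p • x = 0 → p • y = 0 → x ≠ 0 → y ≠ 0 → ∃ σ : Γ, σ • x = y)
    {x : A} (hx : p • x = 0) (hx0 : x ≠ 0) {u : Γ} (hux : u • x = x)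
    (hu : ∀ y : A, p • y = 0 → u • y = y → ∃ a : ℤ, y = a • x) {P' Q' : A}
    (hP : ∀ σ : Γ, σ • (p • P') = p • P') (hQ : ∀ σ : Γ, σ • (p • Q') = p • Q')
    (hno : ¬ ∃ (a : ℤ) (R : A), (∀ σ : Γ, σ • R = R) ∧ p • R = p • Q' - a • (p • P')) :
    ∃ τ : Γ, Triv A N τ ∧ τ • P' = P' ∧ τ • Q' ≠ Q' := by
  by_contra hcon
  push Not at hcon
  have hpT : ∀ {T : A}, p • T = 0 → N • T = 0 := by
    intro T hT
    obtain ⟨k, rfl⟩ := hpN
    rw [mul_comm, mul_smul, hT, smul_zero]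
  have hker : ∀ {B : A}, (∀ σ : Γ, σ • (p • B) = p • B) → ∀ {τ : Γ} {S : A}, τ • B = B + S →
      p • S = 0 := by
    intro B hB τ S hS
    have h2 := nsmul_smul_sub hB τ
    rwa [hS, add_sub_cancel_left] at h2
  -- the relation between the two translations
  have hrel : ∀ {τ τ' : Γ} {T S S' : A}, Triv A N τ → Triv A N τ' → τ • P' = P' + T →
      τ' • P' = P' + T → τ • Q' = Q' + S → τ' • Q' = Q' + S' → S = S' := by
    intro τ τ' T S S' h1 h2 h3 h4 h5 h6
    have h7 : (τ⁻¹ * τ') • P' = P' := by rw [mul_smul, h4, ← h3, inv_smul_smul]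
    have h8 := hcon _ (h1.inv.mul h2) h7
    rw [mul_smul, inv_smul_eq_iff, h6, h5] at h8
    exact (add_left_cancel h8).symm
  by_cases hP0 : ∃ R : A, (∀ σ : Γ, σ • R = R) ∧ p • R = p • P'
  · -- `P` is divisible
    obtain ⟨R, hR, hRP⟩ := hP0
    have h1 : ∀ τ : Γ, Triv A N τ → τ • Q' = Q' := by
      intro τ hτ
      refine hcon τ hτ ?_
      have h2 : p • (P' - R) = 0 := by rw [nsmul_sub, hRP, sub_self]
      have h3 := hτ _ (hpT h2)
      rwa [smul_sub, hR, sub_left_inj] at h3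
    obtain ⟨R', hR', h2⟩ := exists_fixed_of_level hp hpN hc hQ h1
    exact hno ⟨0, R', hR', by rw [h2, zero_smul, sub_zero]⟩
  · -- the relation at `x`
    obtain ⟨τ, hτ, hτP⟩ := exists_smul_eq_add hp hpN hc htr hP hP0 hx
    obtain ⟨S, hS⟩ : ∃ S, S = τ • Q' - Q' := ⟨_, rfl⟩
    have hτQ : τ • Q' = Q' + S := by rw [hS, add_sub_cancel]
    have hSp : p • S = 0 := hker hQ hτQ
    have hconj : ∀ (g : Γ) {B T : A}, (∀ σ : Γ, σ • (p • B) = p • B) → τ • B = B + T →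
        (g * τ * g⁻¹) • B = B + g • T := by
      intro g B T hB hT
      obtain ⟨V, hV⟩ : ∃ V, V = g⁻¹ • B - B := ⟨_, rfl⟩
      have hVp : p • V = 0 := by rw [hV]; exact nsmul_smul_sub hB g⁻¹
      have h1 : g⁻¹ • B = B + V := by rw [hV, add_sub_cancel]
      rw [mul_smul, mul_smul, h1, smul_add, hT, hτ V (hpT hVp), add_right_comm, ← h1, smul_add,
        smul_inv_smul]
    have h1 : u • S = S := by
      have h2 := hconj u hP hτP
      rw [hux] at h2
      exact (hrel hτ (hτ.conj u) hτP h2 hτQ (hconj u hQ hτQ)).symm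
    obtain ⟨a, ha⟩ := hu S hSp h1
    have h2 : ∀ σ : Γ, Triv A N σ → σ • (Q' - a • P') = Q' - a • P' := by
      intro σ hσ
      obtain ⟨T, hT⟩ : ∃ T, T = σ • P' - P' := ⟨_, rfl⟩
      have hσP : σ • P' = P' + T := by rw [hT, add_sub_cancel]
      have hTp : p • T = 0 := hker hP hσP
      by_cases hT0 : T = 0
      · rw [hT0, add_zero] at hσP
        rw [smul_sub, smul_zsmul', hσP, hcon σ hσ hσP]
      · obtain ⟨g, hg⟩ := htr x T hx hTp hx0 hT0
        have h3 := hconj g hP hτP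
        rw [hg] at h3
        obtain ⟨V, hV⟩ : ∃ V, V = σ • Q' - Q' := ⟨_, rfl⟩
        have hσQ : σ • Q' = Q' + V := by rw [hV, add_sub_cancel]
        have h4 := hrel hσ (hτ.conj g) hσP h3 hσQ (hconj g hQ hτQ)
        rw [ha, smul_zsmul', hg] at h4
        rw [smul_sub, smul_zsmul', hσP, hσQ, h4, smul_add]
        abel
    obtain ⟨R, hR, h3⟩ := exists_fixed_of_level (P' := Q' - a • P') hp hpN hc
      (fun σ => by
        rw [nsmul_sub, smul_comm p a P', smul_sub, hQ, smul_zsmul', hP]) h2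
    exact hno ⟨a, R, hR, by rw [h3, nsmul_sub, smul_comm p a P']⟩

/-- **Division by `p ^ n`.** -/
theorem exists_smul_eq_add_pow {p n : ℕ} (hp : Odd p) (hn : n ≠ 0) {c : Γ}
    (hc : ∀ x : A, p ^ n • x = 0 → c • x = -x)
    (htr : ∀ x y : A, p • x = 0 → p • y = 0 → x ≠ 0 → y ≠ 0 → ∃ σ : Γ, σ • x = y) {Q : A}
    (hQ : ∀ σ : Γ, σ • (p ^ n • Q) = p ^ n • Q)
    (hno : ¬ ∃ R : A, (∀ σ : Γ, σ • R = R) ∧ p • R = p ^ n • Q) {T : A} (hT : p ^ n • T = 0) :
    ∃ τ : Γ, Triv A (p ^ n) τ ∧ τ • Q = Q + T := by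
  obtain ⟨m, rfl⟩ : ∃ m, n = m + 1 := ⟨n - 1, by omega⟩
  have hdvd : p ∣ p ^ (m + 1) := dvd_pow_self p hn
  have hP' : p • (p ^ m • Q) = p ^ (m + 1) • Q := by rw [← mul_smul, pow_succ, mul_comm]
  have h1 : ∀ {T : A}, p • T = 0 → ∃ τ : Γ, Triv A (p ^ (m + 1)) τ ∧
      τ • (p ^ m • Q) = p ^ m • Q + T := fun hT =>
    exists_smul_eq_add hp hdvd hc htr (fun σ => by rw [hP', hQ]) (by rw [hP']; exact hno) hT
  -- the group of the translations
  let H : AddSubgroup A := trans (p := p ^ (m + 1)) (P' := Q) (p ^ (m + 1)) dvd_rfl hQ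
  have h2 : ∀ {T : A}, p • T = 0 → ∃ S ∈ H, p ^ m • S = T := by
    intro T hT
    obtain ⟨τ, hτ, h3⟩ := h1 hT
    refine ⟨τ • Q - Q, ⟨τ, hτ, by rw [add_sub_cancel]⟩, ?_⟩
    rw [nsmul_sub, ← smul_nsmul', h3, add_sub_cancel_left]
  have h3 : ∀ j, j ≤ m + 1 → ∀ T : A, p ^ j • T = 0 → T ∈ H := by
    intro j
    induction j with
    | zero =>
      intro _ T hT
      rw [pow_zero, one_smul] at hT
      rw [hT]
      exact H.zero_mem
    | succ j ih =>
      intro hj T hT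
      have h4 : p • (p ^ j • T) = 0 := by rwa [← mul_smul, ← pow_succ']
      obtain ⟨S, hS, h5⟩ := h2 h4
      have h6 : p ^ j • (T - p ^ (m - j) • S) = 0 := by
        rw [nsmul_sub, ← mul_smul, ← pow_add, show j + (m - j) = m by omega, h5, sub_self]
      have h7 := ih (by omega) _ h6
      have h8 := H.add_mem h7 (H.nsmul_mem hS (p ^ (m - j)))
      rwa [sub_add_cancel] at h8
  exact h3 (m + 1) le_rfl T hT

end Fermat.Agent.Cor.KumE
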