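import Fermat.Agent.Corollaries.KumE.Indiv37
import Fermat.Agent.Corollaries.InvGal.Open37All
import Fermat.Agent.Corollaries.Surj.Basis

/-!
# Bashmakov's theorem for odd `N` (helper62)

`W` an elliptic curve over `ℚ` (equation over `ℤ`), `N` odd, `P ∈ W(ℚ)` a point which is not divisible
in `W(ℚ)` by any prime divisor of `N`, `N Q = P`.

* `exists_smul_eq_add_of_odd` : if `Gal(ℚ̄/ℚ)` acts on `W[N]` and on `W[p]`, `p ∣ N`, through all
  automorphisms, then every pair of an automorphism of `W[N]` and a translation of `Q` by a point of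
  `W[N]` is given by an element of `Gal(ℚ̄/ℚ)`;
* `exists_smul_eq_add_of_semistable_of_odd` : semistable curves with all `W[p]` irreducible;
* `exists_smul_eq_add37_of_odd` : the curve `37a`, the point `(0, 0)` and every odd `N`.
-/

set_option autoImplicit false

noncomputable section

open WeierstrassCurve WeierstrassCurve.Affine WeierstrassCurve.Affine.Point Module Matrix
open scoped WeierstrassCurve.Affine

namespace Fermat.Agent.Cor.KumE

section Abstract

variable {Γ A : Type*} [Group Γ] [AddCommGroup A] [DistribMulAction Γ A]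

/-- a subgroup which contains enough elements of prime order, up to division, contains the
`N`-torsion -/
theorem mem_of_forall_prime (H : AddSubgroup A) {N : ℕ} (hN : N ≠ 0)
    (h : ∀ p : ℕ, p.Prime → p ∣ N → ∀ T : A, p • T = 0 → ∃ S ∈ H, (N / p) • S = T) :
    ∀ d : ℕ, d ∣ N → ∀ T : A, d • T = 0 → T ∈ H := by
  intro d
  induction d using Nat.strong_induction_on with
  | _ d ih =>
    intro hd T hT
    have hd0 : d ≠ 0 := by
      rintro rfl
      exact hN (zero_dvd_iff.1 hd)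
    by_cases hd1 : d = 1
    · subst hd1
      rw [one_nsmul] at hT
      rw [hT]
      exact H.zero_mem
    obtain ⟨e, he⟩ := Nat.minFac_dvd d
    have hp := Nat.minFac_prime hd1
    have hpN : d.minFac ∣ N := (Nat.minFac_dvd d).trans hd
    obtain ⟨f, hf⟩ := hd
    have he0 : 0 < e := Nat.pos_of_ne_zero (by
      rintro rfl
      exact hd0 (by rw [he, mul_zero]))
    have hed : e < d := by
      conv_rhs => rw [he]
      exact lt_mul_of_one_lt_left he0 hp.one_lt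
    have h1 : d.minFac • (e • T) = 0 := by rw [← mul_smul, ← he, hT]
    obtain ⟨S, hS, hST⟩ := h _ hp hpN _ h1
    have h2 : N / d.minFac = e * f := by
      apply Nat.div_eq_of_eq_mul_right hp.pos
      rw [← mul_assoc, ← he, hf]
    have h3 : e • (T - f • S) = 0 := by
      rw [nsmul_sub, ← mul_smul, ← h2, hST, sub_self]
    have h4 := ih e hed ⟨d.minFac * f, by
      rw [hf, mul_left_comm, ← mul_assoc, ← he]⟩ _ h3
    have h5 := H.add_mem h4 (H.nsmul_mem hS f)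
    rwa [sub_add_cancel] at h5

/-- **Division by an odd number `N`.** -/
theorem exists_smul_eq_add_nat {N : ℕ} (hN : Odd N) {c : Γ}
    (hc : ∀ x : A, N • x = 0 → c • x = -x)
    (htr : ∀ p : ℕ, p.Prime → p ∣ N → ∀ x y : A, p • x = 0 → p • y = 0 → x ≠ 0 → y ≠ 0 →
      ∃ σ : Γ, σ • x = y) {Q : A} (hQ : ∀ σ : Γ, σ • (N • Q) = N • Q)
    (hno : ∀ p : ℕ, p.Prime → p ∣ N → ¬ ∃ R : A, (∀ σ : Γ, σ • R = R) ∧ p • R = N • Q) {T : A}
    (hT : N • T = 0) : ∃ τ : Γ, Triv A N τ ∧ τ • Q = Q + T := by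
  let H : AddSubgroup A := trans (p := N) (P' := Q) N dvd_rfl hQ
  refine mem_of_forall_prime H hN.pos.ne' ?_ N dvd_rfl T hT
  intro p hp hpN T hT
  have h1 : p • ((N / p) • Q) = N • Q := by rw [← mul_smul, Nat.mul_div_cancel' hpN]
  obtain ⟨τ, hτ, h2⟩ := exists_smul_eq_add (P' := (N / p) • Q) (Odd.of_dvd_nat hN hpN) hpN hc
    (htr p hp hpN) (fun σ => by rw [h1, hQ]) (by rw [h1]; exact hno p hp hpN) hT
  refine ⟨τ • Q - Q, ⟨τ, hτ, by rw [add_sub_cancel]⟩, ?_⟩
  rw [nsmul_sub, ← smul_nsmul', h2, add_sub_cancel_left]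

end Abstract

local notation "Qbar" => AlgebraicClosure ℚ
local notation "Γℚ" => (AlgebraicClosure ℚ ≃ₐ[ℚ] AlgebraicClosure ℚ)

variable {W : WeierstrassCurve ℤ} {N : ℕ}

/-- **Bashmakov's theorem for odd `N`.** -/
theorem exists_smul_eq_add_of_odd (hΔ : W.Δ ≠ 0) (hN : Odd N)
    (h1 : ∀ p : ℕ, p.Prime → p ∣ N → SurjMod W p) (h : SurjMod W N) {P : PQ W}
    (hP : ∀ p : ℕ, p.Prime → p ∣ N → ¬ ∃ R : PQ W, p • R = P) {Q : PQbar W}
    (hQ : N • Q = incl W P)
    (g : Submodule.torsionBy ℤ (PQbar W) (N : ℤ) ≃ₗ[ZMod N]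
      Submodule.torsionBy ℤ (PQbar W) (N : ℤ)) {T : PQbar W} (hT : N • T = 0) :
    ∃ σ : Γℚ, (∀ x : Submodule.torsionBy ℤ (PQbar W) (N : ℤ), σ • x = g x) ∧ σ • Q = Q + T := by
  obtain ⟨c, hc⟩ := exists_smul_eq_neg h
  have hQ' : ∀ σ : Γℚ, σ • (N • Q) = N • Q := fun σ => by rw [hQ, smul_incl]
  have hno : ∀ p : ℕ, p.Prime → p ∣ N →
      ¬ ∃ R : PQbar W, (∀ σ : Γℚ, σ • R = R) ∧ p • R = N • Q := by
    intro p hp hpN
    rw [hQ]
    exact fun h => hP p hp hpN (exists_nsmul_eq_iff.2 h)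
  obtain ⟨σ, hσ⟩ := h g
  obtain ⟨T₀, hT₀⟩ : ∃ T₀, T₀ = σ • Q - Q := ⟨_, rfl⟩
  have hT₀n : N • T₀ = 0 := by rw [hT₀]; exact nsmul_smul_sub hQ' σ
  have hS : N • (σ⁻¹ • (T - T₀)) = 0 := by
    refine (smul_nsmul' (A := PQbar W) σ⁻¹ N (T - T₀)).symm.trans ?_
    rw [nsmul_sub, hT, hT₀n, sub_zero]
    exact smul_zero (A := PQbar W) σ⁻¹
  obtain ⟨τ, hτ, hτQ⟩ := exists_smul_eq_add_nat hN hc (fun p hp hpN => by
    have : Fact p.Prime := ⟨hp⟩
    exact exists_smul_eq hΔ (h1 p hp hpN)) hQ' hno hS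
  refine ⟨σ * τ, fun x => ?_, ?_⟩
  · have h2 : τ • x = x := Subtype.ext (hτ (x : PQbar W)
      ((Fermat.Agent.Torsion.mem_torsionBy_nat_iff N (x : PQbar W)).mp x.2))
    rw [mul_smul, h2, hσ]
  · have h3 : σ • Q = Q + T₀ := by rw [hT₀, add_sub_cancel]
    rw [mul_smul, hτQ]
    refine (smul_add (A := PQbar W) σ Q _).trans ?_
    rw [h3, smul_inv_smul, add_assoc, add_sub_cancel]

/-- **Bashmakov's theorem for semistable elliptic curves over `ℚ`** and odd `N`, `W[p]` irreducible for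
all prime divisors `p` of `N`. -/
theorem exists_smul_eq_add_of_semistable_of_odd (hΔ : W.Δ ≠ 0) (hW : W.IsSemistableModel)
    (hN : Odd N) (hirr : ∀ p : ℕ, p.Prime → p ∣ N → W.ModRepIsIrreducible p) {P : PQ W}
    (hP : ∀ p : ℕ, p.Prime → p ∣ N → ¬ ∃ R : PQ W, p • R = P) {Q : PQbar W}
    (hQ : N • Q = incl W P)
    (g : Submodule.torsionBy ℤ (PQbar W) (N : ℤ) ≃ₗ[ZMod N]
      Submodule.torsionBy ℤ (PQbar W) (N : ℤ)) {T : PQbar W} (hT : N • T = 0) :
    ∃ σ : Γℚ, (∀ x : Submodule.torsionBy ℤ (PQbar W) (N : ℤ), σ • x = g x) ∧ σ • Q = Q + T :=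
  exists_smul_eq_add_of_odd hΔ hN (fun _ _ hpN =>
    surjMod_of_odd hΔ hW (Odd.of_dvd_nat hN hpN) fun q hq hqp => hirr q hq (hqp.trans hpN))
    (surjMod_of_odd hΔ hW hN hirr) hP hQ g hT

open InvGal

/-- **The curve `y² + y = x³ - x`, the point `(0, 0)` and every odd `N`**: if `N Q = (0, 0)`, every
pair of an automorphism `g` of `W37[N]` and a point `T ∈ W37[N]` is given by an element of
`Gal(ℚ̄/ℚ)`: it acts as `g` on `W37[N]` and maps `Q` to `Q + T`. -/
theorem exists_smul_eq_add37_of_odd (hN : Odd N) {Q : PQbar W37} (hQ : N • Q = incl W37 P37)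
    (g : Submodule.torsionBy ℤ (PQbar W37) (N : ℤ) ≃ₗ[ZMod N]
      Submodule.torsionBy ℤ (PQbar W37) (N : ℤ)) {T : PQbar W37} (hT : N • T = 0) :
    ∃ σ : Γℚ, (∀ x : Submodule.torsionBy ℤ (PQbar W37) (N : ℤ), σ • x = g x) ∧ σ • Q = Q + T :=
  exists_smul_eq_add_of_semistable_of_odd W37_Δ_ne semistable37 hN (fun _ hp _ => irr37 hp)
    (fun _ hp _ => not_exists_nsmul37 hp.two_le) hQ g hT

end Fermat.Agent.Cor.KumE

end
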