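import Fermat.Agent.Corollaries.KumE.Coh
import Fermat.Agent.Corollaries.Surj.Basis
import Fermat.Agent.Corollaries.Surj.PointField
import Fermat.Agent.Corollaries.Surj.TateAll
import Fermat.Agent.Corollaries.LN.PtMap

/-!
# Kummer theory on elliptic curves over `ℚ` (helper62)

`W` an elliptic curve over `ℚ` (equation over `ℤ`), `p` an odd prime such that `Gal(ℚ̄/ℚ)` acts on
`W[pⁿ]` through all automorphisms, `P ∈ W(ℚ)` not divisible by `p` in `W(ℚ)`, `Q ∈ W(ℚ̄)` with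
`pⁿ Q = P`.  Then for every automorphism `g` of `W[pⁿ]` and every `T ∈ W[pⁿ]` there is
`σ ∈ Gal(ℚ̄/ℚ)` which acts as `g` on `W[pⁿ]` and maps `Q` to `Q + T` (`exists_smul_eq_add_of_surjMod`;
Bashmakov 1970): the Galois group of `ℚ(W[pⁿ], Q)` is `(ℤ/pⁿ)² ⋊ GL₂(ℤ/pⁿ)`.
-/

set_option autoImplicit false

noncomputable section

open WeierstrassCurve WeierstrassCurve.Affine WeierstrassCurve.Affine.Point Module
open scoped WeierstrassCurve.Affine
open Fermat.Agent.Tate Fermat.Agent.ECRed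

namespace Fermat.Agent.Cor.KumE

open Matrix

local notation "Qbar" => AlgebraicClosure ℚ
local notation "Γℚ" => (AlgebraicClosure ℚ ≃ₐ[ℚ] AlgebraicClosure ℚ)

/-- the points over `ℚ̄` -/
abbrev PQbar (W : WeierstrassCurve ℤ) : Type :=
  ((W.map (Int.castRingHom ℚ))⁄(AlgebraicClosure ℚ)).Point

/-- the points over `ℚ` -/
abbrev PQ (W : WeierstrassCurve ℤ) : Type := (W.map (Int.castRingHom ℚ)).toAffine.Point

/-- the inclusion `W(ℚ) → W(ℚ̄)` -/
def incl (W : WeierstrassCurve ℤ) : PQ W →+ PQbar W :=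
  LN.ptMap (W.map (Int.castRingHom ℚ)).toAffine (algebraMap ℚ (AlgebraicClosure ℚ))

variable {W : WeierstrassCurve ℤ}

theorem smul_incl (σ : Γℚ) (P : PQ W) : σ • incl W P = incl W P := by
  rcases P with _ | ⟨x, y, h⟩
  · exact smul_zero (A := PQbar W) σ
  · have h1 : ∀ (a b : Qbar) (hab : ((W.map (Int.castRingHom ℚ))⁄Qbar).Nonsingular a b),
        σ a = a → σ b = b → σ • (Point.some a b hab : PQbar W) = Point.some a b hab := by
      intro a b hab ha hb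
      rw [algEquiv_smul_def, Point.map_some, Point.some.injEq]
      exact ⟨ha, hb⟩
    exact h1 _ _ _ (AlgEquiv.commutes σ x) (AlgEquiv.commutes σ y)

theorem incl_injective : Function.Injective (incl W) := LN.ptMap_injective

/-- the points fixed by `Gal(ℚ̄/ℚ)` are the rational points -/
theorem exists_incl_of_fixed {R : PQbar W} (hR : ∀ σ : Γℚ, σ • R = R) : ∃ P : PQ W, incl W P = R := by
  rcases R with _ | ⟨x, y, h⟩
  · exact ⟨0, map_zero _⟩
  · have hσ : ∀ σ : Γℚ, σ x = x ∧ σ y = y := by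
      intro σ
      have h1 := hR σ
      rw [algEquiv_smul_def, Point.map_some, Point.some.injEq] at h1
      exact h1
    obtain ⟨r, hr⟩ := Fermat.Agent.S13five.exists_rat_of_fixed fun σ => (hσ σ).1
    obtain ⟨t, ht⟩ := Fermat.Agent.S13five.exists_rat_of_fixed fun σ => (hσ σ).2
    subst hr ht
    exact ⟨Point.some r t (((W.map (Int.castRingHom ℚ)).toAffine.map_nonsingular
      (algebraMap ℚ Qbar).injective r t).mp h), rfl⟩

/-- `P` is divisible by `p` in `W(ℚ)` if and only if it is `p R` with `R` fixed by Galois -/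
theorem exists_nsmul_eq_iff {p : ℕ} {P : PQ W} :
    (∃ R : PQ W, p • R = P) ↔ ∃ R : PQbar W, (∀ σ : Γℚ, σ • R = R) ∧ p • R = incl W P := by
  constructor
  · rintro ⟨R, rfl⟩
    exact ⟨incl W R, fun σ => smul_incl σ R, (map_nsmul (incl W) p R).symm⟩
  · rintro ⟨R, hR, h⟩
    obtain ⟨R, rfl⟩ := exists_incl_of_fixed hR
    exact ⟨R, incl_injective (by rw [map_nsmul, h])⟩

/-- an element which acts as the multiplication by `a` on `W[N]` -/
theorem exists_smul_eq_nsmul {N : ℕ} (h : SurjMod W N) {a : ℕ} (ha : a.Coprime N) :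
    ∃ σ : Γℚ, ∀ x : PQbar W, N • x = 0 → σ • x = a • x := by
  obtain ⟨σ, hσ⟩ := h (LinearEquiv.smulOfUnit (ZMod.unitOfCoprime a ha))
  refine ⟨σ, fun x hx => ?_⟩
  have h1 := hσ ⟨x, (Fermat.Agent.Torsion.mem_torsionBy_nat_iff N x).2 hx⟩
  have h2 := congrArg Subtype.val h1
  have h3 : ∀ y : Submodule.torsionBy ℤ (PQbar W) (N : ℤ),
      (LinearEquiv.smulOfUnit (ZMod.unitOfCoprime a ha) :
        Submodule.torsionBy ℤ (PQbar W) (N : ℤ) ≃ₗ[ZMod N] _) y = a • y := by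
    intro y
    change ((ZMod.unitOfCoprime a ha : (ZMod N)ˣ) : ZMod N) • y = a • y
    rw [ZMod.coe_unitOfCoprime, Nat.cast_smul_eq_nsmul]
  rw [h3] at h2
  exact h2

/-- an element which acts as `-1` on `W[N]` -/
theorem exists_smul_eq_neg {N : ℕ} (h : SurjMod W N) :
    ∃ σ : Γℚ, ∀ x : PQbar W, N • x = 0 → σ • x = -x := by
  obtain ⟨σ, hσ⟩ := h (LinearEquiv.neg (ZMod N))
  refine ⟨σ, fun x hx => ?_⟩
  exact congrArg Subtype.val (hσ ⟨x, (Fermat.Agent.Torsion.mem_torsionBy_nat_iff N x).2 hx⟩)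

section Prime

variable {p : ℕ} [hp : Fact p.Prime]

/-- transitivity on the points of order `p` -/
theorem exists_smul_eq (hΔ : W.Δ ≠ 0) (h : SurjMod W p) (x y : PQbar W) (hx : p • x = 0)
    (hy : p • y = 0) (hx0 : x ≠ 0) (hy0 : y ≠ 0) : ∃ σ : Γℚ, σ • x = y := by
  obtain ⟨b⟩ := exists_basis_torsionBy hΔ hp.out.ne_zero
  let x' : Submodule.torsionBy ℤ (PQbar W) (p : ℤ) :=
    ⟨x, (Fermat.Agent.Torsion.mem_torsionBy_nat_iff p _).mpr hx⟩
  let y' : Submodule.torsionBy ℤ (PQbar W) (p : ℤ) :=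
    ⟨y, (Fermat.Agent.Torsion.mem_torsionBy_nat_iff p _).mpr hy⟩
  have hx1 : b.equivFun x' ≠ 0 := fun h0 =>
    hx0 (congrArg Subtype.val ((LinearEquiv.map_eq_zero_iff b.equivFun).mp h0))
  have hy1 : b.equivFun y' ≠ 0 := fun h0 =>
    hy0 (congrArg Subtype.val ((LinearEquiv.map_eq_zero_iff b.equivFun).mp h0))
  obtain ⟨g, hg⟩ := exists_GL_mulVec hx1 hy1
  obtain ⟨σ, hσ⟩ := repZ_surjective b h g
  refine ⟨σ, ?_⟩
  have h1 : σ • x' = y' := by
    apply b.equivFun.injective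
    rw [← hg, ← hσ, repZ_val]
    exact (LinearMap.toMatrix_mulVec_repr b b
      (galoisRepModuleEnd (K := AlgebraicClosure ℚ) ℚ (W.map (Int.castRingHom ℚ)) p σ) x').symm
  exact congrArg Subtype.val h1

/-- a transvection -/
theorem exists_transvection (hΔ : W.Δ ≠ 0) (h : SurjMod W p) :
    ∃ (x : PQbar W) (u : Γℚ), p • x = 0 ∧ x ≠ 0 ∧ u • x = x ∧
      ∀ y : PQbar W, p • y = 0 → u • y = y → ∃ a : ℤ, y = a • x := by
  obtain ⟨b⟩ := exists_basis_torsionBy hΔ hp.out.ne_zero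
  have hg : IsUnit (!![1, 1; 0, 1] : Matrix (Fin 2) (Fin 2) (ZMod p)) := by
    rw [Matrix.isUnit_iff_isUnit_det]
    simp
  obtain ⟨g, hg⟩ := hg
  obtain ⟨u, hu⟩ := repZ_surjective b h g
  have h1 : ∀ y : Submodule.torsionBy ℤ (PQbar W) (p : ℤ), b.equivFun (u • y) =
      (!![1, 1; 0, 1] : Matrix (Fin 2) (Fin 2) (ZMod p)) *ᵥ b.equivFun y := by
    intro y
    rw [← hg, ← hu, repZ_val]
    exact (LinearMap.toMatrix_mulVec_repr b b
      (galoisRepModuleEnd (K := AlgebraicClosure ℚ) ℚ (W.map (Int.castRingHom ℚ)) p u) y).symm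
  have hb0 : b.equivFun (b 0) = ![1, 0] := by
    ext i
    fin_cases i <;> simp
  refine ⟨(b 0 : PQbar W), u, (Fermat.Agent.Torsion.mem_torsionBy_nat_iff p _).mp (b 0).2, ?_, ?_,
    ?_⟩
  · intro h0
    exact b.ne_zero 0 (Subtype.ext h0)
  · have h2 : u • b 0 = b 0 := by
      apply b.equivFun.injective
      rw [h1, hb0]
      ext i
      fin_cases i <;> simp
    exact congrArg Subtype.val h2
  · intro y hy huy
    let y' : Submodule.torsionBy ℤ (PQbar W) (p : ℤ) :=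
      ⟨y, (Fermat.Agent.Torsion.mem_torsionBy_nat_iff p _).mpr hy⟩
    have h2 : u • y' = y' := Subtype.ext huy
    have h3 := h1 y'
    rw [h2] at h3
    have h4 : b.equivFun y' 1 = 0 := by
      have h5 := congrFun h3 0
      simp [Matrix.mulVec, dotProduct, Fin.sum_univ_two] at h5
      simpa using h5
    refine ⟨((b.equivFun y' 0).val : ℤ), ?_⟩
    have h5 : y' = ((b.equivFun y' 0).val : ℤ) • b 0 := by
      conv_lhs => rw [← b.sum_equivFun y']
      rw [Fin.sum_univ_two, h4, zero_smul, add_zero, natCast_zsmul]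
      conv_lhs => rw [← ZMod.natCast_zmod_val (b.equivFun y' 0)]
      rw [Nat.cast_smul_eq_nsmul]
    exact congrArg Subtype.val h5

/-- **Bashmakov's theorem** (Kummer theory on elliptic curves).  Let `Gal(ℚ̄/ℚ)` act on `W[p]` and
on `W[pⁿ]` through all automorphisms, `p` odd.  Let `P ∈ W(ℚ)` be a point which is not divisible by
`p` in `W(ℚ)`, and `pⁿ Q = P`.  For every automorphism `g` of `W[pⁿ]` and every point `T` of `W[pⁿ]`
there is an element of `Gal(ℚ̄/ℚ)` which acts as `g` on `W[pⁿ]` and maps `Q` to `Q + T`. -/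
theorem exists_smul_eq_add_of_surjMod (hΔ : W.Δ ≠ 0) (hp2 : p ≠ 2) {n : ℕ} (hn : n ≠ 0)
    (h1 : SurjMod W p) (hpn : SurjMod W (p ^ n)) {P : PQ W} (hP : ¬ ∃ R : PQ W, p • R = P)
    {Q : PQbar W} (hQ : p ^ n • Q = incl W P)
    (g : Submodule.torsionBy ℤ (PQbar W) ((p ^ n : ℕ) : ℤ) ≃ₗ[ZMod (p ^ n)]
      Submodule.torsionBy ℤ (PQbar W) ((p ^ n : ℕ) : ℤ)) {T : PQbar W} (hT : p ^ n • T = 0) :
    ∃ σ : Γℚ, (∀ x : Submodule.torsionBy ℤ (PQbar W) ((p ^ n : ℕ) : ℤ), σ • x = g x) ∧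
      σ • Q = Q + T := by
  obtain ⟨c, hc⟩ := exists_smul_eq_neg hpn
  have hQ' : ∀ σ : Γℚ, σ • (p ^ n • Q) = p ^ n • Q := fun σ => by rw [hQ, smul_incl]
  have hno : ¬ ∃ R : PQbar W, (∀ σ : Γℚ, σ • R = R) ∧ p • R = p ^ n • Q := by
    rw [hQ]
    exact fun h => hP (exists_nsmul_eq_iff.2 h)
  obtain ⟨σ, hσ⟩ := hpn g
  obtain ⟨T₀, hT₀⟩ : ∃ T₀, T₀ = σ • Q - Q := ⟨_, rfl⟩
  have hT₀n : p ^ n • T₀ = 0 := by rw [hT₀]; exact nsmul_smul_sub hQ' σ
  have hS : p ^ n • (σ⁻¹ • (T - T₀)) = 0 := by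
    refine (smul_nsmul' (A := PQbar W) σ⁻¹ (p ^ n) (T - T₀)).symm.trans ?_
    rw [nsmul_sub, hT, hT₀n, sub_zero]
    exact smul_zero (A := PQbar W) σ⁻¹
  obtain ⟨τ, hτ, hτQ⟩ := exists_smul_eq_add_pow (hp.out.odd_of_ne_two hp2) hn hc
    (exists_smul_eq hΔ h1) hQ' hno hS
  refine ⟨σ * τ, fun x => ?_, ?_⟩
  · have h2 : τ • x = x := Subtype.ext (hτ x
      ((Fermat.Agent.Torsion.mem_torsionBy_nat_iff (p ^ n) _).mp x.2))
    rw [mul_smul, h2, hσ]
  · have h3 : σ • Q = Q + T₀ := by rw [hT₀, add_sub_cancel]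
    rw [mul_smul, hτQ]
    refine (smul_add (A := PQbar W) σ Q _).trans ?_
    rw [h3, smul_inv_smul, add_assoc, add_sub_cancel]

/-- **Bashmakov's theorem for semistable elliptic curves over `ℚ`**, `p` odd, `W[p]` irreducible. -/
theorem exists_smul_eq_add_of_semistable (hΔ : W.Δ ≠ 0) (hW : W.IsSemistableModel) (hp2 : p ≠ 2)
    (hirr : W.ModRepIsIrreducible p) {n : ℕ} {P : PQ W} (hP : ¬ ∃ R : PQ W, p • R = P)
    {Q : PQbar W} (hQ : p ^ n • Q = incl W P)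
    (g : Submodule.torsionBy ℤ (PQbar W) ((p ^ n : ℕ) : ℤ) ≃ₗ[ZMod (p ^ n)]
      Submodule.torsionBy ℤ (PQbar W) ((p ^ n : ℕ) : ℤ)) {T : PQbar W} (hT : p ^ n • T = 0) :
    ∃ σ : Γℚ, (∀ x : Submodule.torsionBy ℤ (PQbar W) ((p ^ n : ℕ) : ℤ), σ • x = g x) ∧
      σ • Q = Q + T := by
  by_cases hn : n = 0
  · subst hn
    have h0 : T = 0 := by rwa [pow_zero, one_smul] at hT
    refine ⟨1, fun x => ?_, by rw [one_smul, h0, add_zero]⟩
    have h1 : ∀ x : Submodule.torsionBy ℤ (PQbar W) ((p ^ 0 : ℕ) : ℤ), x = 0 := by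
      intro x
      have h2 := (Fermat.Agent.Torsion.mem_torsionBy_nat_iff (p ^ 0) _).mp x.2
      have h3 : ((1 : ℕ) • (x : PQbar W)) = 0 := h2
      rw [one_smul] at h3
      exact Subtype.ext h3
    rw [h1 (g x), h1 ((1 : Γℚ) • x)]
  · have h1 := surjMod_pow_of_semistable hΔ hW hp2 hirr 1
    rw [pow_one] at h1
    exact exists_smul_eq_add_of_surjMod hΔ hp2 hn h1 (surjMod_pow_of_semistable hΔ hW hp2 hirr n)
      hP hQ g hT

end Prime

end Fermat.Agent.Cor.KumE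

end
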