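import Fermat.Agent.Corollaries.KumE.LocalGlobal

/-!
# The reduction of rational points (helper62)

`W` an elliptic curve over `ℚ` (equation over `ℤ`), `ℓ` a prime of good reduction.

* `existsUnique_redMod`: every rational point reduces to exactly one point of `W(𝔽_ℓ)`;
  `RedMod.add`: the reduction is compatible with the addition.
* `exists_redMod_nsmul_iff`: let `p ≠ ℓ` be a prime and `F` a Frobenius element at a place over `ℓ`.
  Then `P mod ℓ` is divisible by `p` in `W(𝔽_ℓ)` if and only if `F` fixes a point `x ∈ W(ℚ̄)` with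
  `p x = P`.
-/

set_option autoImplicit false

noncomputable section

open WeierstrassCurve WeierstrassCurve.Affine WeierstrassCurve.Affine.Point Module
open scoped WeierstrassCurve.Affine
open Fermat.Agent.Tate Fermat.Agent.ECRed Fermat.Agent.FrobDensity

namespace Fermat.Agent.Cor.KumE

local notation "Qbar" => AlgebraicClosure ℚ
local notation "Γℚ" => (AlgebraicClosure ℚ ≃ₐ[ℚ] AlgebraicClosure ℚ)

variable {W : WeierstrassCurve ℤ}

/-- the elements `x` with `x ^ ℓ = x` of an extension of `𝔽_ℓ` -/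
theorem exists_zmod_of_pow {ℓ : ℕ} [hℓ : Fact ℓ.Prime] {L : Type*} [Field L] [Algebra (ZMod ℓ) L]
    {x : L} (hx : x ^ ℓ = x) : ∃ a : ZMod ℓ, algebraMap (ZMod ℓ) L a = x := by
  classical
  have h0 : (Polynomial.X ^ ℓ - Polynomial.X : Polynomial L) ≠ 0 :=
    FiniteField.X_pow_card_sub_X_ne_zero L hℓ.out.one_lt
  have hdeg : (Polynomial.X ^ ℓ - Polynomial.X : Polynomial L).natDegree = ℓ :=
    FiniteField.X_pow_card_sub_X_natDegree_eq L hℓ.out.one_lt
  have hroot : ∀ y : L, y ∈ (Polynomial.X ^ ℓ - Polynomial.X : Polynomial L).roots.toFinset ↔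
      y ^ ℓ = y := by
    intro y
    rw [Multiset.mem_toFinset, Polynomial.mem_roots h0, Polynomial.IsRoot.def,
      Polynomial.eval_sub, Polynomial.eval_pow, Polynomial.eval_X, sub_eq_zero]
  have h1 : Finset.univ.image (algebraMap (ZMod ℓ) L) ⊆
      (Polynomial.X ^ ℓ - Polynomial.X : Polynomial L).roots.toFinset := by
    intro y hy
    obtain ⟨a, -, rfl⟩ := Finset.mem_image.1 hy
    rw [hroot, ← map_pow, ZMod.pow_card]
  have h2 : (Polynomial.X ^ ℓ - Polynomial.X : Polynomial L).roots.toFinset.card ≤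
      (Finset.univ.image (algebraMap (ZMod ℓ) L)).card := by
    rw [Finset.card_image_of_injective _ (algebraMap (ZMod ℓ) L).injective, Finset.card_univ,
      ZMod.card]
    refine (Multiset.toFinset_card_le _).trans ?_
    exact (Polynomial.card_roots' _).trans hdeg.le
  have h3 := Finset.eq_of_subset_of_card_le h1 h2
  have h4 := (hroot x).2 hx
  rw [← h3] at h4
  obtain ⟨a, -, ha⟩ := Finset.mem_image.1 h4
  exact ⟨a, ha⟩

section Place

variable {A : ValuationSubring (AlgebraicClosure ℚ)} {ℓ : ℕ}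

/-- the points fixed by Frobenius -/
theorem exists_inclMod_of_frob [hℓ : Fact ℓ.Prime]
    [Algebra (ZMod ℓ) (IsLocalRing.ResidueField A)] [DecidableEq (IsLocalRing.ResidueField A)]
    {b : ((W.reductionMod ℓ)⁄(IsLocalRing.ResidueField A)).Point}
    (h : Fermat.Agent.ECFrob.frob (W.reductionMod ℓ) (IsLocalRing.ResidueField A) b = b) :
    ∃ c : (W.reductionMod ℓ).toAffine.Point, inclMod W ℓ A c = b := by
  rcases b with _ | ⟨u, v, huv⟩
  · exact ⟨0, _root_.map_zero _⟩
  · have h1 : Fermat.Agent.ECFrob.frob (W.reductionMod ℓ) (IsLocalRing.ResidueField A)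
        (Point.some u v huv) = Point.some u v huv := h
    rw [Fermat.Agent.ECFrob.frob_some, Point.some.injEq,
      Fermat.Agent.ECFrob.frobeniusAlgHom_apply, Fermat.Agent.ECFrob.frobeniusAlgHom_apply,
      ZMod.card] at h1
    obtain ⟨a, rfl⟩ := exists_zmod_of_pow h1.1
    obtain ⟨c, rfl⟩ := exists_zmod_of_pow h1.2
    exact ⟨Point.some a c (((W.reductionMod ℓ).toAffine.map_nonsingular
      (algebraMap (ZMod ℓ) (IsLocalRing.ResidueField A)).injective a c).mp huv), rfl⟩

theorem inclMod_injective [Fact ℓ.Prime] [Algebra (ZMod ℓ) (IsLocalRing.ResidueField A)]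
    [DecidableEq (IsLocalRing.ResidueField A)] : Function.Injective (inclMod W ℓ A) :=
  LN.ptMap_injective

end Place

variable {ℓ : ℕ} [hℓ : Fact ℓ.Prime]

/-- every rational point has a reduction modulo a good prime -/
theorem exists_redMod (hgood : W.IsGoodPrimeFor ℓ) (P : PQ W) : ∃ b, RedMod ℓ P b := by
  classical
  by_cases h0 : ZeroMod ℓ P
  · exact ⟨0, Or.inl ⟨h0, rfl⟩⟩
  obtain ⟨A, hA, -⟩ := exists_frob_place hℓ.out
  have hchar := charP_residueField_of_liesOver hℓ.out hA
  let _ : Algebra (ZMod ℓ) (IsLocalRing.ResidueField A) := ZMod.algebra _ ℓ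
  rcases P with _ | ⟨x, y, hxy⟩
  · exact (h0 (Or.inl rfl)).elim
  have hx : ¬ ℓ ∣ x.den := fun h => h0 (Or.inr ⟨x, y, hxy, rfl, h⟩)
  have hpl := isPlace_valuationSubring A
  have hne : incl W (Point.some x y hxy) ≠ 0 := Point.some_ne_zero _
  have hvx : A.valuation (xc (incl W (Point.some x y hxy))) ≤ 1 := by
    by_contra hcon
    rw [not_le] at hcon
    exact hx ((one_lt_valuation_iff hℓ.out hA x).1 hcon)
  obtain ⟨a, b, ha, hb, hab⟩ := exists_redTo_of_integral
    (redCurve_reductionMod W (A := A) (ℓ := ℓ)) hpl hne hvx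
  have hy : ¬ ℓ ∣ y.den := by
    intro h
    have h1 := (one_lt_valuation_iff hℓ.out hA y).2 h
    exact absurd (hpl.le_one hb) (not_le.2 h1)
  have ha' := hpl.unique ha (redTo_ratCast hA hx)
  have hb' := hpl.unique hb (redTo_ratCast hA hy)
  rw [ha', hb'] at hab
  have hns : ((W.reductionMod ℓ)⁄(IsLocalRing.ResidueField A)).Nonsingular _ _ :=
    (equation_iff_nonsingular_of_Δ_ne_zero (reductionMod_Δ_ne_zero' hgood)).mp hab
  exact ⟨_, Or.inr ⟨x, y, hxy, ((W.reductionMod ℓ).toAffine.map_nonsingular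
    (algebraMap (ZMod ℓ) (IsLocalRing.ResidueField A)).injective _ _).mp hns, rfl, hx, hy, rfl⟩⟩

/-- **Every rational point reduces to exactly one point of `W(𝔽_ℓ)`**, `ℓ` a prime of good
reduction. -/
theorem existsUnique_redMod (hgood : W.IsGoodPrimeFor ℓ) (P : PQ W) : ∃! b, RedMod ℓ P b := by
  classical
  obtain ⟨b, hb⟩ := exists_redMod hgood P
  refine ⟨b, hb, fun b' hb' => ?_⟩
  obtain ⟨A, hA, -⟩ := exists_frob_place hℓ.out
  have hchar := charP_residueField_of_liesOver hℓ.out hA
  let _ : Algebra (ZMod ℓ) (IsLocalRing.ResidueField A) := ZMod.algebra _ ℓ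
  exact inclMod_injective (A := A)
    ((redGood_of_redMod hA hgood hb').symm.trans (redGood_of_redMod hA hgood hb))

/-- **The reduction is a homomorphism.** -/
theorem RedMod.add (hgood : W.IsGoodPrimeFor ℓ) {P P' : PQ W}
    {b b' : (W.reductionMod ℓ).toAffine.Point} (h : RedMod ℓ P b) (h' : RedMod ℓ P' b') :
    RedMod ℓ (P + P') (b + b') := by
  classical
  obtain ⟨c, hc⟩ := exists_redMod hgood (P + P')
  obtain ⟨A, hA, -⟩ := exists_frob_place hℓ.out
  have hchar := charP_residueField_of_liesOver hℓ.out hA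
  let _ : Algebra (ZMod ℓ) (IsLocalRing.ResidueField A) := ZMod.algebra _ ℓ
  have h1 : c = b + b' := by
    refine inclMod_injective (A := A) ((redGood_of_redMod hA hgood hc).symm.trans ?_)
    rw [map_add, map_add, redGood_of_redMod hA hgood h, redGood_of_redMod hA hgood h', map_add]
  rwa [← h1]

/-- **Divisibility in `W(𝔽_ℓ)` and Frobenius.**  `P mod ℓ` is divisible by `p` in `W(𝔽_ℓ)` if and
only if a Frobenius element at a place over `ℓ` fixes a point `x` with `p x = P`. -/
theorem exists_redMod_nsmul_iff (hΔ : W.Δ ≠ 0) (hgood : W.IsGoodPrimeFor ℓ) {p : ℕ}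
    (hp : p.Prime) (hpℓ : ℓ ≠ p) {A : ValuationSubring (AlgebraicClosure ℚ)}
    (hA : A.LiesOverPrime ℓ) {F : Γℚ} (hF : A.IsFrobeniusAt F ℓ) (P : PQ W) :
    (∃ b : (W.reductionMod ℓ).toAffine.Point, RedMod ℓ P (p • b)) ↔
      ∃ x : PQbar W, p • x = incl W P ∧ F • x = x := by
  classical
  have hchar := charP_residueField_of_liesOver hℓ.out hA
  let _ : Algebra (ZMod ℓ) (IsLocalRing.ResidueField A) := ZMod.algebra _ ℓ
  have hne : ((p : ℕ) : IsLocalRing.ResidueField A) ≠ 0 := by
    intro h3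
    rw [CharP.cast_eq_zero_iff (IsLocalRing.ResidueField A) ℓ] at h3
    exact hpℓ ((Nat.prime_dvd_prime_iff_eq hℓ.out hp).1 h3)
  have hbij := redGood_bijOn (redCurve_reductionMod W (A := A) (ℓ := ℓ))
    (isPlace_valuationSubring A) (reductionMod_Δ_ne_zero' hgood) hne
  constructor
  · rintro ⟨b, hb⟩
    have hΔ' : (EQ W).Δ ≠ 0 := by
      rw [EQ_Δ]
      exact_mod_cast hΔ
    obtain ⟨P', hP'⟩ := Fermat.Agent.Torsion.surjective_nsmul hΔ' hp.ne_zero (incl W P)
    replace hP' : p • P' = incl W P := hP'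
    -- `r P' - b` is the reduction of a torsion point `T`
    let r := redGood (redCurve_reductionMod W (A := A) (ℓ := ℓ)) (isPlace_valuationSubring A)
      (reductionMod_Δ_ne_zero' hgood)
    have hr : ∀ x : PQbar W, r (F • x) = Fermat.Agent.ECFrob.frob (W.reductionMod ℓ)
      (IsLocalRing.ResidueField A) (r x) := redGood_smul_frobenius hgood hF
    have hrP : r (incl W P) = inclMod W ℓ A (p • b) := redGood_of_redMod hA hgood hb
    have h1 : p • (r P' - inclMod W ℓ A b) = 0 := by
      rw [nsmul_sub, ← map_nsmul, ← map_nsmul, hP', hrP, sub_self]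
    obtain ⟨T, hT, hTr⟩ := hbij.surjOn h1
    replace hTr : r T = r P' - inclMod W ℓ A b := hTr
    have hT' : p • T = 0 := hT
    have h2 : r (P' - T) = inclMod W ℓ A b := by rw [map_sub, hTr, sub_sub_cancel]
    have h3 : p • (P' - T) = incl W P := by rw [nsmul_sub, hT', hP', sub_zero]
    refine ⟨P' - T, h3, ?_⟩
    have h4 : r (F • (P' - T)) = r (P' - T) := by rw [hr, h2, frob_inclMod]
    have h5 : r (F • (P' - T) - (P' - T)) = 0 := by rw [map_sub, h4, sub_self]
    have h6 : p • (F • (P' - T) - (P' - T)) = 0 := by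
      rw [nsmul_sub, nsmul_smul, h3, smul_incl, sub_self]
    exact sub_eq_zero.1 (hbij.injOn h6 (show p • (0 : PQbar W) = 0 from nsmul_zero _)
      (h5.trans (_root_.map_zero _).symm))
  · rintro ⟨x, hx, hFx⟩
    have h1 : Fermat.Agent.ECFrob.frob (W.reductionMod ℓ) (IsLocalRing.ResidueField A)
        (redGood (redCurve_reductionMod W (A := A) (ℓ := ℓ)) (isPlace_valuationSubring A)
          (reductionMod_Δ_ne_zero' hgood) x) = redGood (redCurve_reductionMod W (A := A) (ℓ := ℓ))
          (isPlace_valuationSubring A) (reductionMod_Δ_ne_zero' hgood) x := by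
      rw [← redGood_smul_frobenius hgood hF, hFx]
    obtain ⟨b, hb⟩ := exists_inclMod_of_frob h1
    obtain ⟨c, hc⟩ := exists_redMod hgood P
    refine ⟨b, ?_⟩
    have h2 : c = p • b := by
      refine inclMod_injective (A := A) ((redGood_of_redMod hA hgood hc).symm.trans ?_)
      rw [map_nsmul, hb, ← hx, map_nsmul]
    rwa [← h2]

end Fermat.Agent.Cor.KumE

end
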