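import Fermat.Agent.Corollaries.KumE.AffCount
import Fermat.Agent.Corollaries.KumE.Reduction
import Fermat.Agent.Corollaries.Surj.Cheb
import Fermat.Agent.Corollaries.Surj.NatDens

/-!
# The density of the primes for which `P mod ℓ` is divisible by `p` (helper62)

`W` an elliptic curve over `ℚ` (equation over `ℤ`), `p` an odd prime such that `Gal(ℚ̄/ℚ)` acts on
`W[p]` through all automorphisms, `P ∈ W(ℚ)` a point which is not divisible by `p` in `W(ℚ)`.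

* `natDensity_div` : the primes `ℓ` of good reduction for which `P mod ℓ` is divisible by `p` in
  `W(𝔽_ℓ)` have the natural density `1 - (p² - 1) / p³`;
* `natDensity_not_div` : those for which it is not divisible by `p` have the density `(p² - 1) / p³`.
-/

set_option autoImplicit false

noncomputable section

open WeierstrassCurve WeierstrassCurve.Affine WeierstrassCurve.Affine.Point Module Matrix
open scoped WeierstrassCurve.Affine
open Fermat.Agent.Tate Fermat.Agent.ECRed Fermat.Agent.FrobDensity Fermat.Agent.Classic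
open Fermat.Agent.Frob

namespace Fermat.Agent.Cor.KumE

local notation "Qbar" => AlgebraicClosure ℚ
local notation "Γℚ" => (AlgebraicClosure ℚ ≃ₐ[ℚ] AlgebraicClosure ℚ)

variable {W : WeierstrassCurve ℤ} {p : ℕ} [hp : Fact p.Prime]

local notation "M2" => Matrix (Fin 2) (Fin 2) (ZMod p)
local notation "GL2" => GL (Fin 2) (ZMod p)
local notation "V2" => Fin 2 → ZMod p

/-- coordinates on `W[p]` and a point `Q` with `p Q = P` -/
structure KD (W : WeierstrassCurve ℤ) (p : ℕ) [Fact p.Prime] (P : PQ W) where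
  /-- the equation is not singular -/
  hΔ : W.Δ ≠ 0
  /-- the coordinates on `W[p]` -/
  e : Submodule.torsionBy ℤ (PQbar W) (p : ℤ) ≃ₗ[ZMod p] (Fin 2 → ZMod p)
  /-- the action of the Galois group in these coordinates -/
  he : ∀ (σ : Γℚ) (x : Submodule.torsionBy ℤ (PQbar W) (p : ℤ)),
    e (σ • x) = (repP p hΔ σ : Matrix (Fin 2) (Fin 2) (ZMod p)) *ᵥ e x
  /-- the point `Q` -/
  Q : PQbar W
  /-- `p Q = P` -/
  hQ : p • Q = incl W P

namespace KD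

theorem nonempty (hΔ : W.Δ ≠ 0) (P : PQ W) : Nonempty (KD W p P) := by
  obtain ⟨e, he⟩ := exists_equiv p hΔ
  have hΔ' : (EQ W).Δ ≠ 0 := by
    rw [EQ_Δ]
    exact_mod_cast hΔ
  obtain ⟨Q, hQ⟩ := Fermat.Agent.Torsion.surjective_nsmul hΔ' hp.out.ne_zero (incl W P)
  exact ⟨⟨hΔ, e, he, Q, hQ⟩⟩

variable {P : PQ W} (D : KD W p P)

/-- the point `σ Q - Q` of `W[p]` -/
def diff (σ : Γℚ) : Submodule.torsionBy ℤ (PQbar W) (p : ℤ) :=
  ⟨σ • D.Q - D.Q, (Fermat.Agent.Torsion.mem_torsionBy_nat_iff p _).mpr (by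
    rw [nsmul_sub, nsmul_smul, D.hQ, smul_incl, sub_self])⟩

theorem diff_one : D.diff 1 = 0 := Subtype.ext (by
  change (1 : Γℚ) • D.Q - D.Q = 0
  rw [one_smul, sub_self])

theorem diff_mul (σ τ : Γℚ) : D.diff (σ * τ) = D.diff σ + σ • D.diff τ := Subtype.ext (by
  change (σ * τ) • D.Q - D.Q = (σ • D.Q - D.Q) + σ • (τ • D.Q - D.Q)
  rw [mul_smul, show σ • (τ • D.Q - D.Q) = σ • τ • D.Q - σ • D.Q from
    smul_sub (A := PQbar W) σ _ _]
  abel)

/-- **The Kummer representation** `σ ↦ (σ Q - Q, σ)`, with values in the affine group. -/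
def kum : Γℚ →* AG p where
  toFun σ := ⟨D.e (D.diff σ), repP p D.hΔ σ⟩
  map_one' := by
    refine AG.ext ?_ (_root_.map_one (repP p D.hΔ))
    change D.e (D.diff 1) = 0
    rw [diff_one, _root_.map_zero]
  map_mul' σ τ := by
    refine AG.ext ?_ (_root_.map_mul (repP p D.hΔ) σ τ)
    change D.e (D.diff (σ * τ)) = D.e (D.diff σ) + (repP p D.hΔ σ : M2) *ᵥ D.e (D.diff τ)
    rw [diff_mul, _root_.map_add, D.he]

theorem kum_t (σ : Γℚ) : (D.kum σ).t = D.e (D.diff σ) := rfl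
theorem kum_g (σ : Γℚ) : (D.kum σ).g = repP p D.hΔ σ := rfl

theorem kum_eq_one {σ : Γℚ} (h1 : repP p D.hΔ σ = 1) (h2 : σ • D.Q = D.Q) : D.kum σ = 1 := by
  refine AG.ext ?_ h1
  have h3 : D.diff σ = 0 := Subtype.ext (by
    change σ • D.Q - D.Q = 0
    rw [h2, sub_self])
  rw [kum_t, h3, _root_.map_zero]
  rfl

/-- fixed points -/
theorem kum_mem_fixedSet {σ : Γℚ} :
    D.kum σ ∈ AG.fixedSet p ↔ ∃ x : PQbar W, p • x = incl W P ∧ σ • x = x := by
  constructor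
  · rintro ⟨v, hv⟩
    obtain ⟨T, rfl⟩ := D.e.surjective v
    rw [kum_t, kum_g, ← D.he, ← _root_.map_add] at hv
    have h1 : σ • D.Q - D.Q + σ • (T : PQbar W) = T := congrArg Subtype.val (D.e.injective hv)
    have hT : p • (T : PQbar W) = 0 := (Fermat.Agent.Torsion.mem_torsionBy_nat_iff p _).mp T.2
    refine ⟨D.Q + T, by rw [nsmul_add, D.hQ, hT, add_zero], ?_⟩
    rw [show σ • (D.Q + (T : PQbar W)) = σ • D.Q + σ • (T : PQbar W) from
      smul_add (A := PQbar W) σ _ _]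
    calc σ • D.Q + σ • (T : PQbar W) = D.Q + (σ • D.Q - D.Q + σ • (T : PQbar W)) := by abel
      _ = D.Q + T := by rw [h1]
  · rintro ⟨x, hx, hσx⟩
    let T : Submodule.torsionBy ℤ (PQbar W) (p : ℤ) :=
      ⟨x - D.Q, (Fermat.Agent.Torsion.mem_torsionBy_nat_iff p _).mpr (by
        rw [nsmul_sub, hx, D.hQ, sub_self])⟩
    refine ⟨D.e T, ?_⟩
    rw [kum_t, kum_g, ← D.he, ← _root_.map_add]
    refine congrArg D.e (Subtype.ext ?_)
    change σ • D.Q - D.Q + σ • (x - D.Q) = x - D.Q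
    rw [show σ • (x - D.Q) = σ • x - σ • D.Q from smul_sub (A := PQbar W) σ _ _, hσx]
    abel

/-- the mod `p` representation -/
theorem repP_surjective_of_surjMod (hΔ : W.Δ ≠ 0) (h1 : SurjMod W p) :
    Function.Surjective (repP p hΔ) := by
  intro g
  obtain ⟨e, he⟩ := exists_equiv p hΔ
  let L : (V2) ≃ₗ[ZMod p] (V2) := LinearEquiv.ofLinearMap (Matrix.mulVecLin (g : M2))
    (Matrix.mulVecLin ((g⁻¹ : GL2) : M2))
    (by rw [← Matrix.mulVecLin_mul, ← Units.val_mul, mul_inv_cancel, Units.val_one,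
      Matrix.mulVecLin_one])
    (by rw [← Matrix.mulVecLin_mul, ← Units.val_mul, inv_mul_cancel, Units.val_one,
      Matrix.mulVecLin_one])
  obtain ⟨σ, hσ⟩ := h1 (e.trans (L.trans e.symm))
  refine ⟨σ, Units.ext (Matrix.mulVec_injective (funext fun v => ?_))⟩
  obtain ⟨x, rfl⟩ := e.surjective v
  rw [← he, hσ]
  exact e.apply_symm_apply _

/-- **The Kummer representation is surjective** if `P` is not divisible by `p`. -/
theorem kum_surjective (hp2 : p ≠ 2) (h1 : SurjMod W p) (hP : ¬ ∃ R : PQ W, p • R = P) :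
    Function.Surjective D.kum := by
  rintro ⟨t, g⟩
  obtain ⟨σ, hσ⟩ := repP_surjective_of_surjMod D.hΔ h1 g
  obtain ⟨c, hc⟩ := exists_smul_eq_neg h1
  have hQ' : ∀ σ : Γℚ, σ • (p • D.Q) = p • D.Q := fun σ => by rw [D.hQ, smul_incl]
  have hno : ¬ ∃ R : PQbar W, (∀ σ : Γℚ, σ • R = R) ∧ p • R = p • D.Q := by
    rw [D.hQ]
    exact fun h => hP (exists_nsmul_eq_iff.2 h)
  obtain ⟨T, hT⟩ := D.e.surjective (t - D.e (D.diff σ))
  obtain ⟨τ, hτ, hτQ⟩ := exists_smul_eq_add (hp.out.odd_of_ne_two hp2) (dvd_refl p) hc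
    (exists_smul_eq D.hΔ h1) hQ' hno ((Fermat.Agent.Torsion.mem_torsionBy_nat_iff p _).mp T.2)
  have hτ1 : repP p D.hΔ τ = 1 := by
    refine Units.ext (Matrix.mulVec_injective (funext fun v => ?_))
    obtain ⟨x, rfl⟩ := D.e.surjective v
    have h2 : τ • x = x := Subtype.ext (hτ x
      ((Fermat.Agent.Torsion.mem_torsionBy_nat_iff p _).mp x.2))
    rw [← D.he, h2, Units.val_one, Matrix.one_mulVec]
  have hτ2 : D.diff τ = T := Subtype.ext (by
    change τ • D.Q - D.Q = T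
    rw [hτQ, add_sub_cancel_left])
  refine ⟨τ * σ, ?_⟩
  rw [_root_.map_mul]
  refine AG.ext ?_ ?_
  · rw [AG.mul_t, kum_t, kum_t, kum_g, hτ1, hτ2, hT, Units.val_one, Matrix.one_mulVec,
      sub_add_cancel]
  · rw [AG.mul_g, kum_g, kum_g, hτ1, one_mul, hσ]

theorem kum_level : ∃ L : IntermediateField ℚ Qbar, FiniteDimensional ℚ L ∧
    ∀ σ : Γℚ, (∀ x ∈ L, σ x = x) → D.kum σ = 1 := by
  obtain ⟨L₁, hL₁, h₁⟩ := repP_factors p D.hΔ
  obtain ⟨L₂, hL₂, h₂⟩ := exists_level_of_finite (W := W) (Set.finite_singleton D.Q)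
  refine ⟨L₁ ⊔ L₂, inferInstance, fun σ hσ => ?_⟩
  exact D.kum_eq_one (h₁ σ fun x hx => hσ x ((le_sup_left : L₁ ≤ L₁ ⊔ L₂) hx))
    (h₂ σ (fun x hx => hσ x ((le_sup_right : L₂ ≤ L₁ ⊔ L₂) hx)) D.Q rfl)

/-- the Kummer representation is unramified at the good primes `ℓ ≠ p` -/
theorem kum_inertia {ℓ : ℕ} (hℓ : ℓ.Prime) (hgood : W.IsGoodPrimeFor ℓ) (hne : ℓ ≠ p)
    {A : ValuationSubring (AlgebraicClosure ℚ)} (hA : A.LiesOverPrime ℓ) {σ : Γℚ}
    (hσ : σ ∈ A.inertiaSubgroupIn ℚ) : D.kum σ = 1 := by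
  classical
  have : Fact ℓ.Prime := ⟨hℓ⟩
  have hchar := charP_residueField_of_liesOver hℓ hA
  let _ : Algebra (ZMod ℓ) (IsLocalRing.ResidueField A) := ZMod.algebra _ ℓ
  have hne' : ((p : ℕ) : IsLocalRing.ResidueField A) ≠ 0 := by
    intro h3
    rw [CharP.cast_eq_zero_iff (IsLocalRing.ResidueField A) ℓ] at h3
    exact hne ((Nat.prime_dvd_prime_iff_eq hℓ hp.out).1 h3)
  have hbij := redGood_bijOn (redCurve_reductionMod W (A := A) (ℓ := ℓ))
    (isPlace_valuationSubring A) (reductionMod_Δ_ne_zero' hgood) hne'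
  refine D.kum_eq_one (repP_inertia D.hΔ hℓ hgood hne hA hσ) ?_
  have h1 := redGood_smul_inertia (W := W) hgood hσ D.Q
  have h2 : redGood (redCurve_reductionMod W (A := A) (ℓ := ℓ)) (isPlace_valuationSubring A)
      (reductionMod_Δ_ne_zero' hgood) (σ • D.Q - D.Q) = 0 := by
    rw [_root_.map_sub, h1, sub_self]
  have h3 : p • (σ • D.Q - D.Q) = 0 := by rw [nsmul_sub, nsmul_smul, D.hQ, smul_incl, sub_self]
  exact sub_eq_zero.1 (hbij.injOn h3 (show p • (0 : PQbar W) = 0 from nsmul_zero _)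
    (h2.trans (_root_.map_zero _).symm))

/-- divisibility by `p` modulo `ℓ`, by Chebotarev's set -/
theorem mem_FrobIn_kum {ℓ : ℕ} [hℓ : Fact ℓ.Prime] (hgood : W.IsGoodPrimeFor ℓ) (hne : ℓ ≠ p) :
    ℓ ∈ FrobIn D.kum (AG.fixedSet p) ↔
      ∃ b : (W.reductionMod ℓ).toAffine.Point, RedMod ℓ P (p • b) := by
  obtain ⟨A, hA, F, hF⟩ := exists_frobenius ℓ hℓ.out
  rw [LT.Period.mem_FrobIn_iff D.kum AG.fixedSet_conj hℓ.out hA
    (fun τ hτ => D.kum_inertia hℓ.out hgood hne hA hτ) hF, kum_mem_fixedSet,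
    exists_redMod_nsmul_iff D.hΔ hgood hp.out hne hA hF P]

end KD

/-- **The density of the primes `ℓ` for which `P mod ℓ` is divisible by `p`** in `W(𝔽_ℓ)` is
`1 - (p² - 1) / p³`, if `P ∈ W(ℚ)` is not divisible by `p` in `W(ℚ)`, `p ≠ 2` and `Gal(ℚ̄/ℚ)` acts on
`W[p]` through all automorphisms.  (Natural density.) -/
theorem natDensity_div (hΔ : W.Δ ≠ 0) (hp2 : p ≠ 2) (h1 : SurjMod W p) {P : PQ W}
    (hP : ¬ ∃ R : PQ W, p • R = P) :
    HasNaturalDensity {ℓ | ∃ _ : Fact ℓ.Prime, W.IsGoodPrimeFor ℓ ∧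
      ∃ b : (W.reductionMod ℓ).toAffine.Point, RedMod ℓ P (p • b)}
      (1 - ((p : ℝ) ^ 2 - 1) / p ^ 3) := by
  obtain ⟨D⟩ := KD.nonempty (p := p) hΔ P
  have h := chebotarev_nat D.kum (D.kum_surjective hp2 h1 hP) D.kum_level
    (AG.fixedSet p) AG.fixedSet_conj
  have h2 : (Nat.card (AG.fixedSet p) : ℝ) =
      p ^ 2 * Nat.card (GL2) - (p ^ 2 - p) * (p ^ 3 - 2 * p) - (p - 1) := by
    exact_mod_cast AG.card_fixed hp2
  have h3 : (Nat.card (AG p) : ℝ) = p ^ 2 * Nat.card (GL2) := by exact_mod_cast AG.card_eq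
  rw [h2, h3, Cheb.card_GL2_real] at h
  have h4 := Cheb.real_pos (p := p) hp2
  have h5 : (p : ℝ) - 1 ≠ 0 := by linarith
  have h6 : (p : ℝ) + 1 ≠ 0 := by linarith
  have h7 : (p : ℝ) ≠ 0 := by linarith
  have h8 : (1 - ((p : ℝ) ^ 2 - 1) / p ^ 3) =
      (p ^ 2 * (p * (p - 1) ^ 2 * (p + 1)) - (p ^ 2 - p) * (p ^ 3 - 2 * p) - (p - 1)) /
        (p ^ 2 * (p * (p - 1) ^ 2 * (p + 1))) := by
    field_simp
    ring
  rw [h8]
  refine h.congr_of_finset (insert p W.Δ.natAbs.primeFactors) ?_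
  intro ℓ hℓ hℓT
  rw [Finset.mem_insert, not_or] at hℓT
  obtain ⟨hne, hℓΔ⟩ := hℓT
  have hgood : W.IsGoodPrimeFor ℓ := fun h => hℓΔ (Nat.mem_primeFactors.mpr
    ⟨hℓ, Int.natCast_dvd.mp h, Int.natAbs_ne_zero.mpr hΔ⟩)
  have hℓ' : Fact ℓ.Prime := ⟨hℓ⟩
  rw [D.mem_FrobIn_kum hgood hne]
  exact ⟨fun h => ⟨hℓ', hgood, h⟩, fun ⟨_, _, h⟩ => h⟩

/-- **The density of the primes `ℓ` for which `P mod ℓ` is not divisible by `p`** is
`(p² - 1) / p³`. -/
theorem natDensity_not_div (hΔ : W.Δ ≠ 0) (hp2 : p ≠ 2) (h1 : SurjMod W p) {P : PQ W}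
    (hP : ¬ ∃ R : PQ W, p • R = P) :
    HasNaturalDensity {ℓ | ∃ _ : Fact ℓ.Prime, W.IsGoodPrimeFor ℓ ∧
      ¬ ∃ b : (W.reductionMod ℓ).toAffine.Point, RedMod ℓ P (p • b)}
      (((p : ℝ) ^ 2 - 1) / p ^ 3) := by
  have h := (natDensity_div hΔ hp2 h1 hP).compl
  rw [sub_sub_cancel] at h
  refine h.congr_of_finset W.Δ.natAbs.primeFactors ?_
  intro ℓ hℓ hℓΔ
  have hgood : W.IsGoodPrimeFor ℓ := fun h => hℓΔ (Nat.mem_primeFactors.mpr
    ⟨hℓ, Int.natCast_dvd.mp h, Int.natAbs_ne_zero.mpr hΔ⟩)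
  have hℓ' : Fact ℓ.Prime := ⟨hℓ⟩
  exact ⟨fun h => ⟨hℓ', hgood, fun h' => h ⟨hℓ', hgood, h'⟩⟩, fun ⟨_, _, h⟩ ⟨_, _, h'⟩ => h h'⟩

/-- The same for semistable elliptic curves over `ℚ`, `p` odd, `W[p]` irreducible. -/
theorem natDensity_div_of_semistable (hΔ : W.Δ ≠ 0) (hW : W.IsSemistableModel) (hp2 : p ≠ 2)
    (hirr : W.ModRepIsIrreducible p) {P : PQ W} (hP : ¬ ∃ R : PQ W, p • R = P) :
    HasNaturalDensity {ℓ | ∃ _ : Fact ℓ.Prime, W.IsGoodPrimeFor ℓ ∧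
      ∃ b : (W.reductionMod ℓ).toAffine.Point, RedMod ℓ P (p • b)}
      (1 - ((p : ℝ) ^ 2 - 1) / p ^ 3) := by
  have h1 := surjMod_pow_of_semistable hΔ hW hp2 hirr 1
  rw [pow_one] at h1
  exact natDensity_div hΔ hp2 h1 hP

/-- The same for semistable elliptic curves over `ℚ`, `p = 11` or `p ≥ 17`. -/
theorem natDensity_div_of_ge (hΔ : W.Δ ≠ 0) (hW : W.IsSemistableModel)
    (hp11 : p = 11 ∨ 17 ≤ p) {P : PQ W} (hP : ¬ ∃ R : PQ W, p • R = P) :
    HasNaturalDensity {ℓ | ∃ _ : Fact ℓ.Prime, W.IsGoodPrimeFor ℓ ∧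
      ∃ b : (W.reductionMod ℓ).toAffine.Point, RedMod ℓ P (p • b)}
      (1 - ((p : ℝ) ^ 2 - 1) / p ^ 3) :=
  natDensity_div hΔ (by omega) (fun g => surjective_of_semistable_of_ge hΔ hp11 hW g) hP

end Fermat.Agent.Cor.KumE

end
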