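import Fermat.Agent.Corollaries.KumE.Composite
import Fermat.Agent.Corollaries.InvGal.OddN

/-!
# The fields `ℚ((1/N) P)` (helper62)

`W` an elliptic curve over `ℚ` (equation over `ℤ`), `P ∈ W(ℚ)`.  `kumField W N P` is the field generated
by the coordinates of the points `x` with `N x = P`.

* `nonempty_equiv_kumField` : if `N` is odd, `Gal(ℚ̄/ℚ)` acts on `W[N]` and on `W[p]`, `p ∣ N`, through
  all automorphisms, and `P` is not divisible by any prime divisor of `N`, then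
  `Gal(ℚ((1/N) P)/ℚ)` is the affine group `(ℤ/N)² ⋊ GL₂(ℤ/N)`;
* `finrank_kumField37` : `[ℚ((1/N) P) : ℚ] = N² #GL₂(ℤ/N)` for the curve `37a`, `P = (0, 0)` and every
  odd `N`;
* `exists_galois_affine` : for every odd `N` the affine group `(ℤ/N)² ⋊ GL₂(ℤ/N)` is a Galois group
  over `ℚ`.
-/

set_option autoImplicit false

noncomputable section

open WeierstrassCurve WeierstrassCurve.Affine WeierstrassCurve.Affine.Point Module Matrix
open scoped WeierstrassCurve.Affine
open Fermat.Agent.Tate Fermat.Agent.ECRed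

namespace Fermat.Agent.Cor.KumE

local notation "Qbar" => AlgebraicClosure ℚ
local notation "Γℚ" => (AlgebraicClosure ℚ ≃ₐ[ℚ] AlgebraicClosure ℚ)

theorem AG.card_eq_nat (N : ℕ) [NeZero N] :
    Nat.card (AG N) = N ^ 2 * Nat.card (GL (Fin 2) (ZMod N)) := by
  rw [Nat.card_congr AG.equivProd, Nat.card_prod, mul_comm, Nat.card_fun, Nat.card_zmod,
    Nat.card_eq_fintype_card (α := Fin 2), Fintype.card_fin]

variable {W : WeierstrassCurve ℤ} {N : ℕ} {P : PQ W}

/-- the coordinates of the points `x` with `N x = P` -/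
def kumCoords (W : WeierstrassCurve ℤ) (N : ℕ) (P : PQ W) : Set Qbar :=
  xc '' {x : PQbar W | N • x = incl W P} ∪ yc '' {x : PQbar W | N • x = incl W P}

/-- **The field `ℚ((1/N) P)`**, generated by the coordinates of the points `x` with `N x = P`. -/
def kumField (W : WeierstrassCurve ℤ) (N : ℕ) (P : PQ W) : IntermediateField ℚ Qbar :=
  IntermediateField.adjoin ℚ (kumCoords W N P)

theorem fixes_kumField_iff (σ : Γℚ) : σ ∈ (kumField W N P).fixingSubgroup ↔
    ∀ x : PQbar W, N • x = incl W P → σ • x = x := by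
  rw [IntermediateField.mem_fixingSubgroup_iff]
  constructor
  · intro h x hx
    have hx1 := h (xc x) (IntermediateField.subset_adjoin ℚ _ (Or.inl ⟨x, hx, rfl⟩))
    have hx2 := h (yc x) (IntermediateField.subset_adjoin ℚ _ (Or.inr ⟨x, hx, rfl⟩))
    rcases x with _ | ⟨a, b, hab⟩
    · exact smul_zero (A := PQbar W) σ
    · rw [algEquiv_smul_def, Point.map_some, Point.some.injEq]
      exact ⟨hx1, hx2⟩
  · intro h z hz
    have h1 : kumCoords W N P ⊆ (IntermediateField.fixedField (Subgroup.zpowers σ) :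
        IntermediateField ℚ Qbar) := by
      have h0 : ∀ x : PQbar W, N • x = incl W P → σ (xc x) = xc x ∧ σ (yc x) = yc x := by
        rintro (_ | ⟨a, b, hab⟩) hx
        · exact ⟨_root_.map_zero σ, _root_.map_zero σ⟩
        · have h2 := h _ hx
          rw [algEquiv_smul_def, Point.map_some, Point.some.injEq] at h2
          exact h2
      intro z hz
      have h3 : σ z = z := by
        rcases hz with ⟨x, hx, rfl⟩ | ⟨x, hx, rfl⟩
        exacts [(h0 x hx).1, (h0 x hx).2]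
      have h4 : Subgroup.zpowers σ ≤ MulAction.stabilizer Γℚ z :=
        Subgroup.zpowers_le.mpr (MulAction.mem_stabilizer_iff.mpr h3)
      rintro ⟨τ, hτ⟩
      exact MulAction.mem_stabilizer_iff.mp (h4 hτ)
    exact (IntermediateField.adjoin_le_iff.mpr h1) hz ⟨σ, Subgroup.mem_zpowers σ⟩

/-- a basis of `W[N]` and a point `Q` with `N Q = P` -/
structure KN (W : WeierstrassCurve ℤ) (N : ℕ) (P : PQ W) where
  /-- a basis of `W[N]` -/
  b : Basis (Fin 2) (ZMod N) (Submodule.torsionBy ℤ (PQbar W) (N : ℤ))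
  /-- the point `Q` -/
  Q : PQbar W
  /-- `N Q = P` -/
  hQ : N • Q = incl W P

namespace KN

theorem nonempty (hΔ : W.Δ ≠ 0) (hN : N ≠ 0) (P : PQ W) : Nonempty (KN W N P) := by
  obtain ⟨b⟩ := exists_basis_torsionBy hΔ hN
  have hΔ' : (EQ W).Δ ≠ 0 := by
    rw [EQ_Δ]
    exact_mod_cast hΔ
  obtain ⟨Q, hQ⟩ := Fermat.Agent.Torsion.surjective_nsmul hΔ' hN (incl W P)
  exact ⟨⟨b, Q, hQ⟩⟩

variable (D : KN W N P)

/-- the point `σ Q - Q` of `W[N]` -/
def diff (σ : Γℚ) : Submodule.torsionBy ℤ (PQbar W) (N : ℤ) :=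
  ⟨σ • D.Q - D.Q, (Fermat.Agent.Torsion.mem_torsionBy_nat_iff N _).mpr (by
    rw [nsmul_sub, nsmul_smul, D.hQ, smul_incl, sub_self])⟩

theorem diff_one : D.diff 1 = 0 := Subtype.ext (by
  change (1 : Γℚ) • D.Q - D.Q = 0
  rw [one_smul, sub_self])

theorem diff_mul (σ τ : Γℚ) : D.diff (σ * τ) = D.diff σ + σ • D.diff τ := Subtype.ext (by
  change (σ * τ) • D.Q - D.Q = (σ • D.Q - D.Q) + σ • (τ • D.Q - D.Q)
  rw [mul_smul, show σ • (τ • D.Q - D.Q) = σ • τ • D.Q - σ • D.Q from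
    smul_sub (A := PQbar W) σ _ _]
  abel)

theorem equivFun_smul (σ : Γℚ) (x : Submodule.torsionBy ℤ (PQbar W) (N : ℤ)) :
    D.b.equivFun (σ • x) = (repZ D.b σ : Matrix (Fin 2) (Fin 2) (ZMod N)) *ᵥ D.b.equivFun x := by
  rw [repZ_val]
  exact (LinearMap.toMatrix_mulVec_repr D.b D.b
    (galoisRepModuleEnd (K := AlgebraicClosure ℚ) ℚ (W.map (Int.castRingHom ℚ)) N σ) x).symm

/-- **The Kummer representation modulo `N`.** -/
def kum : Γℚ →* AG N where
  toFun σ := ⟨D.b.equivFun (D.diff σ), repZ D.b σ⟩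
  map_one' := by
    refine AG.ext ?_ (_root_.map_one (repZ D.b))
    change D.b.equivFun (D.diff 1) = 0
    rw [diff_one, _root_.map_zero]
  map_mul' σ τ := by
    refine AG.ext ?_ (_root_.map_mul (repZ D.b) σ τ)
    change D.b.equivFun (D.diff (σ * τ)) = D.b.equivFun (D.diff σ) +
      (repZ D.b σ : Matrix (Fin 2) (Fin 2) (ZMod N)) *ᵥ D.b.equivFun (D.diff τ)
    rw [diff_mul, _root_.map_add, D.equivFun_smul]

theorem kum_t (σ : Γℚ) : (D.kum σ).t = D.b.equivFun (D.diff σ) := rfl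
theorem kum_g (σ : Γℚ) : (D.kum σ).g = repZ D.b σ := rfl

theorem kum_eq_one_iff {σ : Γℚ} :
    D.kum σ = 1 ↔ (∀ x : PQbar W, N • x = 0 → σ • x = x) ∧ σ • D.Q = D.Q := by
  constructor
  · intro h
    have h1 : repZ D.b σ = 1 := congrArg AG.g h
    have h2 : D.b.equivFun (D.diff σ) = 0 := congrArg AG.t h
    rw [LinearEquiv.map_eq_zero_iff] at h2
    refine ⟨fun x hx => ?_, sub_eq_zero.1 (congrArg Subtype.val h2)⟩
    have h3 : σ • (⟨x, (Fermat.Agent.Torsion.mem_torsionBy_nat_iff N x).2 hx⟩ :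
        Submodule.torsionBy ℤ (PQbar W) (N : ℤ)) = ⟨x, _⟩ := D.b.equivFun.injective (by
      rw [equivFun_smul, h1, Units.val_one, Matrix.one_mulVec])
    exact congrArg Subtype.val h3
  · rintro ⟨h1, h2⟩
    refine AG.ext ?_ (Units.ext (Matrix.mulVec_injective (funext fun v => ?_)))
    · have h3 : D.diff σ = 0 := Subtype.ext (by
        change σ • D.Q - D.Q = 0
        rw [h2, sub_self])
      rw [kum_t, h3, _root_.map_zero]
      rfl
    · obtain ⟨x, rfl⟩ := D.b.equivFun.surjective v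
      have h4 : σ • x = x := Subtype.ext (h1 (x : PQbar W)
        ((Fermat.Agent.Torsion.mem_torsionBy_nat_iff N (x : PQbar W)).mp x.2))
      rw [kum_g, ← equivFun_smul, h4, AG.one_g, Units.val_one, Matrix.one_mulVec]

theorem fixingSubgroup_kumField : (kumField W N P).fixingSubgroup = D.kum.ker := by
  ext σ
  rw [fixes_kumField_iff, MonoidHom.mem_ker, kum_eq_one_iff]
  constructor
  · intro h
    refine ⟨fun x hx => ?_, h D.Q D.hQ⟩
    have h1 := h (D.Q + x) (by rw [nsmul_add, D.hQ, hx, add_zero])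
    rw [show σ • (D.Q + x) = σ • D.Q + σ • x from smul_add (A := PQbar W) σ _ _,
      h D.Q D.hQ] at h1
    exact add_left_cancel h1
  · rintro ⟨h1, h2⟩ x hx
    have h3 := h1 (x - D.Q) (by rw [nsmul_sub, hx, D.hQ, sub_self])
    rw [show σ • (x - D.Q) = σ • x - σ • D.Q from smul_sub (A := PQbar W) σ _ _, h2] at h3
    exact sub_left_injective h3

theorem exists_level (hΔ : W.Δ ≠ 0) (hN : N ≠ 0) :
    ∃ L : IntermediateField ℚ Qbar, FiniteDimensional ℚ L ∧
      ∀ σ : Γℚ, (∀ x ∈ L, σ x = x) → D.kum σ = 1 := by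
  obtain ⟨L, hL, h⟩ := exists_level_of_finite (finite_testSet hΔ hN hN P P)
  refine ⟨L, hL, fun σ hσ => D.kum_eq_one_iff.2 ⟨fun x hx => h σ hσ x (Or.inl hx),
    h σ hσ D.Q (Or.inr (Or.inl D.hQ))⟩⟩

theorem continuous_kum (hΔ : W.Δ ≠ 0) (hN : N ≠ 0) [TopologicalSpace (AG N)]
    [DiscreteTopology (AG N)] : Continuous D.kum := by
  obtain ⟨L, hL, h⟩ := D.exists_level hΔ hN
  refine continuous_of_continuousAt_one D.kum ?_
  have h1 : (L.fixingSubgroup : Set Γℚ) ∈ nhds (1 : Γℚ) :=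
    (IntermediateField.fixingSubgroup_isOpen L).mem_nhds (one_mem _)
  have h2 : (fun _ : Γℚ => (1 : AG N)) =ᶠ[nhds 1] D.kum := by
    filter_upwards [h1] with σ hσ
    exact (h σ fun x hx => (IntermediateField.mem_fixingSubgroup_iff L σ).1 hσ x hx).symm
  exact continuousAt_const.congr h2

/-- **The Kummer representation modulo an odd `N` is surjective** if `P` is not divisible by the prime
divisors of `N`. -/
theorem kum_surjective (hΔ : W.Δ ≠ 0) (hN : Odd N)
    (h1 : ∀ p : ℕ, p.Prime → p ∣ N → SurjMod W p) (h : SurjMod W N)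
    (hP : ∀ p : ℕ, p.Prime → p ∣ N → ¬ ∃ R : PQ W, p • R = P) :
    Function.Surjective D.kum := by
  rintro ⟨t, g⟩
  obtain ⟨T, rfl⟩ := D.b.equivFun.surjective t
  have h2 : IsUnit (LinearMap.toMatrix D.b D.b
      (Matrix.toLin D.b D.b (g : Matrix (Fin 2) (Fin 2) (ZMod N)))).det := by
    rw [LinearMap.toMatrix_toLin]
    exact (Matrix.isUnit_iff_isUnit_det _).1 g.isUnit
  obtain ⟨σ, hσ, hσQ⟩ := exists_smul_eq_add_of_odd hΔ hN h1 h hP D.hQ
    (LinearEquiv.ofIsUnitDet h2) ((Fermat.Agent.Torsion.mem_torsionBy_nat_iff N _).mp T.2)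
  refine ⟨σ, AG.ext ?_ (Units.ext ?_)⟩
  · rw [kum_t]
    refine congrArg D.b.equivFun (Subtype.ext ?_)
    change σ • D.Q - D.Q = T
    rw [hσQ, add_sub_cancel_left]
  · have h3 : galoisRepModuleEnd (K := AlgebraicClosure ℚ) ℚ (W.map (Int.castRingHom ℚ)) N σ =
        Matrix.toLin D.b D.b (g : Matrix (Fin 2) (Fin 2) (ZMod N)) := LinearMap.ext hσ
    rw [kum_g, repZ_val, h3, LinearMap.toMatrix_toLin]

end KN

section Main

/-- **The Galois group of `ℚ((1/N) P)` over `ℚ` is the affine group `(ℤ/N)² ⋊ GL₂(ℤ/N)`**, if `N` is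
odd, `Gal(ℚ̄/ℚ)` acts on `W[N]` and on `W[p]`, `p ∣ N`, through all automorphisms, and `P` is not
divisible in `W(ℚ)` by any prime divisor of `N`. -/
theorem nonempty_equiv_kumField (hΔ : W.Δ ≠ 0) (hN : Odd N)
    (h1 : ∀ p : ℕ, p.Prime → p ∣ N → SurjMod W p) (h : SurjMod W N)
    (hP : ∀ p : ℕ, p.Prime → p ∣ N → ¬ ∃ R : PQ W, p • R = P) :
    Nonempty ((kumField W N P ≃ₐ[ℚ] kumField W N P) ≃* AG N) := by
  let _ : TopologicalSpace (AG N) := ⊥
  have : DiscreteTopology (AG N) := ⟨rfl⟩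
  obtain ⟨D⟩ := KN.nonempty hΔ hN.pos.ne' P
  obtain ⟨e, -⟩ := InvGal.exists_equiv_of_surjective (D.continuous_kum hΔ hN.pos.ne')
    (D.kum_surjective hΔ hN h1 h hP) D.fixingSubgroup_kumField
  exact ⟨e⟩

theorem isGalois_kumField : IsGalois ℚ (kumField W N P) := by
  refine (InfiniteGalois.normal_iff_isGalois (kumField W N P)).mp ⟨fun τ hτ σ => ?_⟩
  rw [fixes_kumField_iff] at hτ ⊢
  intro x hx
  have h1 : N • (σ⁻¹ • x) = incl W P := by rw [nsmul_smul, hx, smul_incl]
  rw [mul_smul, mul_smul, hτ _ h1, smul_inv_smul]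

theorem finiteDimensional_kumField (hΔ : W.Δ ≠ 0) (hN : N ≠ 0) :
    FiniteDimensional ℚ (kumField W N P) := by
  have h1 : {x : PQbar W | N • x = incl W P}.Finite :=
    (finite_testSet hΔ hN hN P P).subset fun x hx => Or.inr (Or.inl hx)
  have h2 : (kumCoords W N P).Finite := (h1.image _).union (h1.image _)
  have := h2.to_subtype
  exact IntermediateField.finiteDimensional_adjoin fun x _ =>
    (Algebra.IsIntegral.isIntegral (R := ℚ) x)

/-- **`[ℚ((1/N) P) : ℚ] = N² #GL₂(ℤ/N)`** under the same conditions. -/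
theorem finrank_kumField (hΔ : W.Δ ≠ 0) (hN : Odd N)
    (h1 : ∀ p : ℕ, p.Prime → p ∣ N → SurjMod W p) (h : SurjMod W N)
    (hP : ∀ p : ℕ, p.Prime → p ∣ N → ¬ ∃ R : PQ W, p • R = P) :
    Module.finrank ℚ (kumField W N P) = N ^ 2 * Nat.card (GL (Fin 2) (ZMod N)) := by
  have : NeZero N := ⟨hN.pos.ne'⟩
  have := finiteDimensional_kumField (W := W) (P := P) hΔ hN.pos.ne'
  have : IsGalois ℚ (kumField W N P) := isGalois_kumField
  obtain ⟨e⟩ := nonempty_equiv_kumField hΔ hN h1 h hP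
  rw [← IsGalois.card_aut_eq_finrank, Nat.card_congr e.toEquiv, AG.card_eq_nat]

/-- `ℚ(W[N])` is contained in `ℚ((1/N) P)`. -/
theorem divField_le_kumField (hΔ : W.Δ ≠ 0) (hN : N ≠ 0) : divField W N ≤ kumField W N P := by
  obtain ⟨D⟩ := KN.nonempty hΔ hN P
  have h1 : (kumField W N P).fixingSubgroup ≤ (divField W N).fixingSubgroup := by
    intro σ hσ
    rw [D.fixingSubgroup_kumField, MonoidHom.mem_ker, D.kum_eq_one_iff] at hσ
    rw [mem_fixingSubgroup_divField_iff]
    exact hσ.1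
  have h2 := IntermediateField.fixedField_antitone h1
  rwa [InfiniteGalois.fixedField_fixingSubgroup, InfiniteGalois.fixedField_fixingSubgroup] at h2

open InvGal

/-- **The field `ℚ((1/N) (0, 0))` of the curve `y² + y = x³ - x`, `N` odd**: its Galois group is the
affine group. -/
theorem nonempty_equiv_kumField37 (hN : Odd N) :
    Nonempty ((kumField W37 N P37 ≃ₐ[ℚ] kumField W37 N P37) ≃* AG N) :=
  nonempty_equiv_kumField W37_Δ_ne hN (fun _ _ hpN => surjMod37_of_odd (Odd.of_dvd_nat hN hpN))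
    (surjMod37_of_odd hN) fun _ hp _ => not_exists_nsmul37 hp.two_le

/-- **`[ℚ((1/N) (0, 0)) : ℚ] = N² #GL₂(ℤ/N)` for the curve `y² + y = x³ - x` and every odd `N`.** -/
theorem finrank_kumField37 (hN : Odd N) :
    Module.finrank ℚ (kumField W37 N P37) = N ^ 2 * Nat.card (GL (Fin 2) (ZMod N)) :=
  finrank_kumField W37_Δ_ne hN (fun _ _ hpN => surjMod37_of_odd (Odd.of_dvd_nat hN hpN))
    (surjMod37_of_odd hN) fun _ hp _ => not_exists_nsmul37 hp.two_le

/-- **For every odd `N` the group of the affine transformations `v ↦ t + g v` of `(ℤ/N)²`,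
`g ∈ GL₂(ℤ/N)`, is a Galois group over `ℚ`.** -/
theorem exists_galois_affine (hN : Odd N) :
    ∃ (L : Type) (_ : Field L) (_ : NumberField L) (_ : IsGalois ℚ L),
      Nonempty ((L ≃ₐ[ℚ] L) ≃* AG N) := by
  have h1 := finiteDimensional_kumField (W := W37) (P := P37) W37_Δ_ne hN.pos.ne'
  exact ⟨kumField W37 N P37, inferInstance, ⟨⟩, isGalois_kumField, nonempty_equiv_kumField37 hN⟩

end Main

end Fermat.Agent.Cor.KumE

end
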