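import Fermat.Agent.Corollaries.KumE.AffCountN
import Fermat.Agent.Corollaries.KumE.KumField

/-!
# The density of the primes for which `P mod ℓ` is divisible by `N` (helper62)

`W` an elliptic curve over `ℚ` (equation over `ℤ`), `N` odd, `Gal(ℚ̄/ℚ)` acts on `W[N]` and on `W[p]`,
`p ∣ N`, through all automorphisms, `P ∈ W(ℚ)` is not divisible in `W(ℚ)` by any prime divisor of `N`.

* `natDensity_div_ratio` : the density of the primes `ℓ` for which `P mod ℓ` is divisible by `N` in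
  `W(𝔽_ℓ)` is the proportion of the affine transformations of `(ℤ/N)²` with a fixed point;
* `natDensity_div_of_squarefree` : it is `∏_{p ∣ N} (1 - (p² - 1) / p³)` if `N` is squarefree;
* `natDensity37_of_squarefree` : `y² + y = x³ - x`, `P = (0, 0)`, every odd squarefree `N`.
-/

set_option autoImplicit false

noncomputable section

open WeierstrassCurve WeierstrassCurve.Affine WeierstrassCurve.Affine.Point Module Matrix
open scoped WeierstrassCurve.Affine
open Fermat.Agent.Tate Fermat.Agent.ECRed Fermat.Agent.FrobDensity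
open Fermat.Agent.Frob

namespace Fermat.Agent.Cor.KumE

local notation "Qbar" => AlgebraicClosure ℚ
local notation "Γℚ" => (AlgebraicClosure ℚ ≃ₐ[ℚ] AlgebraicClosure ℚ)

variable {W : WeierstrassCurve ℤ} {N : ℕ}

theorem AG.act_mul_nat (a b : AG N) (v : Fin 2 → ZMod N) :
    (a * b).t + ((a * b).g : Matrix (Fin 2) (Fin 2) (ZMod N)) *ᵥ v =
      a.t + (a.g : Matrix (Fin 2) (Fin 2) (ZMod N)) *ᵥ
        (b.t + (b.g : Matrix (Fin 2) (Fin 2) (ZMod N)) *ᵥ v) := by
  rw [AG.mul_t, AG.mul_g, Units.val_mul, Matrix.mulVec_add, Matrix.mulVec_mulVec, add_assoc]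

theorem AG.fixedSet_conj_nat (x a : AG N) (ha : a ∈ AG.fixedSet N) :
    x * a * x⁻¹ ∈ AG.fixedSet N := by
  obtain ⟨v, hv⟩ := ha
  refine ⟨x.t + (x.g : Matrix (Fin 2) (Fin 2) (ZMod N)) *ᵥ v, ?_⟩
  rw [AG.act_mul_nat, AG.act_mul_nat, ← AG.act_mul_nat x⁻¹ x v, inv_mul_cancel, AG.one_t,
    AG.one_g, Units.val_one, Matrix.one_mulVec, zero_add, hv]

section Place

variable {ℓ : ℕ} [hℓ : Fact ℓ.Prime]

/-- **Divisibility by `N` in `W(𝔽_ℓ)` and Frobenius**, `ℓ ∤ N`. -/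
theorem exists_redMod_nsmul_iff_nat (hΔ : W.Δ ≠ 0) (hgood : W.IsGoodPrimeFor ℓ) (hN : N ≠ 0)
    (hℓN : ¬ ℓ ∣ N) {A : ValuationSubring (AlgebraicClosure ℚ)}
    (hA : A.LiesOverPrime ℓ) {F : Γℚ} (hF : A.IsFrobeniusAt F ℓ) (P : PQ W) :
    (∃ b : (W.reductionMod ℓ).toAffine.Point, RedMod ℓ P (N • b)) ↔
      ∃ x : PQbar W, N • x = incl W P ∧ F • x = x := by
  classical
  have hchar := charP_residueField_of_liesOver hℓ.out hA
  let _ : Algebra (ZMod ℓ) (IsLocalRing.ResidueField A) := ZMod.algebra _ ℓ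
  have hne : ((N : ℕ) : IsLocalRing.ResidueField A) ≠ 0 := by
    rwa [Ne, CharP.cast_eq_zero_iff (IsLocalRing.ResidueField A) ℓ]
  have hbij := redGood_bijOn (redCurve_reductionMod W (A := A) (ℓ := ℓ))
    (isPlace_valuationSubring A) (reductionMod_Δ_ne_zero' hgood) hne
  constructor
  · rintro ⟨b, hb⟩
    have hΔ' : (EQ W).Δ ≠ 0 := by
      rw [EQ_Δ]
      exact_mod_cast hΔ
    obtain ⟨P', hP'⟩ := Fermat.Agent.Torsion.surjective_nsmul hΔ' hN (incl W P)
    replace hP' : N • P' = incl W P := hP'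
    let r := redGood (redCurve_reductionMod W (A := A) (ℓ := ℓ)) (isPlace_valuationSubring A)
      (reductionMod_Δ_ne_zero' hgood)
    have hr : ∀ x : PQbar W, r (F • x) = Fermat.Agent.ECFrob.frob (W.reductionMod ℓ)
      (IsLocalRing.ResidueField A) (r x) := redGood_smul_frobenius hgood hF
    have hrP : r (incl W P) = inclMod W ℓ A (N • b) := redGood_of_redMod hA hgood hb
    have h1 : N • (r P' - inclMod W ℓ A b) = 0 := by
      rw [nsmul_sub, ← map_nsmul, ← map_nsmul, hP', hrP, sub_self]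
    obtain ⟨T, hT, hTr⟩ := hbij.surjOn h1
    replace hTr : r T = r P' - inclMod W ℓ A b := hTr
    have hT' : N • T = 0 := hT
    have h2 : r (P' - T) = inclMod W ℓ A b := by rw [map_sub, hTr, sub_sub_cancel]
    have h3 : N • (P' - T) = incl W P := by rw [nsmul_sub, hT', hP', sub_zero]
    refine ⟨P' - T, h3, ?_⟩
    have h4 : r (F • (P' - T)) = r (P' - T) := by rw [hr, h2, frob_inclMod]
    have h5 : r (F • (P' - T) - (P' - T)) = 0 := by rw [map_sub, h4, sub_self]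
    have h6 : N • (F • (P' - T) - (P' - T)) = 0 := by
      rw [nsmul_sub, nsmul_smul, h3, smul_incl, sub_self]
    exact sub_eq_zero.1 (hbij.injOn h6 (show N • (0 : PQbar W) = 0 from nsmul_zero _)
      (h5.trans (_root_.map_zero _).symm))
  · rintro ⟨x, hx, hFx⟩
    have h1 : Fermat.Agent.ECFrob.frob (W.reductionMod ℓ) (IsLocalRing.ResidueField A)
        (redGood (redCurve_reductionMod W (A := A) (ℓ := ℓ)) (isPlace_valuationSubring A)
          (reductionMod_Δ_ne_zero' hgood) x) = redGood (redCurve_reductionMod W (A := A) (ℓ := ℓ))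
          (isPlace_valuationSubring A) (reductionMod_Δ_ne_zero' hgood) x := by
      rw [← redGood_smul_frobenius hgood hF, hFx]
    obtain ⟨b, hb⟩ := exists_inclMod_of_frob h1
    obtain ⟨c, hc⟩ := exists_redMod hgood P
    refine ⟨b, ?_⟩
    have h2 : c = N • b := by
      refine inclMod_injective (A := A) ((redGood_of_redMod hA hgood hc).symm.trans ?_)
      rw [map_nsmul, hb, ← hx, map_nsmul]
    rwa [← h2]

end Place

namespace KN

variable {P : PQ W} (D : KN W N P)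

/-- fixed points -/
theorem kum_mem_fixedSet {σ : Γℚ} :
    D.kum σ ∈ AG.fixedSet N ↔ ∃ x : PQbar W, N • x = incl W P ∧ σ • x = x := by
  constructor
  · rintro ⟨v, hv⟩
    obtain ⟨T, rfl⟩ := D.b.equivFun.surjective v
    rw [kum_t, kum_g, ← D.equivFun_smul, ← _root_.map_add] at hv
    have h1 : σ • D.Q - D.Q + σ • (T : PQbar W) = T :=
      congrArg Subtype.val (D.b.equivFun.injective hv)
    have hT : N • (T : PQbar W) = 0 := (Fermat.Agent.Torsion.mem_torsionBy_nat_iff N _).mp T.2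
    refine ⟨D.Q + T, by rw [nsmul_add, D.hQ, hT, add_zero], ?_⟩
    rw [show σ • (D.Q + (T : PQbar W)) = σ • D.Q + σ • (T : PQbar W) from
      smul_add (A := PQbar W) σ _ _]
    calc σ • D.Q + σ • (T : PQbar W) = D.Q + (σ • D.Q - D.Q + σ • (T : PQbar W)) := by abel
      _ = D.Q + T := by rw [h1]
  · rintro ⟨x, hx, hσx⟩
    let T : Submodule.torsionBy ℤ (PQbar W) (N : ℤ) :=
      ⟨x - D.Q, (Fermat.Agent.Torsion.mem_torsionBy_nat_iff N _).mpr (by
        rw [nsmul_sub, hx, D.hQ, sub_self])⟩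
    refine ⟨D.b.equivFun T, ?_⟩
    rw [kum_t, kum_g, ← D.equivFun_smul, ← _root_.map_add]
    refine congrArg D.b.equivFun (Subtype.ext ?_)
    change σ • D.Q - D.Q + σ • (x - D.Q) = x - D.Q
    rw [show σ • (x - D.Q) = σ • x - σ • D.Q from smul_sub (A := PQbar W) σ _ _, hσx]
    abel

/-- the Kummer representation is unramified at the good primes `ℓ ∤ N` -/
theorem kum_inertia {ℓ : ℕ} (hℓ : ℓ.Prime) (hgood : W.IsGoodPrimeFor ℓ) (hℓN : ¬ ℓ ∣ N)
    {A : ValuationSubring (AlgebraicClosure ℚ)} (hA : A.LiesOverPrime ℓ) {σ : Γℚ}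
    (hσ : σ ∈ A.inertiaSubgroupIn ℚ) : D.kum σ = 1 := by
  classical
  have : Fact ℓ.Prime := ⟨hℓ⟩
  have hchar := charP_residueField_of_liesOver hℓ hA
  let _ : Algebra (ZMod ℓ) (IsLocalRing.ResidueField A) := ZMod.algebra _ ℓ
  have hne : ((N : ℕ) : IsLocalRing.ResidueField A) ≠ 0 := by
    rwa [Ne, CharP.cast_eq_zero_iff (IsLocalRing.ResidueField A) ℓ]
  have hbij := redGood_bijOn (redCurve_reductionMod W (A := A) (ℓ := ℓ))
    (isPlace_valuationSubring A) (reductionMod_Δ_ne_zero' hgood) hne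
  have key : ∀ y : PQbar W, N • (σ • y - y) = 0 → σ • y = y := by
    intro y h3
    have h1 := redGood_smul_inertia (W := W) hgood hσ y
    have h2 : redGood (redCurve_reductionMod W (A := A) (ℓ := ℓ)) (isPlace_valuationSubring A)
        (reductionMod_Δ_ne_zero' hgood) (σ • y - y) = 0 := by
      rw [_root_.map_sub, h1, sub_self]
    exact sub_eq_zero.1 (hbij.injOn h3 (show N • (0 : PQbar W) = 0 from nsmul_zero _)
      (h2.trans (_root_.map_zero _).symm))
  refine D.kum_eq_one_iff.2 ⟨fun x hx => key x ?_, key D.Q ?_⟩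
  · rw [nsmul_sub, nsmul_smul, hx, show σ • (0 : PQbar W) = 0 from smul_zero (A := PQbar W) σ,
      sub_zero]
  · rw [nsmul_sub, nsmul_smul, D.hQ, smul_incl, sub_self]

/-- divisibility by `N` modulo `ℓ`, by Chebotarev's set -/
theorem mem_FrobIn_kum (hΔ : W.Δ ≠ 0) (hN : N ≠ 0) {ℓ : ℕ} [hℓ : Fact ℓ.Prime]
    (hgood : W.IsGoodPrimeFor ℓ) (hℓN : ¬ ℓ ∣ N) :
    ℓ ∈ FrobIn D.kum (AG.fixedSet N) ↔
      ∃ b : (W.reductionMod ℓ).toAffine.Point, RedMod ℓ P (N • b) := by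
  obtain ⟨A, hA, F, hF⟩ := exists_frobenius ℓ hℓ.out
  rw [LT.Period.mem_FrobIn_iff D.kum AG.fixedSet_conj_nat hℓ.out hA
    (fun τ hτ => D.kum_inertia hℓ.out hgood hℓN hA hτ) hF, kum_mem_fixedSet,
    exists_redMod_nsmul_iff_nat hΔ hgood hN hℓN hA hF P]

end KN

/-- **The density of the primes `ℓ` for which `P mod ℓ` is divisible by `N` in `W(𝔽_ℓ)`** is the
proportion of the affine transformations of `(ℤ/N)²` with a fixed point. -/
theorem natDensity_div_ratio (hΔ : W.Δ ≠ 0) (hN : Odd N)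
    (h1 : ∀ p : ℕ, p.Prime → p ∣ N → SurjMod W p) (h : SurjMod W N) {P : PQ W}
    (hP : ∀ p : ℕ, p.Prime → p ∣ N → ¬ ∃ R : PQ W, p • R = P) :
    HasNaturalDensity {ℓ | ∃ _ : Fact ℓ.Prime, W.IsGoodPrimeFor ℓ ∧
      ∃ b : (W.reductionMod ℓ).toAffine.Point, RedMod ℓ P (N • b)} (AG.ratio N) := by
  have : NeZero N := ⟨hN.pos.ne'⟩
  have : Finite (AG N) := Finite.of_equiv _ AG.equivProd.symm
  obtain ⟨D⟩ := KN.nonempty hΔ hN.pos.ne' P
  have h2 := chebotarev_nat D.kum (D.kum_surjective hΔ hN h1 h hP) (D.exists_level hΔ hN.pos.ne')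
    (AG.fixedSet N) AG.fixedSet_conj_nat
  refine h2.congr_of_finset (N.primeFactors ∪ W.Δ.natAbs.primeFactors) ?_
  intro ℓ hℓ hℓT
  rw [Finset.mem_union, not_or] at hℓT
  have hℓN : ¬ ℓ ∣ N := fun h => hℓT.1 (Nat.mem_primeFactors.mpr ⟨hℓ, h, hN.pos.ne'⟩)
  have hgood : W.IsGoodPrimeFor ℓ := fun h => hℓT.2 (Nat.mem_primeFactors.mpr
    ⟨hℓ, Int.natCast_dvd.mp h, Int.natAbs_ne_zero.mpr hΔ⟩)
  have hℓ' : Fact ℓ.Prime := ⟨hℓ⟩
  rw [D.mem_FrobIn_kum hΔ hN.pos.ne' hgood hℓN]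
  exact ⟨fun h => ⟨hℓ', hgood, h⟩, fun ⟨_, _, h⟩ => h⟩

/-- **`N` squarefree and odd: the density is `∏_{p ∣ N} (1 - (p² - 1) / p³)`.** -/
theorem natDensity_div_of_squarefree (hΔ : W.Δ ≠ 0) (hN : Odd N) (hsq : Squarefree N)
    (h1 : ∀ p : ℕ, p.Prime → p ∣ N → SurjMod W p) (h : SurjMod W N) {P : PQ W}
    (hP : ∀ p : ℕ, p.Prime → p ∣ N → ¬ ∃ R : PQ W, p • R = P) :
    HasNaturalDensity {ℓ | ∃ _ : Fact ℓ.Prime, W.IsGoodPrimeFor ℓ ∧
      ∃ b : (W.reductionMod ℓ).toAffine.Point, RedMod ℓ P (N • b)}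
      (∏ p ∈ N.primeFactors, (1 - ((p : ℝ) ^ 2 - 1) / p ^ 3)) := by
  rw [← AG.ratio_eq_prod hN hsq]
  exact natDensity_div_ratio hΔ hN h1 h hP

/-- The same for semistable elliptic curves over `ℚ`, `W[p]` irreducible for the prime divisors `p` of
`N`. -/
theorem natDensity_div_of_semistable_of_squarefree (hΔ : W.Δ ≠ 0) (hW : W.IsSemistableModel)
    (hN : Odd N) (hsq : Squarefree N) (hirr : ∀ p : ℕ, p.Prime → p ∣ N → W.ModRepIsIrreducible p)
    {P : PQ W} (hP : ∀ p : ℕ, p.Prime → p ∣ N → ¬ ∃ R : PQ W, p • R = P) :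
    HasNaturalDensity {ℓ | ∃ _ : Fact ℓ.Prime, W.IsGoodPrimeFor ℓ ∧
      ∃ b : (W.reductionMod ℓ).toAffine.Point, RedMod ℓ P (N • b)}
      (∏ p ∈ N.primeFactors, (1 - ((p : ℝ) ^ 2 - 1) / p ^ 3)) :=
  natDensity_div_of_squarefree hΔ hN hsq
    (fun _ _ hpN => surjMod_of_odd hΔ hW (Odd.of_dvd_nat hN hpN) fun q hq hqp =>
      hirr q hq (hqp.trans hpN)) (surjMod_of_odd hΔ hW hN hirr) hP

open InvGal

/-- **The curve `y² + y = x³ - x` and `P = (0, 0)`**: for every odd squarefree `N` the primes `ℓ` for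
which `P mod ℓ` is divisible by `N` in the group of the points over `𝔽_ℓ` have the density
`∏_{p ∣ N} (1 - (p² - 1) / p³)`. -/
theorem natDensity37_of_squarefree (hN : Odd N) (hsq : Squarefree N) :
    HasNaturalDensity {ℓ | ∃ _ : Fact ℓ.Prime, W37.IsGoodPrimeFor ℓ ∧
      ∃ b : (W37.reductionMod ℓ).toAffine.Point, RedMod ℓ P37 (N • b)}
      (∏ p ∈ N.primeFactors, (1 - ((p : ℝ) ^ 2 - 1) / p ^ 3)) :=
  natDensity_div_of_squarefree W37_Δ_ne hN hsq
    (fun _ _ hpN => surjMod37_of_odd (Odd.of_dvd_nat hN hpN)) (surjMod37_of_odd hN)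
    fun _ hp _ => not_exists_nsmul37 hp.two_le

/-- For every odd `N`, squarefree or not, the density is the proportion of the affine transformations
of `(ℤ/N)²` with a fixed point. -/
theorem natDensity37_ratio (hN : Odd N) :
    HasNaturalDensity {ℓ | ∃ _ : Fact ℓ.Prime, W37.IsGoodPrimeFor ℓ ∧
      ∃ b : (W37.reductionMod ℓ).toAffine.Point, RedMod ℓ P37 (N • b)} (AG.ratio N) :=
  natDensity_div_ratio W37_Δ_ne hN
    (fun _ _ hpN => surjMod37_of_odd (Odd.of_dvd_nat hN hpN)) (surjMod37_of_odd hN)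
    fun _ hp _ => not_exists_nsmul37 hp.two_le

end Fermat.Agent.Cor.KumE

end
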