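import Fermat.Agent.Corollaries.KumE.Coh

/-!
# Kummer theory and reduction, abstract form (helper62)

`r : A → B` a homomorphism (reduction), `F` an endomorphism of `B` (Frobenius), `σ ∈ Γ` with
`r (σ x) = F (r x)`, `r` bijective on the elements of `p`-power order.

* `exists_coprime_nsmul`: if `σ` acts as `1 + p` on `A[p²]` and fixes `P'`, then the order of
  `r (p P')` is prime to `p`.
* `smul_eq_of_coprime`: if `σ` acts trivially on `A[p]`, `p Q'` is fixed by `σ` and the order of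
  `r (p Q')` is prime to `p`, then `Q'` is fixed by `σ`.
* `smul_eq_of_divisible`: the same if `r (p Q') = p b` with `F b = b`.
-/

set_option autoImplicit false

namespace Fermat.Agent.Cor.KumE

variable {Γ A B : Type*} [Group Γ] [AddCommGroup A] [DistribMulAction Γ A] [AddCommGroup B]

theorem exists_coprime_nsmul {p : ℕ} (hp : p.Prime) (r : A →+ B) (F : B →+ B) {σ : Γ}
    (hr : ∀ x : A, r (σ • x) = F (r x)) (hfin : {b : B | F b = b}.Finite)
    (hsurj : ∀ (c : ℕ) (b : B), p ^ c • b = 0 → ∃ T : A, p ^ c • T = 0 ∧ r T = b)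
    (hinj : ∀ (c : ℕ) (x : A), p ^ c • x = 0 → r x = 0 → x = 0)
    (hσ : ∀ x : A, p ^ 2 • x = 0 → σ • x = (1 + p) • x) {P' : A} (hP' : σ • P' = P') :
    ∃ M : ℕ, M ≠ 0 ∧ M.Coprime p ∧ r (M • (p • P')) = 0 := by
  -- the order of `r P'` is finite
  have h1 : ∀ n : ℕ, F (n • r P') = n • r P' := by
    intro n
    rw [map_nsmul, ← hr, hP']
  have h2 : addOrderOf (r P') ≠ 0 := by
    intro h0
    have hinj' : Function.Injective fun n : ℕ => n • r P' := by
      intro m n hmn
      exact (nsmul_inj_iff_of_addOrderOf_eq_zero h0).1 hmn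
    have : (Set.range fun n : ℕ => n • r P').Finite :=
      hfin.subset (by rintro _ ⟨n, rfl⟩; exact h1 n)
    exact Set.infinite_range_of_injective hinj' this
  obtain ⟨c, M, hM, hcM⟩ := Nat.exists_eq_pow_mul_and_not_dvd h2 p hp.ne_one
  have hMp : M.Coprime p := ((Nat.Prime.coprime_iff_not_dvd hp).2 hM).symm
  have hM0 : M ≠ 0 := by
    rintro rfl
    exact hM (dvd_zero p)
  refine ⟨M, hM0, hMp, ?_⟩
  -- the `p`-part comes from a torsion point
  have h3 : p ^ c • r (M • P') = 0 := by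
    rw [map_nsmul, ← mul_smul, ← hcM, addOrderOf_nsmul_eq_zero]
  obtain ⟨T, hT, hTr⟩ := hsurj c _ h3
  have h4 : σ • T = T := by
    have h5 : r (σ • T - T) = 0 := by
      rw [map_sub, hr, hTr, map_nsmul, map_nsmul, ← hr, hP', sub_self]
    have h6 : p ^ c • (σ • T - T) = 0 := by
      rw [nsmul_sub, ← smul_nsmul', hT, smul_zero, sub_zero]
    exact sub_eq_zero.1 (hinj c _ h6 h5)
  have h5 : ∀ j : ℕ, ∀ T : A, σ • T = T → p ^ j • T = 0 → p • T = 0 := by
    intro j
    induction j with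
    | zero =>
      intro T _ hT
      rw [pow_zero, one_smul] at hT
      rw [hT, smul_zero]
    | succ j ih =>
      intro T hσT hT
      rcases Nat.eq_zero_or_pos j with rfl | hj
      · rwa [zero_add, pow_one] at hT
      · obtain ⟨i, rfl⟩ : ∃ i, j = i + 1 := ⟨j - 1, by omega⟩
        refine ih T hσT ?_
        have h6 : p ^ 2 • (p ^ i • T) = 0 := by
          rw [← mul_smul, ← pow_add, show 2 + i = i + 1 + 1 by omega, hT]
        have h7 := hσ _ h6
        rw [smul_nsmul', hσT, add_smul, one_smul, left_eq_add, ← mul_smul, ← pow_succ'] at h7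
        exact h7
  have h6 : p • T = 0 := h5 c T h4 hT
  rw [smul_comm, map_nsmul, ← hTr, ← map_nsmul, h6, map_zero]

/-- a point which is divisible by `p` modulo the kernel of reduction -/
theorem smul_eq_of_divisible {p : ℕ} (r : A →+ B) (F : B →+ B) {σ : Γ}
    (hr : ∀ x : A, r (σ • x) = F (r x))
    (hsurj : ∀ b : B, p • b = 0 → ∃ T : A, p • T = 0 ∧ r T = b)
    (hinj : ∀ x : A, p • x = 0 → r x = 0 → x = 0)
    (hσ : ∀ x : A, p • x = 0 → σ • x = x) {Q' : A} (hQ : σ • (p • Q') = p • Q') {b : B}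
    (hb : F b = b) (h : r (p • Q') = p • b) : σ • Q' = Q' := by
  have h1 : p • (r Q' - b) = 0 := by rw [nsmul_sub, ← map_nsmul, h, sub_self]
  obtain ⟨T, hT, hTr⟩ := hsurj _ h1
  have h2 : r (Q' - T) = b := by rw [map_sub, hTr, sub_sub_cancel]
  have h3 : r (σ • Q' - Q') = 0 := by
    have h4 : σ • Q' - Q' = σ • (Q' - T) - (Q' - T) := by
      rw [smul_sub, hσ T hT, sub_sub_sub_cancel_right]
    rw [h4, map_sub, hr, h2, hb, sub_self]
  have h4 : p • (σ • Q' - Q') = 0 := by rw [nsmul_sub, ← smul_nsmul', hQ, sub_self]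
  exact sub_eq_zero.1 (hinj _ h4 h3)

theorem smul_eq_of_coprime {p : ℕ} (r : A →+ B) (F : B →+ B) {σ : Γ}
    (hr : ∀ x : A, r (σ • x) = F (r x))
    (hsurj : ∀ b : B, p • b = 0 → ∃ T : A, p • T = 0 ∧ r T = b)
    (hinj : ∀ x : A, p • x = 0 → r x = 0 → x = 0)
    (hσ : ∀ x : A, p • x = 0 → σ • x = x) {Q' : A} (hQ : σ • (p • Q') = p • Q') {M : ℕ}
    (hM : M.Coprime p) (h : r (M • (p • Q')) = 0) : σ • Q' = Q' := by
  have h1 : IsCoprime (M : ℤ) (p : ℤ) := Nat.isCoprime_iff_coprime.2 hM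
  obtain ⟨a, b, hab⟩ := h1
  refine smul_eq_of_divisible r F hr hsurj hinj hσ hQ (b := b • r (p • Q')) ?_ ?_
  · rw [map_zsmul, ← hr, hQ]
  · rw [map_nsmul] at h
    have h2 : (1 : ℤ) • r (p • Q') = p • b • r (p • Q') := by
      rw [← hab, add_smul, mul_smul, natCast_zsmul, h, smul_zero, zero_add, mul_comm, mul_smul,
        natCast_zsmul]
    rwa [one_smul] at h2

end Fermat.Agent.Cor.KumE
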