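import Fermat.Agent.Corollaries.KumE.DensityN

/-!
# Divisibility of `P mod ℓ` by different primes (helper62)

`W` a semistable elliptic curve over `ℚ` (equation over `ℤ`), `P ∈ W(ℚ)`.

* `natDensity_independent` : let `D`, `D'` be disjoint finite sets of odd primes `p` for which `W[p]` is
  irreducible and `P` is not divisible by `p` in `W(ℚ)`.  The primes `ℓ` such that `P mod ℓ` is divisible
  in `W(𝔽_ℓ)` by all `p ∈ D` and by no `p ∈ D'` have the density
  `∏_{p ∈ D} (1 - (p² - 1)/p³) ∏_{p ∈ D'} (p² - 1)/p³`;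
* `natDensity37_independent` : `y² + y = x³ - x`, `P = (0, 0)`, any disjoint finite sets of odd primes;
* `infinite37_independent` : there are infinitely many such `ℓ`.
-/

set_option autoImplicit false

noncomputable section

open WeierstrassCurve WeierstrassCurve.Affine WeierstrassCurve.Affine.Point
open scoped WeierstrassCurve.Affine

namespace Fermat.Agent.Cor.KumE

/-- the divisibility by a product of distinct primes -/
theorem exists_eq_prod_nsmul_iff {G : Type*} [AddCommGroup G] {D : Finset ℕ}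
    (hD : ∀ p ∈ D, p.Prime) (c : G) :
    (∃ b : G, c = (∏ p ∈ D, p) • b) ↔ ∀ p ∈ D, ∃ b : G, c = p • b := by
  induction D using Finset.induction_on with
  | empty =>
    refine ⟨fun _ p hp => absurd hp (Finset.notMem_empty p), fun _ => ⟨c, ?_⟩⟩
    rw [Finset.prod_empty, one_nsmul]
  | insert q D hq ih =>
    have hD' : ∀ p ∈ D, p.Prime := fun p hp => hD p (Finset.mem_insert_of_mem hp)
    have hcop : q.Coprime (∏ p ∈ D, p) := Nat.Coprime.prod_right fun p hp =>
      (Nat.coprime_primes (hD q (Finset.mem_insert_self q D)) (hD' p hp)).2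
        (fun h => hq (h ▸ hp))
    rw [Finset.prod_insert hq]
    constructor
    · rintro ⟨b, hb⟩ p hp
      rcases Finset.mem_insert.1 hp with rfl | hp
      · exact ⟨(∏ p ∈ D, p) • b, by rw [← mul_smul]; exact hb⟩
      · exact (ih hD').1 ⟨q • b, by rw [← mul_smul, mul_comm]; exact hb⟩ p hp
    · intro h
      obtain ⟨x, hx⟩ := h q (Finset.mem_insert_self q D)
      obtain ⟨y, hy⟩ := (ih hD').2 fun p hp => h p (Finset.mem_insert_of_mem hp)
      obtain ⟨m, hm⟩ : ∃ m, m = ∏ p ∈ D, p := ⟨_, rfl⟩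
      rw [← hm] at hcop hy ⊢
      obtain ⟨u, v, huv⟩ := Nat.isCoprime_iff_coprime.2 hcop
      refine ⟨u • y + v • x, ?_⟩
      calc c = (u * q + v * m : ℤ) • c := by rw [huv, one_smul]
        _ = (u * q : ℤ) • c + (v * m : ℤ) • c := add_smul _ _ _
        _ = (u * q : ℤ) • (m • y) + (v * m : ℤ) • (q • x) := by rw [← hy, ← hx]
        _ = (q * m) • (u • y + v • x) := by
          rw [← natCast_zsmul y m, ← natCast_zsmul x q, ← natCast_zsmul _ (q * m), smul_add,
            ← mul_smul, ← mul_smul, ← mul_smul, ← mul_smul]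
          push_cast
          congr 2 <;> ring

theorem squarefree_prod {D : Finset ℕ} (hD : ∀ p ∈ D, p.Prime) : Squarefree (∏ p ∈ D, p) := by
  induction D using Finset.induction_on with
  | empty => exact squarefree_one
  | insert q D hq ih =>
    have hD' : ∀ p ∈ D, p.Prime := fun p hp => hD p (Finset.mem_insert_of_mem hp)
    have hcop : q.Coprime (∏ p ∈ D, p) := Nat.Coprime.prod_right fun p hp =>
      (Nat.coprime_primes (hD q (Finset.mem_insert_self q D)) (hD' p hp)).2
        (fun h => hq (h ▸ hp))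
    rw [Finset.prod_insert hq, Nat.squarefree_mul hcop]
    exact ⟨(hD q (Finset.mem_insert_self q D)).prime.squarefree, ih hD'⟩

theorem odd_prod {D : Finset ℕ} (hD : ∀ p ∈ D, p.Prime) (hD2 : ∀ p ∈ D, p ≠ 2) :
    Odd (∏ p ∈ D, p) :=
  Finset.prod_induction (fun p : ℕ => p) Odd (fun _ _ => Odd.mul) odd_one
    fun p hp => (hD p hp).odd_of_ne_two (hD2 p hp)

variable {W : WeierstrassCurve ℤ}

/-- the good primes `ℓ` for which `P mod ℓ` is divisible by all `p ∈ D` and by no `p ∈ D'` -/
def divSet (P : PQ W) (D D' : Finset ℕ) : Set ℕ :=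
  {ℓ | ∃ _ : Fact ℓ.Prime, W.IsGoodPrimeFor ℓ ∧
    (∀ p ∈ D, ∃ b : (W.reductionMod ℓ).toAffine.Point, RedMod ℓ P (p • b)) ∧
    ∀ p ∈ D', ¬ ∃ b : (W.reductionMod ℓ).toAffine.Point, RedMod ℓ P (p • b)}

theorem exists_redMod_prod_iff {ℓ : ℕ} [hℓ : Fact ℓ.Prime] (hgood : W.IsGoodPrimeFor ℓ)
    (P : PQ W) {D : Finset ℕ} (hD : ∀ p ∈ D, p.Prime) :
    (∃ b : (W.reductionMod ℓ).toAffine.Point, RedMod ℓ P ((∏ p ∈ D, p) • b)) ↔
      ∀ p ∈ D, ∃ b : (W.reductionMod ℓ).toAffine.Point, RedMod ℓ P (p • b) := by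
  obtain ⟨c, hc, huniq⟩ := existsUnique_redMod hgood P
  have key : ∀ n : ℕ, (∃ b : (W.reductionMod ℓ).toAffine.Point, RedMod ℓ P (n • b)) ↔
      ∃ b : (W.reductionMod ℓ).toAffine.Point, c = n • b := by
    intro n
    constructor
    · rintro ⟨b, hb⟩
      exact ⟨b, (huniq _ hb).symm⟩
    · rintro ⟨b, hb⟩
      exact ⟨b, hb ▸ hc⟩
  rw [key, exists_eq_prod_nsmul_iff hD]
  exact forall₂_congr fun p _ => (key p).symm

theorem natDensity_diff {S S' : Set ℕ} {δ δ' : ℝ} (h : HasNaturalDensity S δ)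
    (h' : HasNaturalDensity S' δ') (hSS : S' ⊆ S) : HasNaturalDensity (S \ S') (δ - δ') := by
  have h1 := (h.compl.union h' (Set.disjoint_left.2 fun x hx hx' => hx (hSS hx'))).compl
  have h2 : (Sᶜ ∪ S')ᶜ = S \ S' := by
    ext x
    simp
  rw [h2] at h1
  convert h1 using 1
  ring

/-- **The divisibilities of `P mod ℓ` by different primes are independent.** -/
theorem natDensity_independent (hΔ : W.Δ ≠ 0) (hW : W.IsSemistableModel) {P : PQ W}
    {D D' : Finset ℕ} (hdisj : Disjoint D D')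
    (hprime : ∀ p ∈ D ∪ D', p.Prime) (h2 : ∀ p ∈ D ∪ D', p ≠ 2)
    (hirr : ∀ p ∈ D ∪ D', W.ModRepIsIrreducible p)
    (hP : ∀ p ∈ D ∪ D', ¬ ∃ R : PQ W, p • R = P) :
    HasNaturalDensity (divSet P D D')
      ((∏ p ∈ D, (1 - ((p : ℝ) ^ 2 - 1) / p ^ 3)) * ∏ p ∈ D', (((p : ℝ) ^ 2 - 1) / p ^ 3)) := by
  induction D' using Finset.induction_on generalizing D with
  | empty =>
    have hD : ∀ p ∈ D, p.Prime := fun p hp => hprime p (Finset.mem_union_left _ hp)
    have h := natDensity_div_of_semistable_of_squarefree hΔ hW (N := ∏ p ∈ D, p) (P := P)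
      (odd_prod hD fun p hp => h2 p (Finset.mem_union_left _ hp)) (squarefree_prod hD)
      (fun p hp hpD => by
        have h3 : p ∈ (∏ p ∈ D, p).primeFactors := Nat.mem_primeFactors.2
          ⟨hp, hpD, (squarefree_prod hD).ne_zero⟩
        rw [Nat.primeFactors_prod hD] at h3
        exact hirr p (Finset.mem_union_left _ h3))
      (fun p hp hpD => by
        have h3 : p ∈ (∏ p ∈ D, p).primeFactors := Nat.mem_primeFactors.2
          ⟨hp, hpD, (squarefree_prod hD).ne_zero⟩
        rw [Nat.primeFactors_prod hD] at h3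
        exact hP p (Finset.mem_union_left _ h3))
    rw [Nat.primeFactors_prod hD] at h
    rw [Finset.prod_empty, mul_one]
    convert h using 1
    ext ℓ
    refine exists_congr fun hℓ => and_congr_right fun hgood => ?_
    rw [exists_redMod_prod_iff hgood P hD]
    exact and_iff_left fun p hp => absurd hp (Finset.notMem_empty p)
  | insert q D' hq ih =>
    have hqD : q ∉ D := fun h => (Finset.disjoint_left.1 hdisj h) (Finset.mem_insert_self q D')
    have hsub : D ∪ D' ⊆ D ∪ insert q D' :=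
      Finset.union_subset_union_right (Finset.subset_insert q D')
    have hsub' : insert q D ∪ D' ⊆ D ∪ insert q D' := by
      intro x hx
      simp only [Finset.mem_union, Finset.mem_insert] at hx ⊢
      tauto
    have hd1 : Disjoint D D' := hdisj.mono_right (Finset.subset_insert q D')
    have hd2 : Disjoint (insert q D) D' := Finset.disjoint_insert_left.2 ⟨hq, hd1⟩
    have e1 := ih hd1 (fun p hp => hprime p (hsub hp)) (fun p hp => h2 p (hsub hp))
      (fun p hp => hirr p (hsub hp)) (fun p hp => hP p (hsub hp))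
    have e2 := ih hd2 (fun p hp => hprime p (hsub' hp)) (fun p hp => h2 p (hsub' hp))
      (fun p hp => hirr p (hsub' hp)) (fun p hp => hP p (hsub' hp))
    have h3 : divSet P (insert q D) D' ⊆ divSet P D D' := fun ℓ ⟨hℓ, hg, h3, h4⟩ =>
      ⟨hℓ, hg, fun p hp => h3 p (Finset.mem_insert_of_mem hp), h4⟩
    have e3 := natDensity_diff e1 e2 h3
    have h4 : divSet P D D' \ divSet P (insert q D) D' = divSet P D (insert q D') := by
      ext ℓ
      constructor
      · rintro ⟨⟨hℓ, hg, h5, h6⟩, h7⟩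
        refine ⟨hℓ, hg, h5, fun p hp => ?_⟩
        rcases Finset.mem_insert.1 hp with rfl | hp
        · intro h8
          refine h7 ⟨hℓ, hg, fun p' hp' => ?_, h6⟩
          rcases Finset.mem_insert.1 hp' with rfl | hp'
          · exact h8
          · exact h5 p' hp'
        · exact h6 p hp
      · rintro ⟨hℓ, hg, h5, h6⟩
        refine ⟨⟨hℓ, hg, h5, fun p hp => h6 p (Finset.mem_insert_of_mem hp)⟩, ?_⟩
        rintro ⟨_, _, h7, _⟩
        exact h6 q (Finset.mem_insert_self q D') (h7 q (Finset.mem_insert_self q D))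
    rw [h4] at e3
    convert e3 using 1
    rw [Finset.prod_insert hq, Finset.prod_insert hqD]
    ring

open InvGal

/-- **`y² + y = x³ - x`, `P = (0, 0)`, any disjoint finite sets `D`, `D'` of odd primes.** -/
theorem natDensity37_independent {D D' : Finset ℕ} (hdisj : Disjoint D D')
    (hprime : ∀ p ∈ D ∪ D', p.Prime) (h2 : ∀ p ∈ D ∪ D', p ≠ 2) :
    HasNaturalDensity (divSet P37 D D')
      ((∏ p ∈ D, (1 - ((p : ℝ) ^ 2 - 1) / p ^ 3)) * ∏ p ∈ D', (((p : ℝ) ^ 2 - 1) / p ^ 3)) :=
  natDensity_independent W37_Δ_ne semistable37 hdisj hprime h2 (fun p hp => irr37 (hprime p hp))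
    fun p hp => not_exists_nsmul37 (hprime p hp).two_le

/-- There are infinitely many primes `ℓ` for which `(0, 0)` is divisible in the group of the points of
`y² + y = x³ - x` over `𝔽_ℓ` by all `p ∈ D` and by no `p ∈ D'`. -/
theorem infinite37_independent {D D' : Finset ℕ} (hdisj : Disjoint D D')
    (hprime : ∀ p ∈ D ∪ D', p.Prime) (h2 : ∀ p ∈ D ∪ D', p ≠ 2) :
    {ℓ : ℕ | ℓ.Prime ∧ ℓ ∈ divSet P37 D D'}.Infinite := by
  refine (natDensity37_independent hdisj hprime h2).infinite ?_
  have h3 : ∀ p ∈ D ∪ D', (2 : ℝ) ≤ p := fun p hp => by exact_mod_cast (hprime p hp).two_le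
  refine mul_ne_zero (Finset.prod_ne_zero_iff.2 fun p hp => ?_)
    (Finset.prod_ne_zero_iff.2 fun p hp => ?_)
  · have h4 := h3 p (Finset.mem_union_left _ hp)
    have h5 : (0 : ℝ) < p ^ 3 := by positivity
    have h6 : ((p : ℝ) ^ 2 - 1) / p ^ 3 < 1 := by
      rw [div_lt_one h5]
      nlinarith [sq_nonneg (p : ℝ)]
    exact (sub_pos.2 h6).ne'
  · have h4 := h3 p (Finset.mem_union_right _ hp)
    have h5 : (0 : ℝ) < p ^ 3 := by positivity
    exact (div_pos (by nlinarith) h5).ne'

end Fermat.Agent.Cor.KumE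

end
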