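import Fermat.Agent.Corollaries.KumE.AffCount

/-!
# The index of a cyclic subgroup (helper62)

`G` a finite abelian group, `P ∈ G`, `p` a prime, `T` the number of the elements killed by `p`.

* `dvd_index_iff` : `p` divides the index of `⟨P⟩` if and only if `⟨P⟩ + p G ≠ G`;
* `dvd_index_iff_of_card_one`, `_of_card_sq`, `_of_card_prime` : this is never the case if `T = 1`,
  always if `T = p²`, and if `T = p` it is the case if and only if `P ∈ p G`.
* `AG.card_bad` : the number of the affine transformations of `𝔽_p²` with trivial linear part or with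
  a fixed point and an eigenvector with eigenvalue `1`.
-/

set_option autoImplicit false

noncomputable section

open Matrix

namespace Fermat.Agent.Cor.KumE

section Group

variable {G : Type*} [AddCommGroup G] [Finite G] {p : ℕ} [hp : Fact p.Prime]

/-- `⟨P⟩ + p G = G` -/
def Gen (p : ℕ) (P : G) : Prop := ∀ b : G, ∃ (n : ℤ) (c : G), b = n • P + p • c

theorem dvd_index_iff (P : G) : p ∣ (AddSubgroup.zmultiples P).index ↔ ¬ Gen p P := by
  rw [AddSubgroup.index]
  constructor
  · intro h hB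
    obtain ⟨x, hx⟩ := exists_prime_addOrderOf_dvd_card' (G := G ⧸ AddSubgroup.zmultiples P) p h
    have hsurj : Function.Surjective fun y : G ⧸ AddSubgroup.zmultiples P => p • y := by
      intro y
      obtain ⟨b, rfl⟩ := QuotientAddGroup.mk_surjective y
      obtain ⟨n, c, hb⟩ := hB b
      refine ⟨(c : G ⧸ AddSubgroup.zmultiples P), ?_⟩
      change ((p • c : G) : G ⧸ AddSubgroup.zmultiples P) = b
      rw [QuotientAddGroup.eq, AddSubgroup.mem_zmultiples_iff]
      exact ⟨n, by rw [hb]; abel⟩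
    have hinj := Finite.injective_iff_surjective.2 hsurj
    have h1 : x = 0 := hinj (by
      change p • x = p • (0 : G ⧸ AddSubgroup.zmultiples P)
      rw [← hx, addOrderOf_nsmul_eq_zero, nsmul_zero])
    rw [h1, addOrderOf_zero] at hx
    exact hp.out.one_lt.ne hx
  · intro hB
    by_contra hnd
    apply hB
    have hinj : Function.Injective
        (DistribSMul.toAddMonoidHom (G ⧸ AddSubgroup.zmultiples P) p) := by
      rw [injective_iff_map_eq_zero]
      intro x hx
      have h1 : addOrderOf x ∣ p := addOrderOf_dvd_iff_nsmul_eq_zero.2 hx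
      have h2 : addOrderOf x ∣ Nat.card (G ⧸ AddSubgroup.zmultiples P) := addOrderOf_dvd_natCard x
      rcases (Nat.dvd_prime hp.out).1 h1 with h3 | h3
      · exact AddMonoid.addOrderOf_eq_one_iff.1 h3
      · exact (hnd (h3 ▸ h2)).elim
    have hsurj := Finite.injective_iff_surjective.1 hinj
    intro b
    obtain ⟨y, hy⟩ := hsurj (b : G ⧸ AddSubgroup.zmultiples P)
    obtain ⟨c, rfl⟩ := QuotientAddGroup.mk_surjective y
    have h1 : ((p • c : G) : G ⧸ AddSubgroup.zmultiples P) = b := hy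
    rw [QuotientAddGroup.eq, AddSubgroup.mem_zmultiples_iff] at h1
    obtain ⟨n, hn⟩ := h1
    exact ⟨n, c, by rw [hn]; abel⟩

/-- multiplication by `p` -/
def mulp (G : Type*) [AddCommGroup G] (p : ℕ) : G →+ G := nsmulAddMonoidHom p

theorem index_mulp_range : (mulp G p).range.index = Nat.card {b : G // p • b = 0} := by
  have h1 : Nat.card (mulp G p).ker = Nat.card {b : G // p • b = 0} := rfl
  have h2 := (mulp G p).ker.card_mul_index
  rw [AddSubgroup.index_ker] at h2
  have h3 := (mulp G p).range.card_mul_index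
  have h4 : 0 < Nat.card (mulp G p).range := Nat.card_pos
  rw [← h1]
  refine Nat.eq_of_mul_eq_mul_left h4 ?_
  rw [h3, mul_comm, h2]

theorem gen_iff (P : G) : Gen p P ↔
    AddSubgroup.zmultiples (P : G ⧸ (mulp G p).range) = ⊤ := by
  rw [AddSubgroup.eq_top_iff']
  constructor
  · intro h y
    obtain ⟨b, rfl⟩ := QuotientAddGroup.mk_surjective y
    obtain ⟨n, c, hb⟩ := h b
    rw [AddSubgroup.mem_zmultiples_iff]
    refine ⟨n, ?_⟩
    change ((n • P : G) : G ⧸ (mulp G p).range) = b
    rw [QuotientAddGroup.eq]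
    exact ⟨c, by rw [hb]; change p • c = _; abel⟩
  · intro h b
    have h1 := h (b : G ⧸ (mulp G p).range)
    rw [AddSubgroup.mem_zmultiples_iff] at h1
    obtain ⟨n, hn⟩ := h1
    have h2 : ((n • P : G) : G ⧸ (mulp G p).range) = b := hn
    rw [QuotientAddGroup.eq] at h2
    obtain ⟨c, hc⟩ := h2
    have hc' : p • c = -(n • P) + b := hc
    exact ⟨n, c, by rw [hc']; abel⟩

theorem not_dvd_index_of_card_one (P : G) (h : Nat.card {b : G // p • b = 0} = 1) :
    ¬ p ∣ (AddSubgroup.zmultiples P).index := by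
  rw [dvd_index_iff, not_not, gen_iff]
  rw [← index_mulp_range, AddSubgroup.index, Nat.card_eq_one_iff_unique] at h
  have := h.1
  exact Subsingleton.elim _ _

theorem dvd_index_of_card_sq (P : G) (h : Nat.card {b : G // p • b = 0} = p ^ 2) :
    p ∣ (AddSubgroup.zmultiples P).index := by
  rw [dvd_index_iff, gen_iff]
  intro h1
  rw [← index_mulp_range, AddSubgroup.index] at h
  have h2 : Nat.card (AddSubgroup.zmultiples (P : G ⧸ (mulp G p).range)) = p ^ 2 := by
    rw [h1, ← h]
    exact Nat.card_congr (Equiv.Set.univ _)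
  rw [Nat.card_zmultiples] at h2
  have h3 : addOrderOf (P : G ⧸ (mulp G p).range) ∣ p := by
    rw [addOrderOf_dvd_iff_nsmul_eq_zero]
    change ((p • P : G) : G ⧸ (mulp G p).range) = 0
    rw [QuotientAddGroup.eq_zero_iff]
    exact ⟨P, rfl⟩
  rw [h2] at h3
  have h4 := Nat.le_of_dvd hp.out.pos h3
  nlinarith [hp.out.two_le]

theorem dvd_index_iff_of_card_prime (P : G) (h : Nat.card {b : G // p • b = 0} = p) :
    p ∣ (AddSubgroup.zmultiples P).index ↔ ∃ c : G, P = p • c := by
  rw [dvd_index_iff, gen_iff]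
  rw [← index_mulp_range, AddSubgroup.index] at h
  have h1 : (P : G ⧸ (mulp G p).range) = 0 ↔ ∃ c : G, P = p • c := by
    rw [QuotientAddGroup.eq_zero_iff]
    constructor
    · rintro ⟨c, hc⟩
      exact ⟨c, hc.symm⟩
    · rintro ⟨c, hc⟩
      exact ⟨c, hc.symm⟩
  rw [← h1]
  constructor
  · intro h2
    by_contra h3
    exact h2 (zmultiples_eq_top_of_prime_card h h3)
  · intro h2 h3
    rw [h2, AddSubgroup.zmultiples_zero_eq_bot] at h3
    have h4 : Nat.card (⊥ : AddSubgroup (G ⧸ (mulp G p).range)) = p := by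
      rw [h3, AddSubgroup.card_top, h]
    rw [AddSubgroup.card_bot] at h4
    exact hp.out.one_lt.ne h4

end Group

namespace AG

variable {p : ℕ} [hp : Fact p.Prime]

local notation "M2" => Matrix (Fin 2) (Fin 2) (ZMod p)
local notation "GL2" => GL (Fin 2) (ZMod p)
local notation "V2" => Fin 2 → ZMod p

/-- rank and nullity of `1 - g` -/
theorem card_fix_mul (g : GL2) :
    Nat.card {v : V2 // (g : M2) *ᵥ v = v} *
      Nat.card {t : V2 | ∃ v : V2, t + (g : M2) *ᵥ v = v} = p ^ 2 := by
  let f : V2 →+ V2 := (Matrix.mulVecLin (1 - (g : M2))).toAddMonoidHom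
  have hf : ∀ v, f v = v - (g : M2) *ᵥ v := fun v => by
    change (1 - (g : M2)) *ᵥ v = _
    rw [Matrix.sub_mulVec, Matrix.one_mulVec]
  have h1 : Nat.card {v : V2 // (g : M2) *ᵥ v = v} = Nat.card f.ker := by
    refine Nat.card_congr (Equiv.subtypeEquivRight fun v => ?_)
    rw [AddMonoidHom.mem_ker, hf, sub_eq_zero]
    exact eq_comm
  have h2 : Nat.card {t : V2 | ∃ v : V2, t + (g : M2) *ᵥ v = v} = Nat.card f.range := by
    refine Nat.card_congr (Equiv.subtypeEquivRight fun t => ?_)
    rw [AddMonoidHom.mem_range]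
    refine exists_congr fun v => ?_
    rw [hf, sub_eq_iff_eq_add]
    exact eq_comm
  have h3 := f.ker.card_mul_index
  rw [AddSubgroup.index_ker] at h3
  rw [h1, h2, h3, card_V2]

theorem card_fix_of_one {g : GL2} (h : g = 1) : Nat.card {v : V2 // (g : M2) *ᵥ v = v} = p ^ 2 := by
  subst h
  rw [← card_V2 (p := p)]
  refine Nat.card_congr (Equiv.subtypeUnivEquiv fun v => ?_)
  rw [Units.val_one, Matrix.one_mulVec]

theorem trace_one_eq : ((1 : GL2) : M2).trace = 1 + ((1 : GL2) : M2).det := by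
  rw [Units.val_one, Matrix.det_one, Matrix.trace_one, Fintype.card_fin]
  norm_num

theorem card_fix_of_ne_one {g : GL2} (h : g ≠ 1) (htr : (g : M2).trace = 1 + (g : M2).det) :
    Nat.card {v : V2 // (g : M2) *ᵥ v = v} = p := by
  have h1 := card_fix_mul g
  have h2 := card_trans g
  rw [if_pos htr, if_neg h] at h2
  have h3 : Nat.card {t : V2 | ∃ v : V2, t + (g : M2) *ᵥ v = v} = p := by
    have h4 : (Nat.card {t : V2 | ∃ v : V2, t + (g : M2) *ᵥ v = v} : ℤ) = (p : ℕ) := by
      rw [h2]; ring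
    exact_mod_cast h4
  rw [h3, pow_two] at h1
  exact Nat.eq_of_mul_eq_mul_right hp.out.pos h1

theorem card_fix_of_trace_ne {g : GL2} (htr : ¬ (g : M2).trace = 1 + (g : M2).det) :
    Nat.card {v : V2 // (g : M2) *ᵥ v = v} = 1 := by
  have hg : g ≠ 1 := fun h => htr (h ▸ trace_one_eq)
  have h1 := card_fix_mul g
  have h2 := card_trans g
  rw [if_neg htr, if_neg hg] at h2
  have h3 : Nat.card {t : V2 | ∃ v : V2, t + (g : M2) *ᵥ v = v} = p ^ 2 := by
    have h4 : (Nat.card {t : V2 | ∃ v : V2, t + (g : M2) *ᵥ v = v} : ℤ) = (p ^ 2 : ℕ) := by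
      rw [h2]; push_cast; ring
    exact_mod_cast h4
  rw [h3] at h1
  have h4 : 0 < p ^ 2 := pow_pos hp.out.pos 2
  exact Nat.eq_of_mul_eq_mul_right h4 (h1.trans (one_mul _).symm)

/-- trivial linear part, or eigenvalue `1` and a fixed point -/
def badSet (p : ℕ) : Set (AG p) :=
  {a | a.g = 1 ∨ ((a.g : Matrix (Fin 2) (Fin 2) (ZMod p)).trace =
    1 + (a.g : Matrix (Fin 2) (Fin 2) (ZMod p)).det ∧
    ∃ v : Fin 2 → ZMod p, a.t + (a.g : Matrix (Fin 2) (Fin 2) (ZMod p)) *ᵥ v = v)}

theorem badSet_conj (x a : AG p) (ha : a ∈ badSet p) : x * a * x⁻¹ ∈ badSet p := by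
  rcases ha with h | ⟨h, hv⟩
  · refine Or.inl ?_
    rw [mul_g, mul_g, inv_g, h, mul_one, mul_inv_cancel]
  · refine Or.inr ⟨?_, fixedSet_conj x a hv⟩
    have h1 : ((x * a * x⁻¹).g : M2) = (x.g : M2) * (a.g : M2) * ((x.g⁻¹ : GL2) : M2) := rfl
    have h2 : ((x.g⁻¹ : GL2) : M2) * (x.g : M2) = 1 := by
      rw [← Units.val_mul, inv_mul_cancel, Units.val_one]
    have h3 : (x.g : M2) * ((x.g⁻¹ : GL2) : M2) = 1 := by
      rw [← Units.val_mul, mul_inv_cancel, Units.val_one]
    rw [h1, Matrix.trace_mul_comm, ← Matrix.mul_assoc, h2, Matrix.one_mul, Matrix.det_mul,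
      Matrix.det_mul, mul_right_comm, ← Matrix.det_mul, h3, Matrix.det_one, one_mul]
    exact h

/-- the count -/
theorem card_bad (hp2 : p ≠ 2) : (Nat.card (badSet p) : ℤ) = p ^ 2 - p + p * (p ^ 3 - 2 * p) := by
  classical
  have : Fintype (GL2) := Fintype.ofFinite _
  have h1 : Nat.card (badSet p) = ∑ g : GL2, Nat.card {t : V2 // (⟨t, g⟩ : AG p) ∈ badSet p} := by
    rw [← Nat.card_sigma]
    refine Nat.card_congr
      { toFun := fun a => ⟨a.1.g, ⟨a.1.t, a.2⟩⟩
        invFun := fun x => ⟨⟨x.2.1, x.1⟩, x.2.2⟩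
        left_inv := fun _ => rfl
        right_inv := fun _ => rfl }
  have hg : ∀ g : GL2, (Nat.card {t : V2 // (⟨t, g⟩ : AG p) ∈ badSet p} : ℤ) =
      (if g = 1 then (p ^ 2 - p : ℤ) else 0) +
        (if (g : M2).trace = 1 + (g : M2).det then (p : ℤ) else 0) := by
    intro g
    by_cases h : g = 1
    · rw [if_pos h, if_pos (h ▸ trace_one_eq)]
      have h2 : Nat.card {t : V2 // (⟨t, g⟩ : AG p) ∈ badSet p} = p ^ 2 := by
        rw [← card_V2 (p := p)]
        exact Nat.card_congr (Equiv.subtypeUnivEquiv fun t => Or.inl h)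
      rw [h2]
      push_cast
      ring
    by_cases htr : (g : M2).trace = 1 + (g : M2).det
    · rw [if_neg h, if_pos htr, zero_add]
      have h2 := card_trans g
      rw [if_pos htr, if_neg h] at h2
      have h3 : Nat.card {t : V2 // (⟨t, g⟩ : AG p) ∈ badSet p} =
          Nat.card {t : V2 | ∃ v : V2, t + (g : M2) *ᵥ v = v} := by
        refine Nat.card_congr (Equiv.subtypeEquivRight fun t => ?_)
        exact ⟨fun h' => (h'.resolve_left h).2, fun h' => Or.inr ⟨htr, h'⟩⟩
      rw [h3, h2]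
      ring
    · rw [if_neg h, if_neg htr, zero_add]
      have h3 : IsEmpty {t : V2 // (⟨t, g⟩ : AG p) ∈ badSet p} := ⟨fun ⟨t, ht⟩ => by
        rcases ht with ht | ht
        · exact h ht
        · exact htr ht.1⟩
      rw [Nat.card_of_isEmpty, Nat.cast_zero]
  have h2 := Count.card_GL_eigen_one (F := ZMod p) (by rwa [ZMod.ringChar_zmod_n])
  rw [ZMod.card] at h2
  have h3 : Nat.card {g : GL2 | (g : M2).trace = 1 + (g : M2).det} =
      (Finset.univ.filter fun g : GL2 => (g : M2).trace = 1 + (g : M2).det).card := by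
    exact Nat.subtype_card _ fun x => by simp
  rw [h1, Nat.cast_sum, Finset.sum_congr rfl fun g _ => hg g, Finset.sum_add_distrib,
    Finset.sum_ite_eq', if_pos (Finset.mem_univ _), ← Finset.sum_filter, Finset.sum_const, ← h3,
    nsmul_eq_mul, h2]
  ring

end AG

end Fermat.Agent.Cor.KumE

end
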