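import Fermat.Agent.Corollaries.KumE.LTGroup
import Fermat.Agent.Corollaries.KumE.Indiv37

/-!
# The local factor of the Lang-Trotter conjecture on primitive points (helper62)

`W` an elliptic curve over `ℚ` (equation over `ℤ`), `p` an odd prime such that `Gal(ℚ̄/ℚ)` acts on
`W[p]` through all automorphisms, `P ∈ W(ℚ)` not divisible by `p` in `W(ℚ)`.

* `natDensity_dvd_index` : the primes `ℓ` for which `p` divides the index in `W(𝔽_ℓ)` of the subgroup
  generated by `P mod ℓ` have the density `(p³ - p - 1) / (p² (p - 1)² (p + 1))`;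
* `natDensity37_dvd_index` : the curve `y² + y = x³ - x`, `P = (0, 0)`, every odd `p`.

Lang and Trotter (1977) conjecture that `P mod ℓ` generates `W(𝔽_ℓ)` for a set of primes `ℓ` whose
density is (up to a rational factor) the product over `p` of the densities of the complements.
-/

set_option autoImplicit false

noncomputable section

open WeierstrassCurve WeierstrassCurve.Affine WeierstrassCurve.Affine.Point Module Matrix
open scoped WeierstrassCurve.Affine
open Fermat.Agent.Tate Fermat.Agent.ECRed Fermat.Agent.FrobDensity Fermat.Agent.Classic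
open Fermat.Agent.Frob

namespace Fermat.Agent.Cor.KumE

local notation "Qbar" => AlgebraicClosure ℚ
local notation "Γℚ" => (AlgebraicClosure ℚ ≃ₐ[ℚ] AlgebraicClosure ℚ)

variable {W : WeierstrassCurve ℤ} {p : ℕ} [hp : Fact p.Prime]

theorem finite_point {ℓ : ℕ} [hℓ : Fact ℓ.Prime] (W : WeierstrassCurve ℤ) :
    Finite (W.reductionMod ℓ).toAffine.Point :=
  Finite.of_equiv _ (LTF.Chain.pointEquiv (W.reductionMod ℓ)).symm

/-- the points over `𝔽_ℓ` killed by `p` are the points of `W[p]` fixed by Frobenius -/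
theorem card_torsion_eq {ℓ : ℕ} [hℓ : Fact ℓ.Prime] (hgood : W.IsGoodPrimeFor ℓ) (hne : ℓ ≠ p)
    {A : ValuationSubring (AlgebraicClosure ℚ)} (hA : A.LiesOverPrime ℓ) {F : Γℚ}
    (hF : A.IsFrobeniusAt F ℓ) :
    Nat.card {x : PQbar W // p • x = 0 ∧ F • x = x} =
      Nat.card {b : (W.reductionMod ℓ).toAffine.Point // p • b = 0} := by
  classical
  have hchar := charP_residueField_of_liesOver hℓ.out hA
  let _ : Algebra (ZMod ℓ) (IsLocalRing.ResidueField A) := ZMod.algebra _ ℓ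
  have hne' : ((p : ℕ) : IsLocalRing.ResidueField A) ≠ 0 := by
    intro h3
    rw [CharP.cast_eq_zero_iff (IsLocalRing.ResidueField A) ℓ] at h3
    exact hne ((Nat.prime_dvd_prime_iff_eq hℓ.out hp.out).1 h3)
  have hbij := redGood_bijOn (redCurve_reductionMod W (A := A) (ℓ := ℓ))
    (isPlace_valuationSubring A) (reductionMod_Δ_ne_zero' hgood) hne'
  let r := redGood (redCurve_reductionMod W (A := A) (ℓ := ℓ)) (isPlace_valuationSubring A)
    (reductionMod_Δ_ne_zero' hgood)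
  have hr : ∀ x : PQbar W, r (F • x) = Fermat.Agent.ECFrob.frob (W.reductionMod ℓ)
    (IsLocalRing.ResidueField A) (r x) := redGood_smul_frobenius hgood hF
  have h1 : ∀ x : {x : PQbar W // p • x = 0 ∧ F • x = x},
      ∃ b : (W.reductionMod ℓ).toAffine.Point, inclMod W ℓ A b = r x := by
    rintro ⟨x, hx, hFx⟩
    refine exists_inclMod_of_frob ?_
    exact (hr x).symm.trans (congrArg r hFx)
  choose f hf using h1
  have h2 : ∀ x, p • f x = 0 := by
    rintro ⟨x, hx, hFx⟩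
    refine inclMod_injective (A := A) ?_
    rw [map_nsmul, hf, _root_.map_zero, ← map_nsmul]
    change r (p • x) = 0
    rw [hx, _root_.map_zero]
  refine Nat.card_congr (Equiv.ofBijective (fun x => ⟨f x, h2 x⟩) ⟨?_, ?_⟩)
  · rintro ⟨x, hx, hFx⟩ ⟨y, hy, hFy⟩ hxy
    have h3 : f ⟨x, hx, hFx⟩ = f ⟨y, hy, hFy⟩ := congrArg Subtype.val hxy
    have h4 : r x = r y := by
      rw [← hf ⟨x, hx, hFx⟩, ← hf ⟨y, hy, hFy⟩, h3]
    exact Subtype.ext (hbij.injOn hx hy h4)
  · rintro ⟨b, hb⟩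
    have h3 : p • inclMod W ℓ A b = 0 := by rw [← map_nsmul, hb, _root_.map_zero]
    obtain ⟨x, hx, hxb⟩ := hbij.surjOn h3
    have hx' : p • x = 0 := hx
    have hxb' : r x = inclMod W ℓ A b := hxb
    have h4 : p • (F • x) = 0 := by
      rw [nsmul_smul, hx']
      exact smul_zero (A := PQbar W) F
    have h5 : F • x = x := hbij.injOn h4 hx (by
      change r (F • x) = r x
      rw [hr, hxb', frob_inclMod])
    refine ⟨⟨x, hx', h5⟩, Subtype.ext (inclMod_injective (A := A) ?_)⟩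
    rw [hf]
    exact hxb'

namespace KD

variable {P : PQ W} (D : KD W p P)

theorem card_fix_eq (σ : Γℚ) :
    Nat.card {v : Fin 2 → ZMod p //
      (repP p D.hΔ σ : Matrix (Fin 2) (Fin 2) (ZMod p)) *ᵥ v = v} =
      Nat.card {x : PQbar W // p • x = 0 ∧ σ • x = x} := by
  refine Nat.card_congr
    { toFun := fun v => ⟨(D.e.symm v.1 : PQbar W),
        (Fermat.Agent.Torsion.mem_torsionBy_nat_iff p _).mp (D.e.symm v.1).2, ?_⟩
      invFun := fun x => ⟨D.e ⟨x.1, (Fermat.Agent.Torsion.mem_torsionBy_nat_iff p _).mpr x.2.1⟩, ?_⟩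
      left_inv := fun v => Subtype.ext (D.e.apply_symm_apply v.1)
      right_inv := fun x => Subtype.ext (show ((D.e.symm (D.e ⟨x.1, _⟩) :
        Submodule.torsionBy ℤ (PQbar W) (p : ℤ)) : PQbar W) = x.1 by
          rw [D.e.symm_apply_apply]) }
  · have h1 : σ • D.e.symm v.1 = D.e.symm v.1 := D.e.injective (by
      rw [D.he, D.e.apply_symm_apply, v.2])
    exact congrArg Subtype.val h1
  · rw [← D.he]
    exact congrArg D.e (Subtype.ext x.2.2)

/-- **The index and Frobenius.** -/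
theorem dvd_index_iff_mem {ℓ : ℕ} [hℓ : Fact ℓ.Prime] (hgood : W.IsGoodPrimeFor ℓ) (hne : ℓ ≠ p)
    {A : ValuationSubring (AlgebraicClosure ℚ)} (hA : A.LiesOverPrime ℓ) {F : Γℚ}
    (hF : A.IsFrobeniusAt F ℓ) {b : (W.reductionMod ℓ).toAffine.Point} (hb : RedMod ℓ P b) :
    p ∣ (AddSubgroup.zmultiples b).index ↔ D.kum F ∈ AG.badSet p := by
  have := finite_point (ℓ := ℓ) W
  have hT := (D.card_fix_eq F).trans (card_torsion_eq hgood hne hA hF)
  have hg : (D.kum F).g = repP p D.hΔ F := rfl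
  have hdiv : (∃ c : (W.reductionMod ℓ).toAffine.Point, b = p • c) ↔
      D.kum F ∈ AG.fixedSet p := by
    rw [kum_mem_fixedSet, ← exists_redMod_nsmul_iff D.hΔ hgood hp.out hne hA hF P]
    constructor
    · rintro ⟨c, hc⟩
      exact ⟨c, hc ▸ hb⟩
    · rintro ⟨c, hc⟩
      exact ⟨c, (existsUnique_redMod hgood P).unique hb hc⟩
  by_cases h : repP p D.hΔ F = 1
  · rw [AG.card_fix_of_one h] at hT
    exact ⟨fun _ => Or.inl h, fun _ => dvd_index_of_card_sq b hT.symm⟩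
  by_cases htr : (repP p D.hΔ F : Matrix (Fin 2) (Fin 2) (ZMod p)).trace =
      1 + (repP p D.hΔ F : Matrix (Fin 2) (Fin 2) (ZMod p)).det
  · rw [AG.card_fix_of_ne_one h htr] at hT
    rw [dvd_index_iff_of_card_prime b hT.symm, hdiv]
    exact ⟨fun h' => Or.inr ⟨htr, h'⟩, fun h' => (h'.resolve_left h).2⟩
  · rw [AG.card_fix_of_trace_ne htr] at hT
    refine ⟨fun h' => (not_dvd_index_of_card_one b hT.symm h').elim, fun h' => ?_⟩
    rcases h' with h' | h'
    · exact (h h').elim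
    · exact (htr h'.1).elim

theorem mem_FrobIn_bad {ℓ : ℕ} [hℓ : Fact ℓ.Prime] (hgood : W.IsGoodPrimeFor ℓ) (hne : ℓ ≠ p) :
    ℓ ∈ FrobIn D.kum (AG.badSet p) ↔ ∃ b : (W.reductionMod ℓ).toAffine.Point, RedMod ℓ P b ∧
      p ∣ (AddSubgroup.zmultiples b).index := by
  obtain ⟨A, hA, F, hF⟩ := exists_frobenius ℓ hℓ.out
  rw [LT.Period.mem_FrobIn_iff D.kum AG.badSet_conj hℓ.out hA
    (fun τ hτ => D.kum_inertia hℓ.out hgood hne hA hτ) hF]
  obtain ⟨b, hb, huniq⟩ := existsUnique_redMod hgood P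
  rw [← D.dvd_index_iff_mem hgood hne hA hF hb]
  constructor
  · exact fun h => ⟨b, hb, h⟩
  · rintro ⟨b', hb', h⟩
    rwa [huniq b' hb'] at h

end KD

/-- **The primes `ℓ` for which `p` divides the index of the subgroup generated by `P mod ℓ`** in
`W(𝔽_ℓ)` have the density `(p³ - p - 1) / (p² (p - 1)² (p + 1))`, if `p ≠ 2`, `Gal(ℚ̄/ℚ)` acts on `W[p]`
through all automorphisms and `P` is not divisible by `p` in `W(ℚ)`. -/
theorem natDensity_dvd_index (hΔ : W.Δ ≠ 0) (hp2 : p ≠ 2) (h1 : SurjMod W p) {P : PQ W}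
    (hP : ¬ ∃ R : PQ W, p • R = P) :
    HasNaturalDensity {ℓ | ∃ _ : Fact ℓ.Prime, W.IsGoodPrimeFor ℓ ∧
      ∃ b : (W.reductionMod ℓ).toAffine.Point, RedMod ℓ P b ∧
        p ∣ (AddSubgroup.zmultiples b).index}
      (((p : ℝ) ^ 3 - p - 1) / (p ^ 2 * (p - 1) ^ 2 * (p + 1))) := by
  obtain ⟨D⟩ := KD.nonempty (p := p) hΔ P
  have h := chebotarev_nat D.kum (D.kum_surjective hp2 h1 hP) D.kum_level
    (AG.badSet p) AG.badSet_conj
  have h2 : (Nat.card (AG.badSet p) : ℝ) = p ^ 2 - p + p * (p ^ 3 - 2 * p) := by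
    exact_mod_cast AG.card_bad hp2
  have h3 : (Nat.card (AG p) : ℝ) = p ^ 2 * Nat.card (GL (Fin 2) (ZMod p)) := by
    exact_mod_cast AG.card_eq
  rw [h2, h3, Cheb.card_GL2_real] at h
  have h4 := Cheb.real_pos (p := p) hp2
  have h5 : (p : ℝ) - 1 ≠ 0 := by linarith
  have h6 : (p : ℝ) + 1 ≠ 0 := by linarith
  have h7 : (p : ℝ) ≠ 0 := by linarith
  have h8 : ((p : ℝ) ^ 3 - p - 1) / (p ^ 2 * (p - 1) ^ 2 * (p + 1)) =
      (p ^ 2 - p + p * (p ^ 3 - 2 * p)) / (p ^ 2 * (p * (p - 1) ^ 2 * (p + 1))) := by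
    field_simp
    ring
  rw [h8]
  refine h.congr_of_finset (insert p W.Δ.natAbs.primeFactors) ?_
  intro ℓ hℓ hℓT
  rw [Finset.mem_insert, not_or] at hℓT
  obtain ⟨hne, hℓΔ⟩ := hℓT
  have hgood : W.IsGoodPrimeFor ℓ := fun h => hℓΔ (Nat.mem_primeFactors.mpr
    ⟨hℓ, Int.natCast_dvd.mp h, Int.natAbs_ne_zero.mpr hΔ⟩)
  have hℓ' : Fact ℓ.Prime := ⟨hℓ⟩
  rw [D.mem_FrobIn_bad hgood hne]
  exact ⟨fun h => ⟨hℓ', hgood, h⟩, fun ⟨_, _, h⟩ => h⟩

/-- The same for semistable elliptic curves over `ℚ`, `p` odd, `W[p]` irreducible. -/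
theorem natDensity_dvd_index_of_semistable (hΔ : W.Δ ≠ 0) (hW : W.IsSemistableModel)
    (hp2 : p ≠ 2) (hirr : W.ModRepIsIrreducible p) {P : PQ W} (hP : ¬ ∃ R : PQ W, p • R = P) :
    HasNaturalDensity {ℓ | ∃ _ : Fact ℓ.Prime, W.IsGoodPrimeFor ℓ ∧
      ∃ b : (W.reductionMod ℓ).toAffine.Point, RedMod ℓ P b ∧
        p ∣ (AddSubgroup.zmultiples b).index}
      (((p : ℝ) ^ 3 - p - 1) / (p ^ 2 * (p - 1) ^ 2 * (p + 1))) := by
  have h1 := surjMod_pow_of_semistable hΔ hW hp2 hirr 1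
  rw [pow_one] at h1
  exact natDensity_dvd_index hΔ hp2 h1 hP

open InvGal

/-- **`y² + y = x³ - x`, `P = (0, 0)`, every odd prime `p`.** -/
theorem natDensity37_dvd_index (hp2 : p ≠ 2) :
    HasNaturalDensity {ℓ | ∃ _ : Fact ℓ.Prime, W37.IsGoodPrimeFor ℓ ∧
      ∃ b : (W37.reductionMod ℓ).toAffine.Point, RedMod ℓ P37 b ∧
        p ∣ (AddSubgroup.zmultiples b).index}
      (((p : ℝ) ^ 3 - p - 1) / (p ^ 2 * (p - 1) ^ 2 * (p + 1))) :=
  natDensity_dvd_index_of_semistable W37_Δ_ne semistable37 hp2 (irr37 hp.out)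
    (not_exists_nsmul37 hp.out.two_le)

end Fermat.Agent.Cor.KumE

end
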