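import Fermat.Agent.Corollaries.KumE.Support
import Fermat.Agent.Corollaries.Surj.Mazur

/-!
# Local and global divisibility of rational points (helper62)

`W` an elliptic curve over `ℚ` (equation over `ℤ`), `p` an odd prime such that `Gal(ℚ̄/ℚ)` acts on
`W[p]` through all automorphisms, `P ∈ W(ℚ)`.  If `P mod ℓ` is divisible by `p` in the group
`W(𝔽_ℓ)` for almost all primes `ℓ`, then `P` is divisible by `p` in `W(ℚ)` (`exists_nsmul_eq_of_local`).
For semistable curves this applies to `p = 11` and to all primes `p ≥ 17`.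
-/

set_option autoImplicit false

noncomputable section

open WeierstrassCurve WeierstrassCurve.Affine WeierstrassCurve.Affine.Point Module
open scoped WeierstrassCurve.Affine
open Fermat.Agent.Tate Fermat.Agent.ECRed Fermat.Agent.FrobDensity

namespace Fermat.Agent.Cor.KumE

local notation "Qbar" => AlgebraicClosure ℚ
local notation "Γℚ" => (AlgebraicClosure ℚ ≃ₐ[ℚ] AlgebraicClosure ℚ)

variable {W : WeierstrassCurve ℤ}

/-- **`P mod ℓ = b`**: the rational point `P` reduces to the point `b` of the curve modulo `ℓ`: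
either `ℓ` divides the denominator of the `x`-coordinate of `P` (or `P = 0`) and `b = 0`, or the
coordinates of `P` have denominators prime to `ℓ` and reduce to the coordinates of `b`. -/
def RedMod (ℓ : ℕ) [Fact ℓ.Prime] (P : PQ W) (b : (W.reductionMod ℓ).toAffine.Point) : Prop :=
  (ZeroMod ℓ P ∧ b = 0) ∨
    ∃ (x y : ℚ) (h : (W.map (Int.castRingHom ℚ)).toAffine.Nonsingular x y)
      (h' : (W.reductionMod ℓ).toAffine.Nonsingular (x : ZMod ℓ) (y : ZMod ℓ)),
      P = Point.some x y h ∧ ¬ ℓ ∣ x.den ∧ ¬ ℓ ∣ y.den ∧ b = Point.some _ _ h'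

section Place

variable {A : ValuationSubring (AlgebraicClosure ℚ)} {ℓ : ℕ}

/-- the reduction of a rational number -/
theorem redTo_ratCast [hℓ : Fact ℓ.Prime] (hA : A.LiesOverPrime ℓ)
    [Algebra (ZMod ℓ) (IsLocalRing.ResidueField A)] {r : ℚ} (hr : ¬ ℓ ∣ r.den) :
    RedTo (IsLocalRing.residue A) (algebraMap ℚ Qbar r)
      (algebraMap (ZMod ℓ) (IsLocalRing.ResidueField A) (r : ZMod ℓ)) := by
  have hchar := charP_residueField_of_liesOver hℓ.out hA
  have h1 : ((r.den : ℕ) : IsLocalRing.ResidueField A) ≠ 0 := by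
    rw [Ne, CharP.cast_eq_zero_iff (IsLocalRing.ResidueField A) ℓ]
    exact hr
  have h2 := (isPlace_valuationSubring A).div
    (redTo_intCast (K := Qbar) (IsLocalRing.residue A) r.num)
    (redTo_natCast (K := Qbar) (IsLocalRing.residue A) r.den) h1
  have h3 : algebraMap ℚ Qbar r = ((r.num : ℤ) : Qbar) / ((r.den : ℕ) : Qbar) := by
    conv_lhs => rw [← Rat.num_div_den r]
    rw [map_div₀, map_intCast, map_natCast]
  have h4 : algebraMap (ZMod ℓ) (IsLocalRing.ResidueField A) (r : ZMod ℓ) =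
      ((r.num : ℤ) : IsLocalRing.ResidueField A) / ((r.den : ℕ) : IsLocalRing.ResidueField A) := by
    rw [Rat.cast_def, map_div₀, map_intCast, map_natCast]
  rw [h3, h4]
  exact h2

/-- the points over `𝔽_ℓ` as points over the residue field -/
def inclMod (W : WeierstrassCurve ℤ) (ℓ : ℕ) [Fact ℓ.Prime] (A : ValuationSubring (AlgebraicClosure ℚ))
    [Algebra (ZMod ℓ) (IsLocalRing.ResidueField A)] [DecidableEq (IsLocalRing.ResidueField A)] :
    (W.reductionMod ℓ).toAffine.Point →+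
      ((W.reductionMod ℓ)⁄(IsLocalRing.ResidueField A)).Point :=
  LN.ptMap (W.reductionMod ℓ).toAffine (algebraMap (ZMod ℓ) (IsLocalRing.ResidueField A))

theorem frob_inclMod [Fact ℓ.Prime] [Algebra (ZMod ℓ) (IsLocalRing.ResidueField A)]
    [DecidableEq (IsLocalRing.ResidueField A)] (b : (W.reductionMod ℓ).toAffine.Point) :
    Fermat.Agent.ECFrob.frob (W.reductionMod ℓ) (IsLocalRing.ResidueField A)
      (inclMod W ℓ A b) = inclMod W ℓ A b := by
  rcases b with _ | ⟨x, y, h⟩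
  · exact _root_.map_zero _
  · have h1 : ∀ (u v : IsLocalRing.ResidueField A)
        (huv : ((W.reductionMod ℓ)⁄(IsLocalRing.ResidueField A)).Nonsingular u v),
        u ^ ℓ = u → v ^ ℓ = v →
        Fermat.Agent.ECFrob.frob (W.reductionMod ℓ) (IsLocalRing.ResidueField A)
          (Point.some u v huv) = Point.some u v huv := by
      intro u v huv hu hv
      rw [Fermat.Agent.ECFrob.frob_some, Point.some.injEq,
        Fermat.Agent.ECFrob.frobeniusAlgHom_apply, Fermat.Agent.ECFrob.frobeniusAlgHom_apply,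
        ZMod.card]
      exact ⟨hu, hv⟩
    exact h1 _ _ _ (by rw [← map_pow, ZMod.pow_card]) (by rw [← map_pow, ZMod.pow_card])

/-- the reduction at a place above `ℓ` of a rational point with `P mod ℓ = b` -/
theorem redGood_of_redMod [hℓ : Fact ℓ.Prime] (hA : A.LiesOverPrime ℓ)
    (hgood : W.IsGoodPrimeFor ℓ) [Algebra (ZMod ℓ) (IsLocalRing.ResidueField A)]
    [DecidableEq (IsLocalRing.ResidueField A)] {P : PQ W}
    {b : (W.reductionMod ℓ).toAffine.Point} (h : RedMod ℓ P b) :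
    redGood (redCurve_reductionMod W (A := A) (ℓ := ℓ)) (isPlace_valuationSubring A)
      (reductionMod_Δ_ne_zero' hgood) (incl W P) = inclMod W ℓ A b := by
  rw [redGood_eq_iff]
  rcases h with ⟨h, rfl⟩ | ⟨x, y, hxy, h', rfl, hx, hy, rfl⟩
  · rw [_root_.map_zero, isRed_zero_right_iff]
    rw [zeroMod_iff] at h
    have h3 : xc (incl W P) = algebraMap ℚ Qbar (xc P) := LN.xc_ptMap P
    rw [h3, one_lt_valuation_iff hℓ.out hA]
    rcases h with rfl | h
    · exact Or.inl (_root_.map_zero _)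
    · exact Or.inr h
  · refine Or.inr (Or.inr ⟨Point.some_ne_zero _, Point.some_ne_zero _, ?_, ?_⟩)
    · exact redTo_ratCast hA hx
    · exact redTo_ratCast hA hy

end Place

section Main

variable {p : ℕ} [hp : Fact p.Prime]

/-- **The local-global principle for the divisibility by `p`.**  If `P mod ℓ` is divisible by `p` in
`W(𝔽_ℓ)` for all primes `ℓ` outside a finite set, then `P` is divisible by `p` in `W(ℚ)`. -/
theorem exists_nsmul_eq_of_local (hΔ : W.Δ ≠ 0) (hp2 : p ≠ 2) (h1 : SurjMod W p) {P : PQ W}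
    (S : Finset ℕ) (h : ∀ (ℓ : ℕ) [Fact ℓ.Prime], ℓ ∉ S →
      ∃ b : (W.reductionMod ℓ).toAffine.Point, RedMod ℓ P (p • b)) :
    ∃ R : PQ W, p • R = P := by
  classical
  by_contra hno
  have hodd := hp.out.odd_of_ne_two hp2
  have hΔ' : (EQ W).Δ ≠ 0 := by
    rw [EQ_Δ]
    exact_mod_cast hΔ
  obtain ⟨c, hc⟩ := exists_smul_eq_neg h1
  obtain ⟨P', hP'⟩ := Fermat.Agent.Torsion.surjective_nsmul hΔ' hp.out.ne_zero (incl W P)
  replace hP' : p • P' = incl W P := hP'
  obtain ⟨σ, hσ, hσP⟩ : ∃ σ : Γℚ, Triv (PQbar W) p σ ∧ σ • P' ≠ P' := by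
    by_contra hcon
    push Not at hcon
    refine hno (exists_nsmul_eq_iff.2 ?_)
    rw [← hP']
    exact exists_fixed_of_level hodd dvd_rfl hc (fun σ => by rw [hP', smul_incl]) hcon
  obtain ⟨ℓ, hℓ, hℓS, A, F, τ, hA, hF, hτ⟩ := exists_frob_test (N := p) (p := p) hΔ
    hp.out.ne_zero hp.out.ne_zero P P σ (S ∪ insert p W.Δ.natAbs.primeFactors)
  simp only [Finset.mem_union, Finset.mem_insert, not_or] at hℓS
  obtain ⟨hℓS, hℓp, hℓΔ⟩ := hℓS
  have hfact : Fact ℓ.Prime := ⟨hℓ⟩
  have hgood : W.IsGoodPrimeFor ℓ := fun h3 => hℓΔ (Nat.mem_primeFactors.2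
    ⟨hℓ, Int.natCast_dvd.1 h3, Int.natAbs_ne_zero.2 hΔ⟩)
  have hchar := charP_residueField_of_liesOver hℓ hA
  let _ : Algebra (ZMod ℓ) (IsLocalRing.ResidueField A) := ZMod.algebra _ ℓ
  obtain ⟨b, hb⟩ := h ℓ hℓS
  have hne : ((p : ℕ) : IsLocalRing.ResidueField A) ≠ 0 := by
    intro h3
    rw [CharP.cast_eq_zero_iff (IsLocalRing.ResidueField A) ℓ] at h3
    exact hℓp ((Nat.prime_dvd_prime_iff_eq hℓ hp.out).1 h3)
  have hbij := redGood_bijOn (redCurve_reductionMod W (A := A) (ℓ := ℓ))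
    (isPlace_valuationSubring A) (reductionMod_Δ_ne_zero' hgood) hne
  have hP1 : p • (τ⁻¹ • P') = incl W P := by rw [nsmul_smul, hP', smul_incl]
  have h3 : F • (τ⁻¹ • P') = τ⁻¹ • P' := by
    refine smul_eq_of_divisible
      (redGood (redCurve_reductionMod W (A := A) (ℓ := ℓ)) (isPlace_valuationSubring A)
        (reductionMod_Δ_ne_zero' hgood)) _ (redGood_smul_frobenius hgood hF) (p := p)
      (fun b hb => ?_) (fun x hx hrx => ?_) (fun x hx => ?_) ?_ (frob_inclMod b) ?_
    · obtain ⟨T, hT, hTb⟩ := hbij.surjOn hb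
      exact ⟨T, hT, hTb⟩
    · exact hbij.injOn hx (show p • (0 : PQbar W) = 0 from nsmul_zero _)
        (hrx.trans (_root_.map_zero _).symm)
    · have hx1 : p • (τ • x) = 0 := by
        rw [nsmul_smul, hx]
        exact smul_zero (A := PQbar W) τ
      rw [hτ x (Or.inl hx), mul_smul, mul_smul, hσ _ hx1, inv_smul_smul]
    · rw [hP1, smul_incl]
    · rw [hP1, redGood_of_redMod hA hgood hb, map_nsmul]
  rw [hτ _ (Or.inr (Or.inl hP1)), mul_smul, mul_smul, smul_inv_smul] at h3
  exact hσP (smul_left_cancel τ⁻¹ h3)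

/-- The local-global principle for the divisibility by `p` for semistable elliptic curves over `ℚ`,
`p` odd, `W[p]` irreducible. -/
theorem exists_nsmul_eq_of_local_of_semistable (hΔ : W.Δ ≠ 0) (hW : W.IsSemistableModel)
    (hp2 : p ≠ 2) (hirr : W.ModRepIsIrreducible p) {P : PQ W}
    (S : Finset ℕ) (h : ∀ (ℓ : ℕ) [Fact ℓ.Prime], ℓ ∉ S →
      ∃ b : (W.reductionMod ℓ).toAffine.Point, RedMod ℓ P (p • b)) :
    ∃ R : PQ W, p • R = P := by
  have h1 := surjMod_pow_of_semistable hΔ hW hp2 hirr 1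
  rw [pow_one] at h1
  exact exists_nsmul_eq_of_local hΔ hp2 h1 S h

/-- The local-global principle for the divisibility by `p` for semistable elliptic curves over `ℚ`,
`p = 11` or `p ≥ 17`. -/
theorem exists_nsmul_eq_of_local_of_ge (hΔ : W.Δ ≠ 0) (hW : W.IsSemistableModel)
    (hp11 : p = 11 ∨ 17 ≤ p) {P : PQ W}
    (S : Finset ℕ) (h : ∀ (ℓ : ℕ) [Fact ℓ.Prime], ℓ ∉ S →
      ∃ b : (W.reductionMod ℓ).toAffine.Point, RedMod ℓ P (p • b)) :
    ∃ R : PQ W, p • R = P :=
  exists_nsmul_eq_of_local hΔ (by omega)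
    (fun g => surjective_of_semistable_of_ge hΔ hp11 hW g) S h

end Main

end Fermat.Agent.Cor.KumE

end
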