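import Fermat.Agent.Corollaries.KumE.Curve
import Fermat.Agent.Corollaries.KumE.Frob
import Fermat.Agent.Corollaries.Sup.Kummer
import Fermat.Agent.Corollaries.Mazur.FixFin

/-!
# The support problem on elliptic curves, the part at one prime `p` (helper62)

`W` an elliptic curve over `ℚ` (equation over `ℤ`), `P, Q ∈ W(ℚ)`.  Assume that for almost all
primes `ℓ` and all `n` the congruence `n P ≡ 0 mod ℓ` implies `n Q ≡ 0 mod ℓ`.  If `p` is an odd prime
such that `Gal(ℚ̄/ℚ)` acts on `W[p]` and `W[p²]` through all automorphisms, then `Q ∈ ℤ P + p W(ℚ)`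
(`exists_eq_add_of_support`).
-/

set_option autoImplicit false

noncomputable section

open WeierstrassCurve WeierstrassCurve.Affine WeierstrassCurve.Affine.Point Module
open scoped WeierstrassCurve.Affine
open Fermat.Agent.Tate Fermat.Agent.ECRed Fermat.Agent.FrobDensity

namespace Fermat.Agent.Cor.KumE

local notation "Qbar" => AlgebraicClosure ℚ
local notation "Γℚ" => (AlgebraicClosure ℚ ≃ₐ[ℚ] AlgebraicClosure ℚ)

variable {W : WeierstrassCurve ℤ}

/-- **`P ≡ 0` modulo `ℓ`**: `P` is the zero point, or `ℓ` divides the denominator of its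
`x`-coordinate. -/
def ZeroMod (ℓ : ℕ) (P : PQ W) : Prop :=
  P = 0 ∨ ∃ (x y : ℚ) (h : (W.map (Int.castRingHom ℚ)).toAffine.Nonsingular x y),
    P = Point.some x y h ∧ ℓ ∣ x.den

theorem zeroMod_iff {ℓ : ℕ} (P : PQ W) :
    ZeroMod ℓ P ↔ P = 0 ∨ ℓ ∣ (xc P).den := by
  constructor
  · rintro (h | ⟨x, y, h, rfl, hd⟩)
    · exact Or.inl h
    · exact Or.inr hd
  · rintro (h | h)
    · exact Or.inl h
    · rcases P with _ | ⟨x, y, hxy⟩
      · exact Or.inl rfl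
      · exact Or.inr ⟨x, y, hxy, rfl, h⟩

section Val

variable {A : ValuationSubring (AlgebraicClosure ℚ)} {ℓ : ℕ}

/-- the denominators and the valuation at a place over `ℓ` -/
theorem one_lt_valuation_iff (hℓ : ℓ.Prime) (hA : A.LiesOverPrime ℓ) (r : ℚ) :
    1 < A.valuation (algebraMap ℚ Qbar r) ↔ ℓ ∣ r.den := by
  have hv : ∀ n : ℤ, ¬ (ℓ : ℤ) ∣ n → A.valuation ((n : ℤ) : Qbar) = 1 := fun n hn =>
    S13aux.val_eq_one_of_not_dvd hℓ hA hn
  have h1 : algebraMap ℚ Qbar r * ((r.den : ℤ) : Qbar) = ((r.num : ℤ) : Qbar) := by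
    rw [← map_intCast (algebraMap ℚ Qbar), ← map_intCast (algebraMap ℚ Qbar), ← map_mul]
    congr 1
    rw [Int.cast_natCast]
    exact Rat.mul_den_eq_num r
  have h2 := congrArg A.valuation h1
  rw [map_mul] at h2
  constructor
  · intro h
    by_contra hd
    have h3 : ¬ (ℓ : ℤ) ∣ (r.den : ℤ) := by exact_mod_cast hd
    rw [hv _ h3, mul_one] at h2
    rw [h2] at h
    exact absurd (A.valuation_le_one ⟨_, intCast_mem A r.num⟩) (not_le.2 h)
  · intro hd
    have h3 : ¬ (ℓ : ℤ) ∣ r.num := by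
      intro h4
      have h5 : ℓ ∣ r.num.natAbs := Int.natCast_dvd.1 h4
      have h6 := Nat.dvd_gcd h5 hd
      rw [r.reduced] at h6
      exact hℓ.one_lt.ne' (Nat.dvd_one.1 h6)
    rw [hv _ h3] at h2
    have h7 : A.valuation (((r.den : ℕ) : ℤ) : Qbar) < 1 := by
      obtain ⟨m, hm⟩ := hd
      rw [hm, Nat.cast_mul, Int.cast_mul, map_mul]
      have h8 : A.valuation (((ℓ : ℕ) : ℤ) : Qbar) < 1 := by
        rw [Int.cast_natCast]
        exact valuation_lt_one_of_liesOver hA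
      have h9 : A.valuation (((m : ℕ) : ℤ) : Qbar) ≤ 1 :=
        A.valuation_le_one ⟨_, intCast_mem A m⟩
      exact mul_lt_one_of_nonneg_of_lt_one_left zero_le h8 h9
    by_contra hle
    rw [not_lt] at hle
    have h8 := mul_lt_one_of_nonneg_of_lt_one_right hle zero_le h7
    rw [h2] at h8
    exact lt_irrefl _ h8

end Val

/-- the points of a finite set are fixed by an open subgroup -/
theorem exists_level_of_finite {S : Set (PQbar W)} (hS : S.Finite) :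
    ∃ L : IntermediateField ℚ Qbar, FiniteDimensional ℚ L ∧
      ∀ σ : Γℚ, (∀ x ∈ L, σ x = x) → ∀ x ∈ S, σ • x = x := by
  have hfin : (xc '' S ∪ yc '' S : Set Qbar).Finite := (hS.image _).union (hS.image _)
  have : Finite (xc '' S ∪ yc '' S : Set Qbar) := hfin
  refine ⟨IntermediateField.adjoin ℚ (xc '' S ∪ yc '' S),
    IntermediateField.finiteDimensional_adjoin fun x _ => Algebra.IsIntegral.isIntegral x,
    fun σ hσ x hx => ?_⟩
  have h1 := hσ _ (IntermediateField.subset_adjoin ℚ (xc '' S ∪ yc '' S)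
    (Or.inl ⟨x, hx, rfl⟩))
  have h2 := hσ _ (IntermediateField.subset_adjoin ℚ (xc '' S ∪ yc '' S)
    (Or.inr ⟨x, hx, rfl⟩))
  rcases x with _ | ⟨a, b, hab⟩
  · exact smul_zero (A := PQbar W) σ
  · rw [algEquiv_smul_def, Point.map_some, Point.some.injEq]
    exact ⟨h1, h2⟩

/-- the finite stable set which contains the points of order dividing `N` and the points `x` with
`p x = P` or `p x = Q` -/
def testSet (W : WeierstrassCurve ℤ) (N p : ℕ) (P Q : PQ W) : Set (PQbar W) :=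
  {x | N • x = 0} ∪ ({x | p • x = incl W P} ∪ {x | p • x = incl W Q})

theorem finite_testSet (hΔ : W.Δ ≠ 0) {N p : ℕ} (hN : N ≠ 0) (hp : p ≠ 0) (P Q : PQ W) :
    (testSet W N p P Q).Finite := by
  have h1 : ∀ n : ℕ, n ≠ 0 → {x : PQbar W | n • x = 0}.Finite := by
    intro n hn
    have h2 : Nat.card {x : PQbar W // n • x = 0} = n ^ 2 :=
      Fermat.Agent.Torsion.card_torsion (by
        rw [EQ_Δ]
        exact_mod_cast hΔ) (Nat.cast_ne_zero.2 hn)
    exact Nat.finite_of_card_ne_zero (α := {x : PQbar W // n • x = 0}) (by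
      rw [h2]
      exact pow_ne_zero 2 hn)
  have h2 : ∀ R : PQbar W, {x : PQbar W | p • x = R}.Finite := by
    intro R
    by_cases h : ∃ x₀ : PQbar W, p • x₀ = R
    · obtain ⟨x₀, hx₀⟩ := h
      refine ((h1 p hp).image fun x => x + x₀).subset ?_
      intro x hx
      refine ⟨x - x₀, ?_, sub_add_cancel x x₀⟩
      change p • (x - x₀) = 0
      rw [nsmul_sub, show p • x = R from hx, hx₀, sub_self]
    · convert Set.finite_empty
      ext x
      exact ⟨fun hx => (h ⟨x, hx⟩).elim, fun hx => hx.elim⟩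
  exact (h1 N hN).union ((h2 _).union (h2 _))

theorem nsmul_smul (σ : Γℚ) (n : ℕ) (x : PQbar W) : n • (σ • x) = σ • (n • x) :=
  (smul_nsmul' (A := PQbar W) σ n x).symm

theorem smul_mem_testSet {N p : ℕ} {P Q : PQ W} (σ : Γℚ) {x : PQbar W}
    (hx : x ∈ testSet W N p P Q) : σ • x ∈ testSet W N p P Q := by
  rcases hx with hx | hx | hx
  · refine Or.inl ?_
    change N • (σ • x) = 0
    rw [nsmul_smul, show N • x = 0 from hx]
    exact smul_zero (A := PQbar W) σ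
  · refine Or.inr (Or.inl ?_)
    change p • (σ • x) = incl W P
    rw [nsmul_smul, show p • x = incl W P from hx]
    exact smul_incl σ P
  · refine Or.inr (Or.inr ?_)
    change p • (σ • x) = incl W Q
    rw [nsmul_smul, show p • x = incl W Q from hx]
    exact smul_incl σ Q

/-- **Chebotarev's theorem for the division points**: an element of `Gal(ℚ̄/ℚ)` is conjugate on the
test set to a Frobenius element at a place over a prime outside a given finite set. -/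
theorem exists_frob_test (hΔ : W.Δ ≠ 0) {N p : ℕ} (hN : N ≠ 0) (hp : p ≠ 0) (P Q : PQ W) (σ : Γℚ)
    (S : Finset ℕ) : ∃ ℓ : ℕ, ℓ.Prime ∧ ℓ ∉ S ∧ ∃ (A : ValuationSubring (AlgebraicClosure ℚ))
      (F τ : Γℚ), A.LiesOverPrime ℓ ∧ A.IsFrobeniusAt F ℓ ∧
        ∀ x ∈ testSet W N p P Q, F • x = (τ⁻¹ * σ * τ) • x := by
  classical
  have hfin := finite_testSet hΔ hN hp P Q
  let X : SubMulAction Γℚ (PQbar W) := ⟨testSet W N p P Q, fun σ _ hx => smul_mem_testSet σ hx⟩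
  have hX : Finite X := hfin
  let r : Γℚ →* Equiv.Perm X := MulAction.toPermHom Γℚ X
  have hlevel : ∃ L : IntermediateField ℚ Qbar, FiniteDimensional ℚ L ∧
      ∀ σ : Γℚ, (∀ x ∈ L, σ x = x) → r σ = 1 := by
    obtain ⟨L, hL, h⟩ := exists_level_of_finite hfin
    exact ⟨L, hL, fun σ hσ => Equiv.ext fun x => Subtype.ext (h σ hσ x x.2)⟩
  obtain ⟨ℓ, hℓ, hℓS, τ, hτ⟩ := Sup.exists_frob_conj r hlevel σ S
  obtain ⟨A, hA, hF⟩ := exists_frob_place hℓ
  refine ⟨ℓ, hℓ, hℓS, A, frob ℓ, τ, hA, hF, fun x hx => ?_⟩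
  exact congrArg Subtype.val (Equiv.congr_fun hτ ⟨x, hx⟩)

section Main

variable {p : ℕ} [hp : Fact p.Prime]

/-- **The Kummer theoretic part.**  If `Q` is not in `ℤ P + p W(ℚ)`, there is an element `σ` which
acts as the multiplication by `1 + p` on `W[p²]`, fixes a point `P'` with `p P' = P` and moves a
point `Q'` with `p Q' = Q`. -/
theorem exists_galois_of_ne (hΔ : W.Δ ≠ 0) (hp2 : p ≠ 2) (h1 : SurjMod W p)
    (h2 : SurjMod W (p ^ 2)) {P Q : PQ W}
    (hno : ¬ ∃ (a : ℤ) (R : PQ W), Q = a • P + p • R) :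
    ∃ (σ : Γℚ) (P' Q' : PQbar W), p • P' = incl W P ∧ p • Q' = incl W Q ∧
      (∀ x : PQbar W, p ^ 2 • x = 0 → σ • x = (1 + p) • x) ∧ σ • P' = P' ∧ σ • Q' ≠ Q' := by
  have hodd := hp.out.odd_of_ne_two hp2
  have hdvd : p ∣ p ^ 2 := dvd_pow_self p two_ne_zero
  have hcop : (1 + p).Coprime (p ^ 2) := by
    refine Nat.Coprime.pow_right 2 ?_
    simp
  have hΔ' : (EQ W).Δ ≠ 0 := by
    rw [EQ_Δ]
    exact_mod_cast hΔ
  obtain ⟨c, hc⟩ := exists_smul_eq_neg h2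
  obtain ⟨σ₁, hσ₁⟩ := exists_smul_eq_nsmul h2 hcop
  obtain ⟨x, u, hx, hx0, hux, hu⟩ := exists_transvection hΔ h1
  have htr := exists_smul_eq hΔ h1
  obtain ⟨Q', hQ'⟩ := Fermat.Agent.Torsion.surjective_nsmul hΔ' hp.out.ne_zero (incl W Q)
  replace hQ' : p • Q' = incl W Q := hQ'
  have hQfix : ∀ σ : Γℚ, σ • (p • Q') = p • Q' := fun σ => by rw [hQ', smul_incl]
  have h1p : ∀ T : PQbar W, p • T = 0 → (1 + p) • T = T := by
    intro T hT
    rw [add_smul, one_smul, hT, add_zero]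
  have hpT : ∀ T : PQbar W, p • T = 0 → p ^ 2 • T = 0 := by
    intro T hT
    rw [pow_two, mul_smul, hT]
    exact nsmul_zero p
  -- the point `P'` and an element which fixes it
  obtain ⟨P', σ₂, hP', hσ₂, hσ₂P⟩ : ∃ (P' : PQbar W) (σ₂ : Γℚ), p • P' = incl W P ∧
      (∀ x : PQbar W, p ^ 2 • x = 0 → σ₂ • x = (1 + p) • x) ∧ σ₂ • P' = P' := by
    by_cases hP : ∃ R : PQ W, p • R = P
    · obtain ⟨R, rfl⟩ := hP
      exact ⟨incl W R, σ₁, (map_nsmul (incl W) p R).symm, hσ₁, smul_incl σ₁ R⟩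
    · obtain ⟨P', hP'⟩ := Fermat.Agent.Torsion.surjective_nsmul hΔ' hp.out.ne_zero (incl W P)
      replace hP' : p • P' = incl W P := hP'
      have hPfix : ∀ σ : Γℚ, σ • (p • P') = p • P' := fun σ => by rw [hP', smul_incl]
      obtain ⟨T, hT⟩ : ∃ T, T = σ₁⁻¹ • P' - P' := ⟨_, rfl⟩
      have hTp : p • T = 0 := by rw [hT]; exact nsmul_smul_sub hPfix σ₁⁻¹
      obtain ⟨τ, hτ, hτP⟩ := exists_smul_eq_add hodd hdvd hc htr hPfix (by
        rw [hP']
        exact fun h => hP (exists_nsmul_eq_iff.2 h)) hTp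
      refine ⟨P', σ₁ * τ, hP', fun x hx => ?_, ?_⟩
      · rw [mul_smul, hτ x hx, hσ₁ x hx]
      · rw [mul_smul, hτP, hT, add_sub_cancel, smul_inv_smul]
  have hPfix : ∀ σ : Γℚ, σ • (p • P') = p • P' := fun σ => by rw [hP', smul_incl]
  by_cases h3 : σ₂ • Q' = Q'
  · obtain ⟨τ, hτ, hτP, hτQ⟩ := exists_smul_ne hodd hdvd hc htr hx hx0 hux hu hPfix hQfix (by
      rintro ⟨a, R, hR, h4⟩
      obtain ⟨R, rfl⟩ := exists_incl_of_fixed hR
      refine hno ⟨a, R, incl_injective ?_⟩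
      rw [map_add, map_zsmul, map_nsmul, h4, hQ', hP', add_sub_cancel])
    refine ⟨σ₂ * τ, P', Q', hP', hQ', fun x hx => ?_, ?_, fun h4 => hτQ ?_⟩
    · rw [mul_smul, hτ x hx, hσ₂ x hx]
    · rw [mul_smul, hτP, hσ₂P]
    · refine smul_left_cancel σ₂ ?_
      rw [← mul_smul, h4, h3]
  · exact ⟨σ₂, P', Q', hP', hQ', hσ₂, hσ₂P, h3⟩

/-- the conjugate of the element of `exists_galois_of_ne` -/
theorem exists_frob_of_ne (hΔ : W.Δ ≠ 0) (hp2 : p ≠ 2) (h1 : SurjMod W p)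
    (h2 : SurjMod W (p ^ 2)) {P Q : PQ W}
    (hno : ¬ ∃ (a : ℤ) (R : PQ W), Q = a • P + p • R) (S : Finset ℕ) :
    ∃ ℓ : ℕ, ℓ.Prime ∧ ℓ ∉ S ∧ ∃ (A : ValuationSubring (AlgebraicClosure ℚ)) (F : Γℚ)
      (P' Q' : PQbar W), A.LiesOverPrime ℓ ∧ A.IsFrobeniusAt F ℓ ∧ p • P' = incl W P ∧
      p • Q' = incl W Q ∧ (∀ x : PQbar W, p ^ 2 • x = 0 → F • x = (1 + p) • x) ∧
      F • P' = P' ∧ F • Q' ≠ Q' := by
  obtain ⟨σ, P', Q', hP', hQ', hσ, hσP, hσQ⟩ := exists_galois_of_ne hΔ hp2 h1 h2 hno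
  obtain ⟨ℓ, hℓ, hℓS, A, F, τ, hA, hF, h⟩ := exists_frob_test (N := p ^ 2) (p := p) hΔ
    (pow_ne_zero 2 hp.out.ne_zero) hp.out.ne_zero P Q σ S
  have hP1 : p • (τ⁻¹ • P') = incl W P := by rw [nsmul_smul, hP', smul_incl]
  have hQ1 : p • (τ⁻¹ • Q') = incl W Q := by rw [nsmul_smul, hQ', smul_incl]
  refine ⟨ℓ, hℓ, hℓS, A, F, τ⁻¹ • P', τ⁻¹ • Q', hA, hF, hP1, hQ1, fun x hx => ?_, ?_,
    fun h3 => hσQ ?_⟩
  · have hx1 : p ^ 2 • (τ • x) = 0 := by
      rw [nsmul_smul, hx]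
      exact smul_zero (A := PQbar W) τ
    rw [h x (Or.inl hx), mul_smul, mul_smul, hσ _ hx1, nsmul_smul, inv_smul_smul]
  · rw [h _ (Or.inr (Or.inl hP1)), mul_smul, mul_smul, smul_inv_smul, hσP]
  · rw [h _ (Or.inr (Or.inr hQ1)), mul_smul, mul_smul, smul_inv_smul] at h3
    exact smul_left_cancel τ⁻¹ h3

/-- **The support problem, one prime `p`.** -/
theorem exists_eq_add_of_support (hΔ : W.Δ ≠ 0) (hp2 : p ≠ 2) (h1 : SurjMod W p)
    (h2 : SurjMod W (p ^ 2)) {P Q : PQ W} (S : Finset ℕ)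
    (h : ∀ ℓ : ℕ, ℓ.Prime → ℓ ∉ S → ∀ n : ℕ, n ≠ 0 → ZeroMod ℓ (n • P) → ZeroMod ℓ (n • Q)) :
    ∃ (a : ℤ) (R : PQ W), Q = a • P + p • R := by
  classical
  by_contra hno
  obtain ⟨ℓ, hℓ, hℓS, A, F, P', Q', hA, hF, hP', hQ', hF1, hFP, hFQ⟩ :=
    exists_frob_of_ne hΔ hp2 h1 h2 hno (S ∪ insert p W.Δ.natAbs.primeFactors)
  simp only [Finset.mem_union, Finset.mem_insert, not_or] at hℓS
  obtain ⟨hℓS, hℓp, hℓΔ⟩ := hℓS
  have hfact : Fact ℓ.Prime := ⟨hℓ⟩
  have hgood : W.IsGoodPrimeFor ℓ := fun h3 => hℓΔ (Nat.mem_primeFactors.2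
    ⟨hℓ, Int.natCast_dvd.1 h3, Int.natAbs_ne_zero.2 hΔ⟩)
  have hchar := charP_residueField_of_liesOver hℓ hA
  let _ : Algebra (ZMod ℓ) (IsLocalRing.ResidueField A) := ZMod.algebra _ ℓ
  have hRC := redCurve_reductionMod W (A := A) (ℓ := ℓ)
  have hPl := isPlace_valuationSubring A
  have hΔk : ((W.reductionMod ℓ)⁄(IsLocalRing.ResidueField A)).Δ ≠ 0 :=
    reductionMod_Δ_ne_zero' hgood
  let r := redGood hRC hPl hΔk
  have hr : ∀ x : PQbar W, r (F • x) = Fermat.Agent.ECFrob.frob (W.reductionMod ℓ)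
      (IsLocalRing.ResidueField A) (r x) := redGood_smul_frobenius hgood hF
  have hfin := Mazur.finite_frob_fixed (W.reductionMod ℓ) (IsLocalRing.ResidueField A)
  have hne : ∀ c : ℕ, ((p ^ c : ℕ) : IsLocalRing.ResidueField A) ≠ 0 := by
    intro c h3
    rw [CharP.cast_eq_zero_iff (IsLocalRing.ResidueField A) ℓ] at h3
    exact hℓp ((Nat.prime_dvd_prime_iff_eq hℓ hp.out).1 (hℓ.dvd_of_dvd_pow h3))
  have hbij := fun c : ℕ => redGood_bijOn hRC hPl hΔk (hne c)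
  have hsurj : ∀ (c : ℕ) b, p ^ c • b = 0 → ∃ T : PQbar W, p ^ c • T = 0 ∧ r T = b := by
    intro c b hb
    obtain ⟨T, hT, hTb⟩ := (hbij c).surjOn hb
    exact ⟨T, hT, hTb⟩
  have hinj : ∀ (c : ℕ) (x : PQbar W), p ^ c • x = 0 → r x = 0 → x = 0 := by
    intro c x hx hrx
    exact (hbij c).injOn hx (show p ^ c • (0 : PQbar W) = 0 from nsmul_zero _)
      (hrx.trans (_root_.map_zero r).symm)
  -- `ZeroMod` and the reduction
  have hzero : ∀ R : PQ W, r (incl W R) = 0 ↔ ZeroMod ℓ R := by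
    intro R
    rw [zeroMod_iff]
    change redGood hRC hPl hΔk (incl W R) = 0 ↔ _
    rw [redGood_eq_iff, isRed_zero_right_iff]
    have h3 : xc (incl W R) = algebraMap ℚ Qbar (xc R) := LN.xc_ptMap R
    rw [h3, one_lt_valuation_iff hℓ hA]
    refine or_congr_left ⟨fun h4 => incl_injective (h4.trans (_root_.map_zero _).symm), fun h4 => ?_⟩
    rw [h4, _root_.map_zero]
  obtain ⟨M, hM0, hM, hM1⟩ := exists_coprime_nsmul hp.out r _ hr hfin hsurj hinj hF1 hFP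
  rw [hP', ← map_nsmul, hzero] at hM1
  have h3 := h ℓ hℓ hℓS M hM0 hM1
  rw [← hzero, map_nsmul, ← hQ'] at h3
  refine hFQ (smul_eq_of_coprime r _ hr (fun b hb => ?_) (fun x hx => ?_) (fun x hx => ?_) ?_ hM h3)
  · have h4 := hsurj 1 b
    rw [pow_one] at h4
    exact h4 hb
  · have h4 := hinj 1 x
    rw [pow_one] at h4
    exact h4 hx
  · rw [hF1 x (by rw [pow_two, mul_smul, hx]; exact nsmul_zero p), add_smul, one_smul, hx, add_zero]
  · rw [hQ', smul_incl]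

end Main

end Fermat.Agent.Cor.KumE

end
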