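import Fermat.Agent.Corollaries.KumE.Support
import Fermat.Agent.Corollaries.MordellWeil.Main
import Fermat.Agent.Corollaries.Surj.Mazur

/-!
# The support problem on semistable elliptic curves (helper62)

The elliptic analogue of the support problem of Erdős (Corrales-Rodrigáñez and Schoof 1997), up to
torsion: `W` a semistable elliptic curve over `ℚ`, `P, Q ∈ W(ℚ)`.  If for almost all primes `ℓ` and
all `n` the congruence `n P ≡ 0 mod ℓ` implies `n Q ≡ 0 mod ℓ`, then `k Q = m P` with integers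
`k ≠ 0` and `m` (`support_problem`).
-/

set_option autoImplicit false

noncomputable section

open WeierstrassCurve WeierstrassCurve.Affine WeierstrassCurve.Affine.Point Module
open scoped WeierstrassCurve.Affine DirectSum

namespace Fermat.Agent.Cor.KumE

/-- an element of a finitely generated abelian group which is divisible by all large primes has
finite order -/
theorem exists_nsmul_eq_zero {G : Type*} [AddCommGroup G] [AddGroup.FG G] {q : G} {B : ℕ}
    (h : ∀ p : ℕ, p.Prime → B ≤ p → ∃ R : G, q = p • R) : ∃ k : ℕ, k ≠ 0 ∧ k • q = 0 := by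
  obtain ⟨r, ι, hι, p, hp, e, ⟨E⟩⟩ := AddCommGroup.equiv_free_prod_directSum_zmod G
  have hne : ∀ i, NeZero (p i ^ e i) := fun i => ⟨pow_ne_zero _ (hp i).ne_zero⟩
  have hfin : Finite (DirectSum ι fun i => ZMod (p i ^ e i)) :=
    Finite.of_equiv _ (DirectSum.addEquivProd fun i => ZMod (p i ^ e i)).symm.toEquiv
  have h1 : (E q).1 = 0 := by
    ext i
    by_contra hi
    obtain ⟨ℓ, hℓB, hℓ⟩ := Nat.exists_infinite_primes (max B (((E q).1 i).natAbs + 1))
    obtain ⟨R, hR⟩ := h ℓ hℓ ((le_max_left _ _).trans hℓB)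
    have h2 : (E q).1 i = ℓ * (E R).1 i := by
      rw [hR, map_nsmul, Prod.smul_fst, Finsupp.smul_apply, nsmul_eq_mul]
    have h3 : (ℓ : ℤ) ∣ (E q).1 i := ⟨_, h2⟩
    have h4 := Nat.le_of_dvd (Nat.pos_of_ne_zero (Int.natAbs_ne_zero.2 hi)) (Int.natCast_dvd.1 h3)
    have h5 := (le_max_right _ _).trans hℓB
    omega
  refine ⟨Nat.card (DirectSum ι fun i => ZMod (p i ^ e i)), Nat.card_pos.ne', ?_⟩
  apply E.injective
  rw [map_nsmul, _root_.map_zero]
  refine Prod.ext ?_ ?_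
  · rw [Prod.smul_fst, h1, smul_zero, Prod.fst_zero]
  · rw [Prod.smul_snd, Prod.snd_zero]
    exact card_nsmul_eq_zero'


/-- the conclusion from the information at all large primes `p` -/
theorem exists_nsmul_eq_zsmul {G : Type*} [AddCommGroup G] [AddGroup.FG G] {P Q : G} {B : ℕ}
    (h : ∀ p : ℕ, p.Prime → B ≤ p → ∃ (a : ℤ) (R : G), Q = a • P + p • R) :
    ∃ (k : ℕ) (m : ℤ), k ≠ 0 ∧ k • Q = m • P := by
  have hfg : AddGroup.FG (G ⧸ AddSubgroup.zmultiples P) := inferInstance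
  obtain ⟨k, hk, hk2⟩ := exists_nsmul_eq_zero (G := G ⧸ AddSubgroup.zmultiples P)
    (q := (QuotientAddGroup.mk Q)) (B := B) (fun p hp hB => by
      obtain ⟨a, R, hR⟩ := h p hp hB
      refine ⟨QuotientAddGroup.mk R, ?_⟩
      have h1 : (QuotientAddGroup.mk (a • P) : G ⧸ AddSubgroup.zmultiples P) = 0 :=
        (QuotientAddGroup.eq_zero_iff _).2 (AddSubgroup.zsmul_mem _
          (AddSubgroup.mem_zmultiples P) a)
      rw [hR, QuotientAddGroup.mk_add, h1, zero_add, QuotientAddGroup.mk_nsmul])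
  rw [← QuotientAddGroup.mk_nsmul, QuotientAddGroup.eq_zero_iff,
    AddSubgroup.mem_zmultiples_iff] at hk2
  obtain ⟨m, hm⟩ := hk2
  exact ⟨k, m, hk, hm.symm⟩

variable {W : WeierstrassCurve ℤ}

/-- **The support problem on elliptic curves** (Corrales-Rodrigáñez and Schoof 1997, up to torsion),
semistable curves over `ℚ`: let `P, Q ∈ W(ℚ)` be such that for all primes `ℓ` outside a finite set
and all `n ≠ 0` the congruence `n P ≡ 0 mod ℓ` implies `n Q ≡ 0 mod ℓ`.  Then `k Q = m P` with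
integers `k ≠ 0` and `m`. -/
theorem support_problem (hΔ : W.Δ ≠ 0) (hW : W.IsSemistableModel) {P Q : PQ W} (S : Finset ℕ)
    (h : ∀ ℓ : ℕ, ℓ.Prime → ℓ ∉ S → ∀ n : ℕ, n ≠ 0 → ZeroMod ℓ (n • P) → ZeroMod ℓ (n • Q)) :
    ∃ (k : ℕ) (m : ℤ), k ≠ 0 ∧ k • Q = m • P := by
  have hE : (W.map (Int.castRingHom ℚ)).IsElliptic := by
    refine ⟨isUnit_iff_ne_zero.2 ?_⟩
    rw [WeierstrassCurve.map_Δ]
    simpa using hΔ
  have hfg : AddGroup.FG (PQ W) := MordellWeil.mordell_weil ℚ (W.map (Int.castRingHom ℚ))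
  refine exists_nsmul_eq_zsmul (B := 17) fun p hp hB => ?_
  have : Fact p.Prime := ⟨hp⟩
  have h1 : SurjMod W p := fun g => surjective_of_semistable_of_ge hΔ (Or.inr hB) hW g
  exact exists_eq_add_of_support hΔ (by omega) h1 (h1.pow hΔ (by omega) 2) S h

/-- Two points which are independent over `ℤ` are separated by infinitely many primes: there are
infinitely many primes `ℓ` with `n P ≡ 0`, `n Q ≢ 0` modulo `ℓ` for some `n ≠ 0`. -/
theorem infinite_of_independent (hΔ : W.Δ ≠ 0) (hW : W.IsSemistableModel) {P Q : PQ W}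
    (h : ∀ a b : ℤ, a • P + b • Q = 0 → a = 0 ∧ b = 0) :
    {ℓ : ℕ | ℓ.Prime ∧ ∃ n : ℕ, n ≠ 0 ∧ ZeroMod ℓ (n • P) ∧ ¬ ZeroMod ℓ (n • Q)}.Infinite := by
  intro hfin
  obtain ⟨k, m, hk, hkm⟩ := support_problem hΔ hW (P := P) (Q := Q) hfin.toFinset
    (fun ℓ hℓ hℓS n hn hP => by
      by_contra hQ
      exact hℓS (hfin.mem_toFinset.2 ⟨hℓ, n, hn, hP, hQ⟩))
  have h1 := h (-m) k (by rw [neg_smul, natCast_zsmul, hkm, neg_add_cancel])
  exact hk (by exact_mod_cast h1.2)

end Fermat.Agent.Cor.KumE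

end
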